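/-
S30, package [ALG] (helper1), part 1: saturated submodules.  Prefix `s30a_`.  Mathlib only.

`𝒪` a principal ideal domain, `W` a finite free `𝒪`-module.

* `s30a_IsSat U`            : `a • w ∈ U`, `a ≠ 0` implies `w ∈ U`;
* `s30a_le_of_finrank_le`   : a saturated submodule `U' ≤ U` with `rank U ≤ rank U'` equals `U`;
* `s30a_exists_min`         : a minimal non-zero stable saturated submodule;
* `s30a_smul_top_inter`     : `I W ∩ U = I U` for a saturated `U` (in the form used for the
                              congruences);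
* `s30a_map_mem_of_mem_smul_top` : a linear form maps `I W` into `I`.
-/
import Mathlib

set_option autoImplicit false
set_option linter.unusedSectionVars false
set_option linter.style.haveILetI false

open Module

namespace Fermat.Agent.S30

section Sat

variable {𝒪 : Type*} [CommRing 𝒪] [IsDomain 𝒪] [IsPrincipalIdealRing 𝒪]
  {W : Type*} [AddCommGroup W] [Module 𝒪 W] [Module.Free 𝒪 W] [Module.Finite 𝒪 W]

/-- A submodule is saturated if it contains `w` as soon as it contains a non-zero multiple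
of `w`. -/
def s30a_IsSat (U : Submodule 𝒪 W) : Prop :=
  ∀ (a : 𝒪) (w : W), a ≠ 0 → a • w ∈ U → w ∈ U

theorem s30a_top_isSat : s30a_IsSat (⊤ : Submodule 𝒪 W) :=
  fun _ _ _ _ => Submodule.mem_top

/-- A saturated submodule `U' ≤ U` whose rank is at least the rank of `U` is `U`. -/
theorem s30a_le_of_finrank_le (U' U : Submodule 𝒪 W) (hle : U' ≤ U) (hsat : s30a_IsSat U')
    (hrank : finrank 𝒪 U ≤ finrank 𝒪 U') : U ≤ U' := by
  intro u hu
  by_contra hnot
  let b' : Basis (Fin (finrank 𝒪 U')) 𝒪 U' := finBasisOfFinrankEq 𝒪 U' rfl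
  let v : Fin (finrank 𝒪 U') → U := fun i => Submodule.inclusion hle (b' i)
  have hv : LinearIndependent 𝒪 v :=
    b'.linearIndependent.map' (Submodule.inclusion hle)
      (LinearMap.ker_eq_bot.mpr (Submodule.inclusion_injective hle))
  have hspan : ∀ y : U, y ∈ Submodule.span 𝒪 (Set.range v) → (y : W) ∈ U' := by
    intro y hy
    refine Submodule.span_induction
      (p := fun (y : U) (_ : y ∈ Submodule.span 𝒪 (Set.range v)) => (y : W) ∈ U') ?_ ?_ ?_ ?_ hy
    · rintro _ ⟨i, rfl⟩
      exact (b' i).2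
    · exact Submodule.zero_mem _
    · intro x y _ _ hx hy
      exact Submodule.add_mem _ hx hy
    · intro a x _ hx
      exact Submodule.smul_mem _ a hx
  have hli : LinearIndependent 𝒪 (Fin.cons (⟨u, hu⟩ : U) v : Fin (finrank 𝒪 U').succ → U) := by
    refine LinearIndependent.finCons' _ _ hv fun c y hy h => ?_
    by_contra hc
    apply hnot
    refine hsat c u hc ?_
    have h1 : c • u = -(y : W) := by
      have := congrArg (fun z : U => (z : W)) h
      simp only [Submodule.coe_add, Submodule.coe_smul, Submodule.coe_zero] at this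
      exact eq_neg_of_add_eq_zero_left this
    rw [h1]
    exact Submodule.neg_mem _ (hspan y hy)
  have hcard := hli.fintype_card_le_finrank
  rw [Fintype.card_fin] at hcard
  omega

/-- A minimal non-zero stable saturated submodule. -/
theorem s30a_exists_min {G : Type*} [Monoid G] [Nontrivial W] (r : G →* Module.End 𝒪 W) :
    ∃ U : Submodule 𝒪 W, U ≠ ⊥ ∧ (∀ g, ∀ x ∈ U, r g x ∈ U) ∧ s30a_IsSat U ∧
      ∀ U' : Submodule 𝒪 W, U' ≤ U → U' ≠ ⊥ → (∀ g, ∀ x ∈ U', r g x ∈ U') → s30a_IsSat U' →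
        U' = U := by
  classical
  have hex : ∃ n : ℕ, ∃ U : Submodule 𝒪 W, U ≠ ⊥ ∧ (∀ g, ∀ x ∈ U, r g x ∈ U) ∧ s30a_IsSat U ∧
      finrank 𝒪 U = n :=
    ⟨_, ⊤, top_ne_bot, fun _ _ _ => Submodule.mem_top, s30a_top_isSat, rfl⟩
  obtain ⟨U, hU0, hst, hsat, hn⟩ := Nat.find_spec hex
  refine ⟨U, hU0, hst, hsat, fun U' hle h0 hst' hsat' => ?_⟩
  have h1 : Nat.find hex ≤ finrank 𝒪 U' := Nat.find_min' hex ⟨U', h0, hst', hsat', rfl⟩
  rw [← hn] at h1
  exact le_antisymm hle (s30a_le_of_finrank_le U' U hle hsat' h1)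

/-- For a saturated submodule `U` and an ideal `I`: an element of `U` which lies in `I W` lies
in `I U`. -/
theorem s30a_smul_top_inter (U : Submodule 𝒪 W) (hsat : s30a_IsSat U) (I : Ideal 𝒪) (x : U)
    (hx : (x : W) ∈ I • (⊤ : Submodule 𝒪 W)) : x ∈ I • (⊤ : Submodule 𝒪 U) := by
  obtain ⟨a, rfl⟩ : ∃ a : 𝒪, I = Ideal.span {a} := by
    have := IsPrincipalIdealRing.principal I
    exact ⟨Submodule.IsPrincipal.generator I, (Ideal.span_singleton_generator I).symm⟩
  rw [Submodule.ideal_span_singleton_smul] at hx ⊢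
  obtain ⟨w, -, hw⟩ := (Submodule.mem_smul_pointwise_iff_exists _ _ _).mp hx
  by_cases ha : a = 0
  · subst ha
    rw [zero_smul] at hw
    have hx0 : x = 0 := Subtype.ext hw.symm
    rw [hx0]
    exact Submodule.zero_mem _
  · have hwU : w ∈ U := hsat a w ha (by rw [hw]; exact x.2)
    refine (Submodule.mem_smul_pointwise_iff_exists _ _ _).mpr ⟨⟨w, hwU⟩, Submodule.mem_top, ?_⟩
    exact Subtype.ext hw

end Sat

section Form

variable {𝒪 : Type*} [CommRing 𝒪] {M : Type*} [AddCommGroup M] [Module 𝒪 M]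

/-- A linear form maps `I M` into `I`. -/
theorem s30a_map_mem_of_mem_smul_top (φ : M →ₗ[𝒪] 𝒪) (I : Ideal 𝒪) (x : M)
    (hx : x ∈ I • (⊤ : Submodule 𝒪 M)) : φ x ∈ I := by
  refine Submodule.smul_induction_on (p := fun x => φ x ∈ I) hx ?_ ?_
  · intro a ha m _
    rw [map_smul, smul_eq_mul]
    exact Ideal.mul_mem_right _ _ ha
  · intro x y hx hy
    rw [map_add]
    exact Ideal.add_mem _ hx hy

end Form

end Fermat.Agent.S30
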