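/-
S30, package [ALG] (helper1), part 2: the generic fibre of a minimal saturated stable submodule
is irreducible.  Prefix `s30a_`.  Mathlib only (+ AlgSat).

`𝒪` a principal ideal domain with fraction field `K = FractionRing 𝒪`.

* `s30a_res`     : the restriction of an action to a stable submodule;
* `s30a_bc`      : the base change of an action to `K`;
* `s30a_denom`   : every element of `K ⊗ M` is `d⁻¹ (1 ⊗ m)`;
* `s30a_irr`     : `K ⊗ U` is irreducible for a minimal non-zero stable saturated `U`;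
* `s30a_res_rel`, `s30a_bc_rel` : quadratic relations restrict and base-change.
-/
import Mathlib
import Fermat.Agent.S30.AlgSat

set_option autoImplicit false
set_option linter.unusedSectionVars false
set_option linter.style.haveILetI false

open Module TensorProduct

namespace Fermat.Agent.S30

section Res

variable {𝒪 : Type*} [CommRing 𝒪] {W : Type*} [AddCommGroup W] [Module 𝒪 W]
  {G : Type*} [Monoid G]

/-- The restriction of an action to a stable submodule. -/
def s30a_res (r : G →* Module.End 𝒪 W) (U : Submodule 𝒪 W)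
    (hst : ∀ g, ∀ x ∈ U, r g x ∈ U) : G →* Module.End 𝒪 U where
  toFun g := (r g).restrict (hst g)
  map_one' := by
    ext x
    simp
  map_mul' g h := by
    ext x
    simp

theorem s30a_res_coe (r : G →* Module.End 𝒪 W) (U : Submodule 𝒪 W)
    (hst : ∀ g, ∀ x ∈ U, r g x ∈ U) (g : G) (x : U) :
    ((s30a_res r U hst g x : U) : W) = r g (x : W) := rfl

theorem s30a_res_rel (r : G →* Module.End 𝒪 W) (U : Submodule 𝒪 W)
    (hst : ∀ g, ∀ x ∈ U, r g x ∈ U) (g : G) (t e : 𝒪)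
    (h : r g * r g - t • r g + e • (1 : Module.End 𝒪 W) = 0) :
    s30a_res r U hst g * s30a_res r U hst g - t • s30a_res r U hst g
      + e • (1 : Module.End 𝒪 U) = 0 := by
  ext x
  have := congrArg (fun f : Module.End 𝒪 W => f (x : W)) h
  simpa [s30a_res_coe] using this

end Res

section BC

variable {𝒪 : Type*} [CommRing 𝒪] [IsDomain 𝒪] {M : Type*} [AddCommGroup M] [Module 𝒪 M]
  {G : Type*} [Monoid G]

/-- The base change of an action to the fraction field. -/
noncomputable def s30a_bc (ρ : G →* Module.End 𝒪 M) :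
    G →* Module.End (FractionRing 𝒪) (FractionRing 𝒪 ⊗[𝒪] M) where
  toFun g := (ρ g).baseChange (FractionRing 𝒪)
  map_one' := by rw [map_one, LinearMap.baseChange_one]
  map_mul' g h := by rw [map_mul, LinearMap.baseChange_mul]

theorem s30a_bc_apply (ρ : G →* Module.End 𝒪 M) (g : G) :
    s30a_bc ρ g = (ρ g).baseChange (FractionRing 𝒪) := rfl

theorem s30a_bc_tmul (ρ : G →* Module.End 𝒪 M) (g : G) (k : FractionRing 𝒪) (m : M) :
    s30a_bc ρ g (k ⊗ₜ[𝒪] m) = k ⊗ₜ[𝒪] ρ g m := by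
  rw [s30a_bc_apply, LinearMap.baseChange_tmul]

theorem s30a_bc_rel (ρ : G →* Module.End 𝒪 M) (g : G) (t e : 𝒪)
    (h : ρ g * ρ g - t • ρ g + e • (1 : Module.End 𝒪 M) = 0) :
    s30a_bc ρ g * s30a_bc ρ g - algebraMap 𝒪 (FractionRing 𝒪) t • s30a_bc ρ g
      + algebraMap 𝒪 (FractionRing 𝒪) e •
        (1 : Module.End (FractionRing 𝒪) (FractionRing 𝒪 ⊗[𝒪] M)) = 0 := by
  have h1 := congrArg (LinearMap.baseChange (FractionRing 𝒪)) h
  rw [LinearMap.baseChange_add, LinearMap.baseChange_sub, LinearMap.baseChange_mul,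
    LinearMap.baseChange_smul, LinearMap.baseChange_smul, LinearMap.baseChange_one,
    LinearMap.baseChange_zero] at h1
  rw [s30a_bc_apply, algebraMap_smul, algebraMap_smul]
  exact h1

/-- Every element of `K ⊗ M` has a non-zero multiple of the form `1 ⊗ m`. -/
theorem s30a_denom (x : FractionRing 𝒪 ⊗[𝒪] M) :
    ∃ (d : 𝒪) (m : M), d ≠ 0 ∧ d • x = (1 : FractionRing 𝒪) ⊗ₜ[𝒪] m := by
  induction x using TensorProduct.induction_on with
  | zero => exact ⟨1, 0, one_ne_zero, by rw [smul_zero, tmul_zero]⟩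
  | tmul k m =>
    obtain ⟨a, b, hb, rfl⟩ := IsFractionRing.div_surjective 𝒪 k
    have hb0 : b ≠ 0 := nonZeroDivisors.ne_zero hb
    have hbK : algebraMap 𝒪 (FractionRing 𝒪) b ≠ 0 := by
      intro h
      exact hb0 ((IsFractionRing.injective 𝒪 (FractionRing 𝒪))
        (by rw [h, map_zero]))
    refine ⟨b, a • m, hb0, ?_⟩
    rw [TensorProduct.smul_tmul', Algebra.smul_def, mul_div_cancel₀ _ hbK,
      TensorProduct.tmul_smul, TensorProduct.smul_tmul', Algebra.smul_def, mul_one]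
  | add x y hx hy =>
    obtain ⟨d1, m1, hd1, h1⟩ := hx
    obtain ⟨d2, m2, hd2, h2⟩ := hy
    refine ⟨d1 * d2, d2 • m1 + d1 • m2, mul_ne_zero hd1 hd2, ?_⟩
    rw [smul_add, mul_comm d1 d2, mul_smul, h1, mul_comm d2 d1, mul_smul, h2, tmul_add,
      TensorProduct.tmul_smul, TensorProduct.tmul_smul]

end BC

section Irr

variable {𝒪 : Type*} [CommRing 𝒪] [IsDomain 𝒪] [IsPrincipalIdealRing 𝒪]
  {W : Type*} [AddCommGroup W] [Module 𝒪 W] [Module.Free 𝒪 W] [Module.Finite 𝒪 W]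
  {G : Type*} [Monoid G]

theorem s30a_algebraMap_ne_zero (a : 𝒪) (ha : a ≠ 0) :
    algebraMap 𝒪 (FractionRing 𝒪) a ≠ 0 := by
  intro h
  exact ha ((IsFractionRing.injective 𝒪 (FractionRing 𝒪)) (by rw [h, map_zero]))

/-- The generic fibre of a minimal non-zero stable saturated submodule is irreducible. -/
theorem s30a_irr (r : G →* Module.End 𝒪 W) (U : Submodule 𝒪 W)
    (hst : ∀ g, ∀ x ∈ U, r g x ∈ U) (hsat : s30a_IsSat U)
    (hmin : ∀ U' : Submodule 𝒪 W, U' ≤ U → U' ≠ ⊥ → (∀ g, ∀ x ∈ U', r g x ∈ U') →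
      s30a_IsSat U' → U' = U)
    (Wk : Submodule (FractionRing 𝒪) (FractionRing 𝒪 ⊗[𝒪] U))
    (hWk : ∀ g, ∀ x ∈ Wk, s30a_bc (s30a_res r U hst) g x ∈ Wk) : Wk = ⊥ ∨ Wk = ⊤ := by
  by_cases hbot : Wk = ⊥
  · exact Or.inl hbot
  right
  -- membership of multiples
  have hmul : ∀ (d : 𝒪) (x : FractionRing 𝒪 ⊗[𝒪] U), d ≠ 0 → (d • x ∈ Wk ↔ x ∈ Wk) := by
    intro d x hd
    rw [← algebraMap_smul (FractionRing 𝒪) d x]
    exact Wk.smul_mem_iff (s30a_algebraMap_ne_zero d hd)
  let U'' : Submodule 𝒪 U :=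
    (Wk.restrictScalars 𝒪).comap ((TensorProduct.mk 𝒪 (FractionRing 𝒪) U) 1)
  have hU'' : ∀ u : U, u ∈ U'' ↔ (1 : FractionRing 𝒪) ⊗ₜ[𝒪] u ∈ Wk := fun u => Iff.rfl
  let U' : Submodule 𝒪 W := U''.map U.subtype
  have hU'mem : ∀ u : U, (u : W) ∈ U' ↔ u ∈ U'' := by
    intro u
    constructor
    · rintro ⟨u0, hu0, h⟩
      have : u0 = u := Subtype.ext h
      rwa [← this]
    · intro h
      exact ⟨u, h, rfl⟩
  have hle : U' ≤ U := Submodule.map_subtype_le U U''
  have hne : U' ≠ ⊥ := by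
    obtain ⟨x, hx, hx0⟩ := (Submodule.ne_bot_iff _).mp hbot
    obtain ⟨d, u, hd, hdx⟩ := s30a_denom x
    have hu : u ∈ U'' := by
      rw [hU'', ← hdx]
      exact (hmul d x hd).mpr hx
    have hu0 : u ≠ 0 := by
      rintro rfl
      rw [tmul_zero] at hdx
      rw [← algebraMap_smul (FractionRing 𝒪) d x] at hdx
      rcases smul_eq_zero.mp hdx with h | h
      · exact s30a_algebraMap_ne_zero d hd h
      · exact hx0 h
    intro h
    have h1 : (u : W) ∈ U' := (hU'mem u).mpr hu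
    rw [h, Submodule.mem_bot] at h1
    exact hu0 (Subtype.ext h1)
  have hst' : ∀ g, ∀ x ∈ U', r g x ∈ U' := by
    rintro g _ ⟨u, hu, rfl⟩
    have h1 : s30a_res r U hst g u ∈ U'' := by
      rw [hU'', ← s30a_bc_tmul]
      exact hWk g _ ((hU'' u).mp hu)
    exact (hU'mem _).mpr h1
  have hsat' : s30a_IsSat U' := by
    intro a w ha haw
    have hwU : w ∈ U := hsat a w ha (hle haw)
    have h1 : a • (⟨w, hwU⟩ : U) ∈ U'' := (hU'mem (a • (⟨w, hwU⟩ : U))).mp haw
    rw [hU'', TensorProduct.tmul_smul] at h1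
    have h2 : (⟨w, hwU⟩ : U) ∈ U'' := (hU'' _).mpr ((hmul a _ ha).mp h1)
    exact (hU'mem ⟨w, hwU⟩).mpr h2
  have heq : U' = U := hmin U' hle hne hst' hsat'
  have hall : ∀ u : U, (1 : FractionRing 𝒪) ⊗ₜ[𝒪] u ∈ Wk := by
    intro u
    rw [← hU'', ← hU'mem, heq]
    exact u.2
  rw [eq_top_iff]
  intro x _
  obtain ⟨d, u, hd, hdx⟩ := s30a_denom x
  rw [← hmul d x hd, hdx]
  exact hall u

end Irr

end Fermat.Agent.S30
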