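/-
S30, package [BLR-ODD] (helper1).  Prefix `s30b_`.  Pure algebra, Mathlib only.

Let `K` be ANY field with `2 ≠ 0`, `V` a finite-dimensional `K`-vector space, `G` a group acting
irreducibly on `V` through `ρ`, `χ : G → K` a multiplicative function and `t : G → K` such that
every `g` satisfies `ρ(g)² - t(g) ρ(g) + χ(g) = 0`.  Assume there is an element `c` with `c² = 1`
and `χ(c) = -1` ("oddness").  Then `dim V ≤ 2`.

No algebraic closure, no Burnside, no Wedderburn: with `e = (1 + ρ(c))/2` one has `e A e = K e`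
for the span `A` of `ρ(G)`, because `x ↦ x*` (`g* = χ(g) g⁻¹`) satisfies `x + x* ∈ K` and
`e* = 1 - e`.

* `s30b_pairs`            : the graph of `*`, as a subspace of `End V × End V`;
* `s30b_corner`           : `e a e ∈ K e` for `a` in the span of `ρ(G)`;
* `s30b_finrank_le_two`   : `dim V ≤ 2`.
-/
import Mathlib

set_option autoImplicit false
set_option linter.unusedSectionVars false
set_option linter.style.haveILetI false

open Module

namespace Fermat.Agent.S30

section Pairs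

variable {K V G : Type*} [Field K] [AddCommGroup V] [Module K V] [Group G]

/-- The span of the pairs `(ρ(g), χ(g) ρ(g⁻¹))`: the graph of the anti-involution. -/
def s30b_pairs (ρ : G →* Module.End K V) (χ : G → K) :
    Submodule K (Module.End K V × Module.End K V) :=
  Submodule.span K (Set.range fun g : G => (ρ g, χ g • ρ g⁻¹))

theorem s30b_gen_mem (ρ : G →* Module.End K V) (χ : G → K) (g : G) :
    (ρ g, χ g • ρ g⁻¹) ∈ s30b_pairs ρ χ :=
  Submodule.subset_span ⟨g, rfl⟩

theorem s30b_rho_mul_inv (ρ : G →* Module.End K V) (g : G) : ρ g * ρ g⁻¹ = 1 := by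
  rw [← map_mul, mul_inv_cancel, map_one]

theorem s30b_rho_inv_mul (ρ : G →* Module.End K V) (g : G) : ρ g⁻¹ * ρ g = 1 := by
  rw [← map_mul, inv_mul_cancel, map_one]

/-- `ρ(g) + χ(g) ρ(g)⁻¹ = t(g)`. -/
theorem s30b_gen_add (ρ : G →* Module.End K V) (χ t : G → K)
    (hq : ∀ g, ρ g * ρ g - t g • ρ g + χ g • (1 : Module.End K V) = 0) (g : G) :
    ρ g + χ g • ρ g⁻¹ = t g • (1 : Module.End K V) := by
  have h := congrArg (fun x => x * ρ g⁻¹) (hq g)
  simp only [add_mul, sub_mul, zero_mul, mul_assoc, smul_mul_assoc, one_mul,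
    s30b_rho_mul_inv, mul_one] at h
  rw [← sub_eq_zero]
  rw [← h]
  abel

/-- For a pair `(a, a')` the sum `a + a'` is a scalar. -/
theorem s30b_pairs_add (ρ : G →* Module.End K V) (χ t : G → K)
    (hq : ∀ g, ρ g * ρ g - t g • ρ g + χ g • (1 : Module.End K V) = 0)
    (x : Module.End K V × Module.End K V) (hx : x ∈ s30b_pairs ρ χ) :
    ∃ s : K, x.1 + x.2 = s • (1 : Module.End K V) := by
  refine Submodule.span_induction (p := fun x _ => ∃ s : K, x.1 + x.2 = s • (1 : Module.End K V))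
    ?_ ?_ ?_ ?_ hx
  · rintro _ ⟨g, rfl⟩
    exact ⟨t g, s30b_gen_add ρ χ t hq g⟩
  · exact ⟨0, by simp⟩
  · rintro x y _ _ ⟨s, hs⟩ ⟨s', hs'⟩
    refine ⟨s + s', ?_⟩
    rw [Prod.fst_add, Prod.snd_add, add_smul, ← hs, ← hs']
    abel
  · rintro a x _ ⟨s, hs⟩
    refine ⟨a * s, ?_⟩
    rw [Prod.smul_fst, Prod.smul_snd, ← smul_add, hs, smul_smul]

/-- The pairs are closed under `(a, a') (b, b') = (a b, b' a')`. -/
theorem s30b_pairs_mul (ρ : G →* Module.End K V) (χ : G → K)
    (hχ : ∀ g h, χ (g * h) = χ g * χ h)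
    (x y : Module.End K V × Module.End K V) (hx : x ∈ s30b_pairs ρ χ)
    (hy : y ∈ s30b_pairs ρ χ) : (x.1 * y.1, y.2 * x.2) ∈ s30b_pairs ρ χ := by
  refine Submodule.span_induction
    (p := fun x _ => (x.1 * y.1, y.2 * x.2) ∈ s30b_pairs ρ χ) ?_ ?_ ?_ ?_ hx
  · rintro _ ⟨g, rfl⟩
    refine Submodule.span_induction
      (p := fun y _ => ((ρ g, χ g • ρ g⁻¹).1 * y.1, y.2 * (ρ g, χ g • ρ g⁻¹).2) ∈ s30b_pairs ρ χ)
      ?_ ?_ ?_ ?_ hy
    · rintro _ ⟨h, rfl⟩
      have e : ((ρ g, χ g • ρ g⁻¹).1 * (ρ h, χ h • ρ h⁻¹).1,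
          (ρ h, χ h • ρ h⁻¹).2 * (ρ g, χ g • ρ g⁻¹).2) =
          (ρ (g * h), χ (g * h) • ρ (g * h)⁻¹) := by
        simp only [map_mul, mul_inv_rev, hχ, smul_mul_smul_comm]
        rw [mul_comm (χ h) (χ g)]
      rw [e]
      exact s30b_gen_mem ρ χ (g * h)
    · simp only [Prod.fst_zero, Prod.snd_zero, mul_zero, zero_mul]
      exact Submodule.zero_mem _
    · intro y1 y2 _ _ h1 h2
      have e : ((ρ g, χ g • ρ g⁻¹).1 * (y1 + y2).1, (y1 + y2).2 * (ρ g, χ g • ρ g⁻¹).2) =
          ((ρ g, χ g • ρ g⁻¹).1 * y1.1, y1.2 * (ρ g, χ g • ρ g⁻¹).2) +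
            ((ρ g, χ g • ρ g⁻¹).1 * y2.1, y2.2 * (ρ g, χ g • ρ g⁻¹).2) := by
        simp only [Prod.fst_add, Prod.snd_add, mul_add, add_mul, Prod.mk_add_mk]
      rw [e]
      exact Submodule.add_mem _ h1 h2
    · intro a y1 _ h1
      have e : ((ρ g, χ g • ρ g⁻¹).1 * (a • y1).1, (a • y1).2 * (ρ g, χ g • ρ g⁻¹).2) =
          a • ((ρ g, χ g • ρ g⁻¹).1 * y1.1, y1.2 * (ρ g, χ g • ρ g⁻¹).2) := by
        simp only [Prod.smul_fst, Prod.smul_snd, mul_smul_comm, smul_mul_assoc, Prod.smul_mk]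
        rw [smul_comm]
      rw [e]
      exact Submodule.smul_mem _ _ h1
  · simp only [Prod.fst_zero, Prod.snd_zero, mul_zero, zero_mul]
    exact Submodule.zero_mem _
  · intro x1 x2 _ _ h1 h2
    have e : ((x1 + x2).1 * y.1, y.2 * (x1 + x2).2) =
        (x1.1 * y.1, y.2 * x1.2) + (x2.1 * y.1, y.2 * x2.2) := by
      simp only [Prod.fst_add, Prod.snd_add, mul_add, add_mul, Prod.mk_add_mk]
    rw [e]
    exact Submodule.add_mem _ h1 h2
  · intro a x1 _ h1
    have e : ((a • x1).1 * y.1, y.2 * (a • x1).2) = a • (x1.1 * y.1, y.2 * x1.2) := by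
      simp only [Prod.smul_fst, Prod.smul_snd, mul_smul_comm, smul_mul_assoc, Prod.smul_mk]
    rw [e]
    exact Submodule.smul_mem _ _ h1

/-- Every element of the span of `ρ(G)` is the first component of a pair. -/
theorem s30b_pairs_fst (ρ : G →* Module.End K V) (χ : G → K) (a : Module.End K V)
    (ha : a ∈ Submodule.span K (Set.range ρ)) : ∃ a', (a, a') ∈ s30b_pairs ρ χ := by
  refine Submodule.span_induction (p := fun a _ => ∃ a', (a, a') ∈ s30b_pairs ρ χ)
    ?_ ?_ ?_ ?_ ha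
  · rintro _ ⟨g, rfl⟩
    exact ⟨_, s30b_gen_mem ρ χ g⟩
  · exact ⟨0, Submodule.zero_mem _⟩
  · rintro x y _ _ ⟨x', hx⟩ ⟨y', hy⟩
    exact ⟨x' + y', Submodule.add_mem _ hx hy⟩
  · rintro c x _ ⟨x', hx⟩
    exact ⟨c • x', Submodule.smul_mem _ c hx⟩

end Pairs

section Main

variable {K V G : Type*} [Field K] [AddCommGroup V] [Module K V] [Group G]

/-- `χ(1) = 1` as soon as `χ` is multiplicative and takes the value `-1`. -/
theorem s30b_chi_one (χ : G → K) (hχ : ∀ g h, χ (g * h) = χ g * χ h)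
    (c : G) (hc : c * c = 1) (hχc : χ c = -1) : χ 1 = 1 := by
  rw [← hc, hχ, hχc]
  ring

/-- The two idempotents `(1 ± ρ(c))/2` form a pair, in both orders. -/
theorem s30b_idem_mem (ρ : G →* Module.End K V) (χ : G → K)
    (hχ : ∀ g h, χ (g * h) = χ g * χ h) (c : G) (hc : c * c = 1) (hχc : χ c = -1) :
    ((2 : K)⁻¹ • (1 + ρ c), (2 : K)⁻¹ • (1 - ρ c)) ∈ s30b_pairs ρ χ ∧
      ((2 : K)⁻¹ • (1 - ρ c), (2 : K)⁻¹ • (1 + ρ c)) ∈ s30b_pairs ρ χ := by
  have hcinv : c⁻¹ = c := inv_eq_of_mul_eq_one_left hc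
  have h1 : ((1 : Module.End K V), (1 : Module.End K V)) ∈ s30b_pairs ρ χ := by
    have := s30b_gen_mem ρ χ (1 : G)
    rwa [inv_one, map_one, s30b_chi_one χ hχ c hc hχc, one_smul] at this
  have hcm : (ρ c, -ρ c) ∈ s30b_pairs ρ χ := by
    have := s30b_gen_mem ρ χ c
    rwa [hcinv, hχc, neg_one_smul] at this
  constructor
  · have e : ((2 : K)⁻¹ • (1 + ρ c), (2 : K)⁻¹ • (1 - ρ c)) =
        (2 : K)⁻¹ • (((1 : Module.End K V), (1 : Module.End K V)) + (ρ c, -ρ c)) := by
      rw [Prod.mk_add_mk, Prod.smul_mk, sub_eq_add_neg]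
    rw [e]
    exact Submodule.smul_mem _ _ (Submodule.add_mem _ h1 hcm)
  · have e : ((2 : K)⁻¹ • (1 - ρ c), (2 : K)⁻¹ • (1 + ρ c)) =
        (2 : K)⁻¹ • (((1 : Module.End K V), (1 : Module.End K V)) - (ρ c, -ρ c)) := by
      rw [Prod.mk_sub_mk, Prod.smul_mk, sub_neg_eq_add]
    rw [e]
    exact Submodule.smul_mem _ _ (Submodule.sub_mem _ h1 hcm)

/-- **The corner lemma**: if `(e, e')` is a pair with `e * e' = 0` and `e * e = e`, then
`e a e ∈ K e` for every `a` in the span of `ρ(G)`. -/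
theorem s30b_corner (ρ : G →* Module.End K V) (χ t : G → K)
    (hχ : ∀ g h, χ (g * h) = χ g * χ h)
    (hq : ∀ g, ρ g * ρ g - t g • ρ g + χ g • (1 : Module.End K V) = 0)
    (e e' : Module.End K V) (hee' : (e, e') ∈ s30b_pairs ρ χ) (hidem : e * e = e)
    (horth : e * e' = 0) (a : Module.End K V) (ha : a ∈ Submodule.span K (Set.range ρ)) :
    ∃ s : K, e * a * e = s • e := by
  obtain ⟨a', ha'⟩ := s30b_pairs_fst ρ χ a ha
  have h1 := s30b_pairs_mul ρ χ hχ _ _ hee' ha'
  have h2 := s30b_pairs_mul ρ χ hχ _ _ h1 hee'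
  obtain ⟨s, hs⟩ := s30b_pairs_add ρ χ t hq _ h2
  refine ⟨s, ?_⟩
  have h3 := congrArg (fun x => e * x) hs
  simp only [mul_add, mul_smul_comm, mul_one] at h3
  rw [← h3]
  have z : e * (e' * (a' * e')) = 0 := by rw [← mul_assoc, horth, zero_mul]
  rw [z, add_zero, ← mul_assoc, ← mul_assoc, hidem]

/-- The range of an idempotent `e` with `e A e ⊆ K e` has dimension at most one, if the
representation is irreducible. -/
theorem s30b_range_le_one [FiniteDimensional K V] (ρ : G →* Module.End K V)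
    (hirr : ∀ W : Submodule K V, (∀ g, ∀ x ∈ W, ρ g x ∈ W) → W = ⊥ ∨ W = ⊤)
    (e : Module.End K V) (hidem : e * e = e)
    (hcorner : ∀ a ∈ Submodule.span K (Set.range ρ), ∃ s : K, e * a * e = s • e) :
    Module.finrank K (LinearMap.range e) ≤ 1 := by
  by_cases hzero : LinearMap.range e = ⊥
  · rw [hzero, finrank_bot]
    exact Nat.zero_le 1
  obtain ⟨u, hu, hu0⟩ := (Submodule.ne_bot_iff _).mp hzero
  have heu : e u = u := by
    obtain ⟨w, rfl⟩ := hu
    rw [← Module.End.mul_apply, hidem]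
  -- the orbit subspace `A u`
  let A : Submodule K (Module.End K V) := Submodule.span K (Set.range ρ)
  let W : Submodule K V := A.map (LinearMap.applyₗ u : Module.End K V →ₗ[K] V)
  have hW : ∀ g, ∀ x ∈ W, ρ g x ∈ W := by
    rintro g x ⟨a, ha, rfl⟩
    refine ⟨ρ g * a, ?_, rfl⟩
    -- `A` is stable under left multiplication by `ρ g`
    refine Submodule.span_induction (p := fun a _ => ρ g * a ∈ A) ?_ ?_ ?_ ?_ ha
    · rintro _ ⟨h, rfl⟩
      rw [← map_mul]
      exact Submodule.subset_span ⟨g * h, rfl⟩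
    · rw [mul_zero]
      exact Submodule.zero_mem _
    · intro x y _ _ hx hy
      rw [mul_add]
      exact Submodule.add_mem _ hx hy
    · intro c x _ hx
      rw [mul_smul_comm]
      exact Submodule.smul_mem _ _ hx
  have huW : u ∈ W := by
    refine ⟨1, ?_, rfl⟩
    have : (1 : Module.End K V) = ρ 1 := (map_one ρ).symm
    rw [this]
    exact Submodule.subset_span ⟨1, rfl⟩
  have hWtop : W = ⊤ := by
    rcases hirr W hW with h | h
    · rw [h] at huW
      exact absurd ((Submodule.mem_bot K).mp huW) hu0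
    · exact h
  refine finrank_le_one (⟨u, hu⟩ : LinearMap.range e) ?_
  rintro ⟨v, hv⟩
  have hev : e v = v := by
    obtain ⟨w, rfl⟩ := hv
    rw [← Module.End.mul_apply, hidem]
  have hvW : v ∈ W := by rw [hWtop]; exact Submodule.mem_top
  obtain ⟨a, ha, hav⟩ := hvW
  obtain ⟨s, hs⟩ := hcorner a ha
  refine ⟨s, ?_⟩
  apply Subtype.ext
  show s • u = v
  have h1 : (e * a * e) u = v := by
    rw [Module.End.mul_apply, Module.End.mul_apply, heu]
    show e ((LinearMap.applyₗ u : Module.End K V →ₗ[K] V) a) = v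
    rw [hav, hev]
  rw [hs, LinearMap.smul_apply, heu] at h1
  exact h1

/-- **[BLR-ODD]** an irreducible representation over a field with `2 ≠ 0` in which every `g`
satisfies `g² - t(g) g + χ(g) = 0`, `χ` multiplicative, and which has an element `c` with
`c² = 1`, `χ(c) = -1`, has dimension at most `2`. -/
theorem s30b_finrank_le_two [FiniteDimensional K V] (h2 : (2 : K) ≠ 0)
    (ρ : G →* Module.End K V)
    (hirr : ∀ W : Submodule K V, (∀ g, ∀ x ∈ W, ρ g x ∈ W) → W = ⊥ ∨ W = ⊤)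
    (χ t : G → K) (hχ : ∀ g h, χ (g * h) = χ g * χ h)
    (hq : ∀ g, ρ g * ρ g - t g • ρ g + χ g • (1 : Module.End K V) = 0)
    (c : G) (hc : c * c = 1) (hχc : χ c = -1) :
    Module.finrank K V ≤ 2 := by
  set e : Module.End K V := (2 : K)⁻¹ • (1 + ρ c) with he
  set e' : Module.End K V := (2 : K)⁻¹ • (1 - ρ c) with he'
  obtain ⟨hm1, hm2⟩ := s30b_idem_mem ρ χ hχ c hc hχc
  have hcc : ρ c * ρ c = 1 := by rw [← map_mul, hc, map_one]
  have h4 : (2 : K)⁻¹ * (2 : K)⁻¹ * 2 = (2 : K)⁻¹ := by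
    field_simp
  have hidem : e * e = e := by
    rw [he, smul_mul_smul_comm]
    have : (1 + ρ c) * (1 + ρ c) = (2 : K) • (1 + ρ c) := by
      rw [mul_add, add_mul, add_mul, hcc, one_mul, mul_one, one_mul, two_smul]
      abel
    rw [this, smul_smul, h4]
  have hidem' : e' * e' = e' := by
    rw [he', smul_mul_smul_comm]
    have : (1 - ρ c) * (1 - ρ c) = (2 : K) • (1 - ρ c) := by
      rw [mul_sub, sub_mul, sub_mul, hcc, one_mul, mul_one, one_mul, two_smul]
      abel
    rw [this, smul_smul, h4]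
  have horth : e * e' = 0 := by
    rw [he, he', smul_mul_smul_comm]
    have : (1 + ρ c) * (1 - ρ c) = 0 := by
      rw [mul_sub, add_mul, add_mul, hcc, one_mul, mul_one, one_mul]
      abel
    rw [this, smul_zero]
  have horth' : e' * e = 0 := by
    rw [he, he', smul_mul_smul_comm]
    have : (1 - ρ c) * (1 + ρ c) = 0 := by
      rw [mul_add, sub_mul, sub_mul, hcc, one_mul, mul_one, one_mul]
      abel
    rw [this, smul_zero]
  have hsum : e + e' = 1 := by
    rw [he, he', ← smul_add]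
    have : (1 + ρ c) + (1 - ρ c) = (2 : K) • (1 : Module.End K V) := by
      rw [two_smul]
      abel
    rw [this, smul_smul, inv_mul_cancel₀ h2, one_smul]
  have r1 := s30b_range_le_one ρ hirr e hidem
    (fun a ha => s30b_corner ρ χ t hχ hq e e' hm1 hidem horth a ha)
  have r2 := s30b_range_le_one ρ hirr e' hidem'
    (fun a ha => s30b_corner ρ χ t hχ hq e' e hm2 hidem' horth' a ha)
  have htop : (⊤ : Submodule K V) ≤ LinearMap.range e ⊔ LinearMap.range e' := by
    intro v _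
    have : v = e v + e' v := by
      rw [← LinearMap.add_apply, hsum, Module.End.one_apply]
    rw [this]
    exact Submodule.add_mem_sup (LinearMap.mem_range_self e v) (LinearMap.mem_range_self e' v)
  calc Module.finrank K V = Module.finrank K (⊤ : Submodule K V) := (finrank_top K V).symm
    _ ≤ Module.finrank K ↥(LinearMap.range e ⊔ LinearMap.range e') :=
        Submodule.finrank_mono htop
    _ ≤ Module.finrank K (LinearMap.range e) + Module.finrank K (LinearMap.range e') :=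
        Submodule.finrank_add_le_finrank_add_finrank _ _
    _ ≤ 2 := by omega

end Main

end Fermat.Agent.S30
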