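/-
S30, package [ALG] (helper1), part 3: the rank 2 lattice.  Prefix `s30a_`.

`theorem s30a_main : s30top_AlgStatement`   (VERBATIM `Fermat/Agent/S30/Top.lean`).

`𝒪` a discrete valuation ring of characteristic `0`, `K = FractionRing 𝒪`, `W` a non-zero finite
free `𝒪`-module with an action `r` of a group `G` such that every `g` satisfies
`g² - t(g) g + ε(g) = 0`, `ε` a character with `ε(c) = -1` for an involution `c`.

* `U` := a minimal non-zero `r`-stable saturated submodule of `W` (`s30a_exists_min`);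
* `K ⊗ U` is irreducible (`s30a_irr`), hence of dimension `≤ 2` (`s30b_finrank_le_two`);
* rank 2: `V := U`; the characteristic polynomial over `K` is `X² - t X + ε(g)`
  (`s29fc_charpoly`, helper8) and descends to `𝒪` (`LinearMap.charpoly_baseChange`);
* rank 1: `U = 𝒪 u` with character `ψ`; `V := 𝒪 × 𝒪` with `ψ ⊕ ε ψ⁻¹`;
* congruences: `I W ∩ U = I U` for the saturated `U` (`s30a_smul_top_inter`).
-/
import Mathlib
import Fermat.Agent.S29.FinCore
import Fermat.Agent.S30.Top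
import Fermat.Agent.S30.BlrOdd
import Fermat.Agent.S30.AlgSat
import Fermat.Agent.S30.AlgIrr

set_option autoImplicit false
set_option linter.unusedSectionVars false
set_option linter.style.haveILetI false

open Module TensorProduct Polynomial

noncomputable section

namespace Fermat.Agent.S30

/-! ### Rank two -/

section Rank2

variable {𝒪 : Type*} [CommRing 𝒪] [IsDomain 𝒪]
  {U : Type*} [AddCommGroup U] [Module 𝒪 U] [Module.Free 𝒪 U] [Module.Finite 𝒪 U]
  {G : Type*} [Group G]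

/-- In rank 2 with irreducible generic fibre, every quadratic relation with constant term `ε(g)`
is the characteristic polynomial. -/
theorem s30a_charpoly_rank2 (ρ : G →* Module.End 𝒪 U) (ε : G →* 𝒪)
    (hrank : finrank 𝒪 U = 2)
    (hirr : ∀ Wk : Submodule (FractionRing 𝒪) (FractionRing 𝒪 ⊗[𝒪] U),
      (∀ g, ∀ x ∈ Wk, s30a_bc ρ g x ∈ Wk) → Wk = ⊥ ∨ Wk = ⊤)
    (hq : ∀ g, ∃ t : 𝒪, ρ g * ρ g - t • ρ g + ε g • (1 : Module.End 𝒪 U) = 0)
    (g : G) (t : 𝒪) (hg : ρ g * ρ g - t • ρ g + ε g • (1 : Module.End 𝒪 U) = 0) :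
    LinearMap.charpoly (ρ g) = X ^ 2 - C t * X + C (ε g) := by
  have hV : finrank (FractionRing 𝒪) (FractionRing 𝒪 ⊗[𝒪] U) = 2 := by
    rw [Module.finrank_baseChange, hrank]
  let χK : G →* FractionRing 𝒪 :=
    ((algebraMap 𝒪 (FractionRing 𝒪) : 𝒪 →+* FractionRing 𝒪) : 𝒪 →* FractionRing 𝒪).comp ε
  have hχK : ∀ g, χK g = algebraMap 𝒪 (FractionRing 𝒪) (ε g) := fun g => rfl
  have hqK : ∀ g, ∃ s : FractionRing 𝒪, s30a_bc ρ g * s30a_bc ρ g - s • s30a_bc ρ g
      + χK g • (1 : Module.End (FractionRing 𝒪) (FractionRing 𝒪 ⊗[𝒪] U)) = 0 := by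
    intro g
    obtain ⟨s, hs⟩ := hq g
    exact ⟨algebraMap 𝒪 (FractionRing 𝒪) s, s30a_bc_rel ρ g s (ε g) hs⟩
  have h1 := Fermat.Agent.S29.s29fc_charpoly hV (s30a_bc ρ) hirr χK hqK g
    (algebraMap 𝒪 (FractionRing 𝒪) t) (s30a_bc_rel ρ g t (ε g) hg)
  rw [s30a_bc_apply, LinearMap.charpoly_baseChange, hχK] at h1
  have h2 : Polynomial.map (algebraMap 𝒪 (FractionRing 𝒪)) (X ^ 2 - C t * X + C (ε g)) =
      X ^ 2 - C (algebraMap 𝒪 (FractionRing 𝒪) t) * X
        + C (algebraMap 𝒪 (FractionRing 𝒪) (ε g)) := by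
    simp only [Polynomial.map_add, Polynomial.map_sub, Polynomial.map_mul, Polynomial.map_pow,
      Polynomial.map_X, Polynomial.map_C]
  exact Polynomial.map_injective _ (IsFractionRing.injective 𝒪 (FractionRing 𝒪))
    (h1.trans h2.symm)

end Rank2

/-! ### Rank one -/

section Rank1

variable {𝒪 : Type*} [CommRing 𝒪]

/-- `diag(a, b)` on `𝒪 × 𝒪`. -/
def s30a_diag (a b : 𝒪) : Module.End 𝒪 (𝒪 × 𝒪) :=
  LinearMap.prodMap (a • (LinearMap.id : 𝒪 →ₗ[𝒪] 𝒪)) (b • (LinearMap.id : 𝒪 →ₗ[𝒪] 𝒪))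

theorem s30a_diag_apply (a b : 𝒪) (x : 𝒪 × 𝒪) : s30a_diag a b x = (a * x.1, b * x.2) := rfl

theorem s30a_diag_one : s30a_diag (1 : 𝒪) 1 = 1 := by
  ext <;> simp [s30a_diag_apply]

theorem s30a_diag_mul (a b a' b' : 𝒪) :
    s30a_diag (a * a') (b * b') = s30a_diag a b * s30a_diag a' b' := by
  ext <;> simp [s30a_diag_apply]

theorem s30a_finrank_prod [Nontrivial 𝒪] : finrank 𝒪 (𝒪 × 𝒪) = 2 := by
  rw [Module.finrank_prod, Module.finrank_self]

theorem s30a_diag_charpoly [Nontrivial 𝒪] (a b : 𝒪) :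
    LinearMap.charpoly (s30a_diag a b) = X ^ 2 - C (a + b) * X + C (a * b) := by
  rw [← LinearMap.charpoly_toMatrix (s30a_diag a b) (Basis.finTwoProd 𝒪),
    Matrix.charpoly_fin_two]
  have e : LinearMap.toMatrix (Basis.finTwoProd 𝒪) (Basis.finTwoProd 𝒪) (s30a_diag a b) =
      !![a, 0; 0, b] := by
    ext i j
    fin_cases i <;> fin_cases j <;>
      simp [LinearMap.toMatrix_apply, s30a_diag_apply]
  rw [e, Matrix.trace_fin_two_of, Matrix.det_fin_two_of]
  simp

/-- Membership in `I (𝒪 × 𝒪)`. -/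
theorem s30a_prod_mem (I : Ideal 𝒪) (a b x y : 𝒪) (ha : a ∈ I) (hb : b ∈ I) :
    ((a * x, b * y) : 𝒪 × 𝒪) ∈ I • (⊤ : Submodule 𝒪 (𝒪 × 𝒪)) := by
  have e : ((a * x, b * y) : 𝒪 × 𝒪) = a • ((x, 0) : 𝒪 × 𝒪) + b • ((0, y) : 𝒪 × 𝒪) := by
    ext <;> simp
  rw [e]
  exact Submodule.add_mem _ (Submodule.smul_mem_smul ha Submodule.mem_top)
    (Submodule.smul_mem_smul hb Submodule.mem_top)

variable [IsDomain 𝒪] {U : Type*} [AddCommGroup U] [Module 𝒪 U] [Module.Free 𝒪 U]
  [Module.Finite 𝒪 U] {G : Type*} [Group G]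

/-- In rank 1 the action is given by a character. -/
theorem s30a_rank1_char (ρ : G →* Module.End 𝒪 U) (hrank : finrank 𝒪 U = 1) :
    ∃ (ψ : G →* 𝒪) (φ : U →ₗ[𝒪] 𝒪) (u : U), φ u = 1 ∧
      ∀ g, ρ g = ψ g • (1 : Module.End 𝒪 U) := by
  let b : Basis (Fin 1) 𝒪 U := finBasisOfFinrankEq 𝒪 U hrank
  have hb : ∀ x : U, x = b.repr x 0 • b 0 := by
    intro x
    conv_lhs => rw [← b.sum_repr x]
    rw [Fin.sum_univ_one]
  have hscal : ∀ f : Module.End 𝒪 U, f = b.repr (f (b 0)) 0 • (1 : Module.End 𝒪 U) := by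
    intro f
    refine b.ext fun i => ?_
    have hi : i = 0 := Subsingleton.elim _ _
    rw [hi, LinearMap.smul_apply, Module.End.one_apply]
    exact hb (f (b 0))
  have hrepr : b.repr (b 0) 0 = 1 := by
    rw [b.repr_self, Finsupp.single_eq_same]
  let ψ : G →* 𝒪 :=
    { toFun := fun g => b.repr (ρ g (b 0)) 0
      map_one' := by
        rw [map_one, Module.End.one_apply, hrepr]
      map_mul' := fun g h => by
        rw [map_mul, Module.End.mul_apply]
        conv_lhs => rw [hscal (ρ h), LinearMap.smul_apply, Module.End.one_apply, map_smul]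
        rw [map_smul, Finsupp.smul_apply, smul_eq_mul, mul_comm] }
  refine ⟨ψ, b.coord 0, b 0, ?_, fun g => hscal (ρ g)⟩
  rw [Basis.coord_apply, hrepr]

end Rank1

/-! ### The theorem -/

/-- **[ALG]** the rank 2 lattice. -/
theorem s30a_main : s30top_AlgStatement := by
  intro 𝒪 _ _ _ _ G _ W _ _ _ _ _ r ε c hc hεc hq
  obtain ⟨U, hU0, hst, hsat, hmin⟩ := s30a_exists_min r
  haveI : Nontrivial U := Submodule.nontrivial_iff_ne_bot.mpr hU0
  have hirr := s30a_irr r U hst hsat hmin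
  have hqU : ∀ g, ∃ t : 𝒪, s30a_res r U hst g * s30a_res r U hst g - t • s30a_res r U hst g
      + ε g • (1 : Module.End 𝒪 U) = 0 := by
    intro g
    obtain ⟨t, ht⟩ := hq g
    exact ⟨t, s30a_res_rel r U hst g t (ε g) ht⟩
  have h2K : (2 : FractionRing 𝒪) ≠ 0 := two_ne_zero
  have hle2 : finrank (FractionRing 𝒪) (FractionRing 𝒪 ⊗[𝒪] U) ≤ 2 := by
    refine s30b_finrank_le_two h2K (s30a_bc (s30a_res r U hst)) hirr
      (fun g => algebraMap 𝒪 (FractionRing 𝒪) (ε g))
      (fun g => algebraMap 𝒪 (FractionRing 𝒪) (hqU g).choose) ?_ ?_ c hc ?_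
    · intro g h
      rw [map_mul, map_mul]
    · intro g
      exact s30a_bc_rel (s30a_res r U hst) g _ (ε g) (hqU g).choose_spec
    · rw [hεc, map_neg, map_one]
  rw [Module.finrank_baseChange] at hle2
  have hpos : 0 < finrank 𝒪 U := Module.finrank_pos
  have hcong : ∀ (I : Ideal 𝒪) (g : G), (∀ w : W, r g w - w ∈ I • (⊤ : Submodule 𝒪 W)) →
      ∀ v : U, s30a_res r U hst g v - v ∈ I • (⊤ : Submodule 𝒪 U) := by
    intro I g hr v
    refine s30a_smul_top_inter U hsat I _ ?_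
    rw [Submodule.coe_sub, s30a_res_coe]
    exact hr v
  have hcases : finrank 𝒪 U = 2 ∨ finrank 𝒪 U = 1 := by omega
  rcases hcases with h2 | h1
  · -- rank two
    refine ⟨U, inferInstance, inferInstance, inferInstance, inferInstance, s30a_res r U hst,
      h2, ?_, ?_⟩
    · intro g t ht
      exact s30a_charpoly_rank2 (s30a_res r U hst) ε h2 hirr hqU g t
        (s30a_res_rel r U hst g t (ε g) ht)
    · intro I g hr _ v
      exact hcong I g hr v
  · -- rank one
    obtain ⟨ψ, φ, u, hφu, hψ⟩ := s30a_rank1_char (s30a_res r U hst) h1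
    have hψinv : ∀ g, ψ g⁻¹ * ψ g = 1 := by
      intro g
      rw [← map_mul, inv_mul_cancel, map_one]
    let ρ1 : G →* Module.End 𝒪 (𝒪 × 𝒪) :=
      { toFun := fun g => s30a_diag (ψ g) (ε g * ψ g⁻¹)
        map_one' := by
          rw [inv_one, map_one, map_one, mul_one]
          exact s30a_diag_one
        map_mul' := fun g h => by
          rw [← s30a_diag_mul, map_mul, map_mul, mul_inv_rev, map_mul]
          congr 1
          ring }
    have hρ1 : ∀ g, ρ1 g = s30a_diag (ψ g) (ε g * ψ g⁻¹) := fun g => rfl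
    refine ⟨𝒪 × 𝒪, inferInstance, inferInstance, inferInstance, inferInstance, ρ1,
      s30a_finrank_prod, ?_, ?_⟩
    · intro g t ht
      have hrel := s30a_res_rel r U hst g t (ε g) ht
      rw [hψ g] at hrel
      have hs : ψ g * ψ g - t * ψ g + ε g = 0 := by
        have h3 := congrArg (fun f : Module.End 𝒪 U => φ (f u)) hrel
        simp only [LinearMap.add_apply, LinearMap.sub_apply, Module.End.mul_apply,
          LinearMap.smul_apply, Module.End.one_apply, map_add, map_sub, map_smul, hφu,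
          smul_eq_mul, mul_one, LinearMap.zero_apply, map_zero] at h3
        linear_combination h3
      have e1 : ψ g + ε g * ψ g⁻¹ = t := by
        linear_combination (ψ g⁻¹) * hs + (t - ψ g) * hψinv g
      have e2 : ψ g * (ε g * ψ g⁻¹) = ε g := by
        linear_combination (ε g) * hψinv g
      rw [hρ1, s30a_diag_charpoly, e1, e2]
    · intro I g hr hε v
      have h3 : ψ g - 1 ∈ I := by
        have h4 := s30a_map_mem_of_mem_smul_top φ I _ (hcong I g hr u)
        rw [hψ g] at h4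
        simpa [hφu] using h4
      have h5 : ε g * ψ g⁻¹ - 1 ∈ I := by
        have e : ε g * ψ g⁻¹ - 1 = (ε g - 1) * ψ g⁻¹ - ψ g⁻¹ * (ψ g - 1) := by
          linear_combination hψinv g
        rw [e]
        exact Ideal.sub_mem _ (Ideal.mul_mem_right _ _ hε) (Ideal.mul_mem_left _ _ h3)
      have e : ρ1 g v - v = ((ψ g - 1) * v.1, (ε g * ψ g⁻¹ - 1) * v.2) := by
        rw [hρ1, s30a_diag_apply]
        ext <;> simp <;> ring
      rw [e]
      exact s30a_prod_mem I _ _ _ _ h3 h5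

example : s30top_AlgStatement := s30a_main

end Fermat.Agent.S30
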