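/-
S30, leaf **[CYC-ADIC]** (helper10).  Prefix `s30cy_`.

The `p`-adic cyclotomic character with values in an arbitrary complete local ring `𝒪` with
`p ∈ 𝔪_𝒪` (no discrete valuation ring, no domain, no characteristic zero is needed):

* `s30cy_chi p 𝒪 h : (Q̄ ≃ₐ[ℚ] Q̄) →* 𝒪`;
* `s30cy_chi_spec` : if `σ t = t ^ m` for all `t ∈ μ_{p^n}` then `χ σ ≡ m` modulo `𝔪 ^ n`;
* `s30cy_chi_finiteLevel` : `χ σ ≡ 1` modulo `𝔪 ^ n` for `σ` fixing `ℚ(ζ_{p^n})`;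
* `s30cy_chi_inertia` : `χ σ = 1` for `σ` in an inertia group at `ℓ ≠ p`;
* `s30cy_chi_frob` : `χ σ = ℓ` for a Frobenius element `σ` at `ℓ ≠ p`;
* `s30cy_chi_conj` : `χ c = -1` for the complex conjugation `c` of the prelude;
* `s30cy_main : s30cy_Statement` packages all of it.

Route: `σ` acts on `μ_{p^n}` as `t ↦ t ^ e_n(σ)`, the exponents are compatible modulo `p ^ n`, and
`χ σ` is the `𝔪`-adic limit of `e_n(σ)`.  The local input is that `μ_{p^n}` injects into the residue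
field of a valuation subring over `ℓ ≠ p`.
-/
import Mathlib
import Fermat.Prelude.Def_GaloisRep_Adic
import Fermat.Prelude.Def_GaloisRep_ComplexConjugation
import Fermat.Agent.S29.Cyc

set_option autoImplicit false

noncomputable section

namespace Fermat.Agent.S30

open Fermat.Agent.S29

/-! ### `μ_{p^n}` injects into the residue field of a valuation subring over `ℓ ≠ p` -/

section Local

variable {L : Type*} [Field L] (A : ValuationSubring L)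

/-- A `p`-th root of unity which is `1` modulo the maximal ideal of a valuation subring over
`ℓ ≠ p` is `1`. -/
theorem s30cy_eq_one_of_prime {ℓ p : ℕ} (hℓ : ℓ.Prime) (hp : p.Prime) (hne : ℓ ≠ p)
    (hA : A.LiesOverPrime ℓ) (w : A) (hw : w ^ p = 1)
    (hres : IsLocalRing.residue A w = 1) : w = 1 := by
  by_contra h1
  have h2 : (w - 1) * ∑ i ∈ Finset.range p, w ^ i = 0 := by
    rw [mul_geom_sum, hw, sub_self]
  have h3 : ∑ i ∈ Finset.range p, w ^ i = 0 := by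
    rcases mul_eq_zero.1 h2 with h | h
    · exact absurd (sub_eq_zero.1 h) h1
    · exact h
  have h4 := congrArg (IsLocalRing.residue A) h3
  rw [map_sum, map_zero] at h4
  simp only [map_pow, hres, one_pow, Finset.sum_const, Finset.card_range, nsmul_eq_mul,
    mul_one] at h4
  exact s29cy_natCast_ne A hℓ hp hne hA h4

/-- A `p ^ n`-th root of unity which is `1` modulo the maximal ideal of a valuation subring over
`ℓ ≠ p` is `1`. -/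
theorem s30cy_eq_one_of_pow {ℓ p : ℕ} (hℓ : ℓ.Prime) (hp : p.Prime) (hne : ℓ ≠ p)
    (hA : A.LiesOverPrime ℓ) (n : ℕ) (w : A) (hw : w ^ p ^ n = 1)
    (hres : IsLocalRing.residue A w = 1) : w = 1 := by
  induction n generalizing w with
  | zero => simpa using hw
  | succ n ih =>
    have h1 : (w ^ p) ^ p ^ n = 1 := by rw [← pow_mul, ← pow_succ']; exact hw
    have h2 : IsLocalRing.residue A (w ^ p) = 1 := by rw [map_pow, hres, one_pow]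
    exact s30cy_eq_one_of_prime A hℓ hp hne hA w (ih (w ^ p) h1 h2) hres

/-- The `p ^ n`-th roots of unity are distinct modulo the maximal ideal of a valuation subring
over `ℓ ≠ p`. -/
theorem s30cy_residue_inj {ℓ p : ℕ} (hℓ : ℓ.Prime) (hp : p.Prime) (hne : ℓ ≠ p)
    (hA : A.LiesOverPrime ℓ) (n : ℕ) {u v : L} (hu : u ^ p ^ n = 1) (hv : v ^ p ^ n = 1)
    (huA : u ∈ A) (hvA : v ∈ A)
    (h : IsLocalRing.residue A ⟨u, huA⟩ = IsLocalRing.residue A ⟨v, hvA⟩) : u = v := by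
  have hpos : 0 < p ^ n := pow_pos hp.pos n
  have hu' : (⟨u, huA⟩ : A) ^ p ^ n = 1 := Subtype.ext (by simpa using hu)
  have hv' : (⟨v, hvA⟩ : A) ^ p ^ n = 1 := Subtype.ext (by simpa using hv)
  have hvv : (⟨v, hvA⟩ : A) ^ (p ^ n - 1) * ⟨v, hvA⟩ = 1 := by
    rw [← pow_succ, Nat.sub_add_cancel hpos, hv']
  set w : A := ⟨u, huA⟩ * (⟨v, hvA⟩ : A) ^ (p ^ n - 1) with hw
  have hw1 : w ^ p ^ n = 1 := by
    rw [hw, mul_pow, hu', one_mul, ← pow_mul, mul_comm, pow_mul, hv', one_pow]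
  have hw2 : IsLocalRing.residue A w = 1 := by
    rw [hw, map_mul, h, ← map_mul, mul_comm, hvv, map_one]
  have hw3 : w = 1 := s30cy_eq_one_of_pow A hℓ hp hne hA n w hw1 hw2
  have h5 : (⟨u, huA⟩ : A) = ⟨v, hvA⟩ := by
    calc (⟨u, huA⟩ : A) = ⟨u, huA⟩ * ((⟨v, hvA⟩ : A) ^ (p ^ n - 1) * ⟨v, hvA⟩) := by
          rw [hvv, mul_one]
      _ = w * ⟨v, hvA⟩ := by rw [hw, mul_assoc]
      _ = ⟨v, hvA⟩ := by rw [hw3, one_mul]
  exact congrArg Subtype.val h5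

end Local

/-! ### The action on `μ_{p^n}` -/

section Acts

variable (p : ℕ)

/-- `σ` acts on `μ_{p^n}` as `t ↦ t ^ m`. -/
def s30cy_Acts (σ : AlgebraicClosure ℚ ≃ₐ[ℚ] AlgebraicClosure ℚ) (n m : ℕ) : Prop :=
  ∀ t : AlgebraicClosure ℚ, t ^ p ^ n = 1 → σ t = t ^ m

variable {p}

theorem s30cy_acts_mono {σ : AlgebraicClosure ℚ ≃ₐ[ℚ] AlgebraicClosure ℚ} {n k m : ℕ}
    (h : s30cy_Acts p σ n m) (hk : k ≤ n) : s30cy_Acts p σ k m := by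
  intro t ht
  apply h t
  obtain ⟨d, rfl⟩ := Nat.exists_eq_add_of_le hk
  rw [pow_add, pow_mul, ht, one_pow]

theorem s30cy_acts_one (n : ℕ) : s30cy_Acts p 1 n 1 := by
  intro t _
  simp

theorem s30cy_acts_mul {σ τ : AlgebraicClosure ℚ ≃ₐ[ℚ] AlgebraicClosure ℚ} {n a b : ℕ}
    (hσ : s30cy_Acts p σ n a) (hτ : s30cy_Acts p τ n b) : s30cy_Acts p (σ * τ) n (a * b) := by
  intro t ht
  rw [AlgEquiv.mul_apply, hτ t ht, map_pow, hσ t ht, ← pow_mul]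

theorem s30cy_acts_of_zeta {σ : AlgebraicClosure ℚ ≃ₐ[ℚ] AlgebraicClosure ℚ} {n m : ℕ}
    (hpos : 0 < p) {ζ : AlgebraicClosure ℚ} (hζ : IsPrimitiveRoot ζ (p ^ n))
    (h : σ ζ = ζ ^ m) : s30cy_Acts p σ n m := by
  intro t ht
  have : NeZero (p ^ n) := ⟨(pow_pos hpos n).ne'⟩
  obtain ⟨i, _, rfl⟩ := hζ.eq_pow_of_pow_eq_one ht
  rw [map_pow, h, ← pow_mul, ← pow_mul, mul_comm]

theorem s30cy_exists_zeta (hpos : 0 < p) (n : ℕ) :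
    ∃ ζ : AlgebraicClosure ℚ, IsPrimitiveRoot ζ (p ^ n) := by
  have : NeZero (p ^ n) := ⟨(pow_pos hpos n).ne'⟩
  exact HasEnoughRootsOfUnity.exists_primitiveRoot (AlgebraicClosure ℚ) (p ^ n)

theorem s30cy_acts_exists (hpos : 0 < p) (σ : AlgebraicClosure ℚ ≃ₐ[ℚ] AlgebraicClosure ℚ)
    (n : ℕ) : ∃ m, s30cy_Acts p σ n m := by
  obtain ⟨ζ, hζ⟩ := s30cy_exists_zeta hpos n
  have : NeZero (p ^ n) := ⟨(pow_pos hpos n).ne'⟩
  have h1 : (σ ζ) ^ p ^ n = 1 := by rw [← map_pow, hζ.pow_eq_one, map_one]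
  obtain ⟨i, _, hi⟩ := hζ.eq_pow_of_pow_eq_one h1
  exact ⟨i, s30cy_acts_of_zeta hpos hζ hi.symm⟩

theorem s30cy_acts_modEq (hpos : 0 < p) {σ : AlgebraicClosure ℚ ≃ₐ[ℚ] AlgebraicClosure ℚ}
    {n m m' : ℕ} (h : s30cy_Acts p σ n m) (h' : s30cy_Acts p σ n m') :
    m ≡ m' [MOD p ^ n] := by
  obtain ⟨ζ, hζ⟩ := s30cy_exists_zeta hpos n
  have hk : 0 < p ^ n := pow_pos hpos n
  have h1 : ζ ^ m = ζ ^ m' := by rw [← h ζ hζ.pow_eq_one, ← h' ζ hζ.pow_eq_one]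
  have h2 : ∀ i : ℕ, ζ ^ (i % p ^ n) = ζ ^ i := by
    intro i
    conv_rhs => rw [← Nat.div_add_mod i (p ^ n), pow_add, pow_mul, hζ.pow_eq_one, one_pow,
      one_mul]
  exact hζ.pow_inj (Nat.mod_lt _ hk) (Nat.mod_lt _ hk) (by rw [h2, h2, h1])

/-- The chosen exponent `e_n(σ)`. -/
def s30cy_exp (hpos : 0 < p) (σ : AlgebraicClosure ℚ ≃ₐ[ℚ] AlgebraicClosure ℚ) (n : ℕ) : ℕ :=
  Classical.choose (s30cy_acts_exists hpos σ n)

theorem s30cy_exp_spec (hpos : 0 < p) (σ : AlgebraicClosure ℚ ≃ₐ[ℚ] AlgebraicClosure ℚ)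
    (n : ℕ) : s30cy_Acts p σ n (s30cy_exp hpos σ n) :=
  Classical.choose_spec (s30cy_acts_exists hpos σ n)

end Acts

/-! ### The limit -/

section Limit

variable {p : ℕ} (𝒪 : Type) [CommRing 𝒪] [IsLocalRing 𝒪]

variable {𝒪} in
theorem s30cy_cast_sub_mem (h𝒪 : (p : 𝒪) ∈ IsLocalRing.maximalIdeal 𝒪) {a b n : ℕ}
    (h : a ≡ b [MOD p ^ n]) :
    (a : 𝒪) - (b : 𝒪) ∈ IsLocalRing.maximalIdeal 𝒪 ^ n := by
  have h1 : ((p ^ n : ℕ) : ℤ) ∣ (a : ℤ) - (b : ℤ) := (Nat.modEq_iff_dvd.1 h.symm)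
  obtain ⟨k, hk⟩ := h1
  have h2 : (a : 𝒪) - (b : 𝒪) = ((p : 𝒪) ^ n) * (k : 𝒪) := by
    have h3 := congrArg (fun z : ℤ => (z : 𝒪)) hk
    simpa using h3
  rw [h2]
  exact Ideal.mul_mem_right _ _ (Ideal.pow_mem_pow h𝒪 n)

variable [IsAdicComplete (IsLocalRing.maximalIdeal 𝒪) 𝒪]

variable {𝒪} in
theorem s30cy_eq_zero_of_mem (x : 𝒪) (h : ∀ n : ℕ, x ∈ IsLocalRing.maximalIdeal 𝒪 ^ n) :
    x = 0 := by
  apply IsHausdorff.haus (inferInstance : IsHausdorff (IsLocalRing.maximalIdeal 𝒪) 𝒪) x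
  intro n
  rw [SModEq.zero, smul_eq_mul, Ideal.mul_top]
  exact h n

theorem s30cy_exists_lim (hpos : 0 < p) (h𝒪 : (p : 𝒪) ∈ IsLocalRing.maximalIdeal 𝒪)
    (σ : AlgebraicClosure ℚ ≃ₐ[ℚ] AlgebraicClosure ℚ) :
    ∃ x : 𝒪, ∀ n : ℕ, x - (s30cy_exp hpos σ n : 𝒪) ∈ IsLocalRing.maximalIdeal 𝒪 ^ n := by
  obtain ⟨x, hx⟩ := IsPrecomplete.prec
    (inferInstance : IsPrecomplete (IsLocalRing.maximalIdeal 𝒪) 𝒪)
    (f := fun n => (s30cy_exp hpos σ n : 𝒪)) (by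
      intro m n hmn
      rw [SModEq.sub_mem, smul_eq_mul, Ideal.mul_top]
      exact s30cy_cast_sub_mem h𝒪
        (s30cy_acts_modEq hpos (s30cy_exp_spec hpos σ m)
          (s30cy_acts_mono (s30cy_exp_spec hpos σ n) hmn)))
  refine ⟨x, fun n => ?_⟩
  have h1 := hx n
  rw [SModEq.sub_mem, smul_eq_mul, Ideal.mul_top] at h1
  have h2 := neg_mem h1
  rwa [neg_sub] at h2

/-- The value `χ σ`. -/
def s30cy_val (hpos : 0 < p) (h𝒪 : (p : 𝒪) ∈ IsLocalRing.maximalIdeal 𝒪)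
    (σ : AlgebraicClosure ℚ ≃ₐ[ℚ] AlgebraicClosure ℚ) : 𝒪 :=
  Classical.choose (s30cy_exists_lim 𝒪 hpos h𝒪 σ)

theorem s30cy_val_spec (hpos : 0 < p) (h𝒪 : (p : 𝒪) ∈ IsLocalRing.maximalIdeal 𝒪)
    (σ : AlgebraicClosure ℚ ≃ₐ[ℚ] AlgebraicClosure ℚ) {n m : ℕ} (h : s30cy_Acts p σ n m) :
    s30cy_val 𝒪 hpos h𝒪 σ - (m : 𝒪) ∈ IsLocalRing.maximalIdeal 𝒪 ^ n := by
  have h1 := Classical.choose_spec (s30cy_exists_lim 𝒪 hpos h𝒪 σ) n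
  have h2 := s30cy_cast_sub_mem h𝒪 (s30cy_acts_modEq hpos (s30cy_exp_spec hpos σ n) h)
  have h3 := add_mem h1 h2
  have h4 : s30cy_val 𝒪 hpos h𝒪 σ - (m : 𝒪) =
      Classical.choose (s30cy_exists_lim 𝒪 hpos h𝒪 σ) - (s30cy_exp hpos σ n : 𝒪) +
        ((s30cy_exp hpos σ n : 𝒪) - (m : 𝒪)) := by
    rw [s30cy_val]; ring
  rw [h4]
  exact h3

theorem s30cy_val_unique (hpos : 0 < p) (h𝒪 : (p : 𝒪) ∈ IsLocalRing.maximalIdeal 𝒪)
    (σ : AlgebraicClosure ℚ ≃ₐ[ℚ] AlgebraicClosure ℚ) (x : 𝒪)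
    (hx : ∀ n : ℕ, ∃ m : ℕ, s30cy_Acts p σ n m ∧
      x - (m : 𝒪) ∈ IsLocalRing.maximalIdeal 𝒪 ^ n) :
    s30cy_val 𝒪 hpos h𝒪 σ = x := by
  rw [← sub_eq_zero]
  apply s30cy_eq_zero_of_mem
  intro n
  obtain ⟨m, hm, hxm⟩ := hx n
  have h1 := sub_mem (s30cy_val_spec 𝒪 hpos h𝒪 σ hm) hxm
  have h2 : s30cy_val 𝒪 hpos h𝒪 σ - x = s30cy_val 𝒪 hpos h𝒪 σ - (m : 𝒪) - (x - (m : 𝒪)) := by
    ring
  rw [h2]
  exact h1

/-- If `σ` acts on every `μ_{p^n}` as `t ↦ t ^ m`, then `χ σ = m`. -/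
theorem s30cy_val_eq_of_acts (hpos : 0 < p) (h𝒪 : (p : 𝒪) ∈ IsLocalRing.maximalIdeal 𝒪)
    (σ : AlgebraicClosure ℚ ≃ₐ[ℚ] AlgebraicClosure ℚ) (m : ℕ)
    (h : ∀ n : ℕ, s30cy_Acts p σ n m) : s30cy_val 𝒪 hpos h𝒪 σ = (m : 𝒪) :=
  s30cy_val_unique 𝒪 hpos h𝒪 σ _ fun n => ⟨m, h n, by rw [sub_self]; exact zero_mem _⟩

end Limit

/-! ### The character -/

section Char

variable (p : ℕ) [hp : Fact p.Prime] (𝒪 : Type) [CommRing 𝒪] [IsLocalRing 𝒪]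
  [IsAdicComplete (IsLocalRing.maximalIdeal 𝒪) 𝒪]
  (h𝒪 : (p : 𝒪) ∈ IsLocalRing.maximalIdeal 𝒪)

/-- The `p`-adic cyclotomic character with values in a complete local ring `𝒪` with
`p ∈ 𝔪_𝒪`. -/
def s30cy_chi : (AlgebraicClosure ℚ ≃ₐ[ℚ] AlgebraicClosure ℚ) →* 𝒪 where
  toFun σ := s30cy_val 𝒪 hp.out.pos h𝒪 σ
  map_one' := by
    have h := s30cy_val_eq_of_acts 𝒪 hp.out.pos h𝒪 1 1 (fun n => s30cy_acts_one n)
    simpa using h
  map_mul' σ τ := by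
    apply s30cy_val_unique
    intro n
    refine ⟨s30cy_exp hp.out.pos σ n * s30cy_exp hp.out.pos τ n,
      s30cy_acts_mul (s30cy_exp_spec hp.out.pos σ n) (s30cy_exp_spec hp.out.pos τ n), ?_⟩
    have h1 := s30cy_val_spec 𝒪 hp.out.pos h𝒪 σ (s30cy_exp_spec hp.out.pos σ n)
    have h2 := s30cy_val_spec 𝒪 hp.out.pos h𝒪 τ (s30cy_exp_spec hp.out.pos τ n)
    have h3 : s30cy_val 𝒪 hp.out.pos h𝒪 σ * s30cy_val 𝒪 hp.out.pos h𝒪 τ -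
        ((s30cy_exp hp.out.pos σ n * s30cy_exp hp.out.pos τ n : ℕ) : 𝒪) =
        (s30cy_val 𝒪 hp.out.pos h𝒪 σ - (s30cy_exp hp.out.pos σ n : 𝒪)) *
          s30cy_val 𝒪 hp.out.pos h𝒪 τ +
        (s30cy_exp hp.out.pos σ n : 𝒪) *
          (s30cy_val 𝒪 hp.out.pos h𝒪 τ - (s30cy_exp hp.out.pos τ n : 𝒪)) := by
      push_cast; ring
    rw [h3]
    exact add_mem (Ideal.mul_mem_right _ _ h1) (Ideal.mul_mem_left _ _ h2)

variable {p}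

/-- The link to the action on `μ_{p^n}`. -/
theorem s30cy_chi_spec (σ : AlgebraicClosure ℚ ≃ₐ[ℚ] AlgebraicClosure ℚ) (n m : ℕ)
    (h : ∀ t : AlgebraicClosure ℚ, t ^ p ^ n = 1 → σ t = t ^ m) :
    s30cy_chi p 𝒪 h𝒪 σ - (m : 𝒪) ∈ IsLocalRing.maximalIdeal 𝒪 ^ n :=
  s30cy_val_spec 𝒪 hp.out.pos h𝒪 σ h

theorem s30cy_chi_eq_of_acts (σ : AlgebraicClosure ℚ ≃ₐ[ℚ] AlgebraicClosure ℚ) (m : ℕ)
    (h : ∀ (n : ℕ) (t : AlgebraicClosure ℚ), t ^ p ^ n = 1 → σ t = t ^ m) :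
    s30cy_chi p 𝒪 h𝒪 σ = (m : 𝒪) :=
  s30cy_val_eq_of_acts 𝒪 hp.out.pos h𝒪 σ m h

/-- `χ` is `𝔪`-adically continuous: `χ σ ≡ 1` modulo `𝔪 ^ n` for `σ` fixing `ℚ(ζ_{p^n})`. -/
theorem s30cy_chi_finiteLevel (n : ℕ) :
    ∃ L : IntermediateField ℚ (AlgebraicClosure ℚ), FiniteDimensional ℚ L ∧
      ∀ σ : AlgebraicClosure ℚ ≃ₐ[ℚ] AlgebraicClosure ℚ, (∀ x ∈ L, σ x = x) →
        s30cy_chi p 𝒪 h𝒪 σ - 1 ∈ IsLocalRing.maximalIdeal 𝒪 ^ n := by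
  obtain ⟨ζ, hζ⟩ := s30cy_exists_zeta hp.out.pos n
  refine ⟨IntermediateField.adjoin ℚ {ζ}, ?_, fun σ hσ => ?_⟩
  · exact IntermediateField.adjoin.finiteDimensional
      ((hζ.isIntegral (pow_pos hp.out.pos n)).tower_top (R := ℤ) (A := ℚ)).isAlgebraic.isIntegral
  · have h1 : σ ζ = ζ ^ 1 := by
      rw [pow_one]
      exact hσ ζ (IntermediateField.mem_adjoin_simple_self ℚ ζ)
    have h2 := s30cy_chi_spec 𝒪 h𝒪 σ n 1 (s30cy_acts_of_zeta hp.out.pos hζ h1)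
    simpa using h2

/-- `σ t` for `σ` in the decomposition group, modulo the maximal ideal. -/
theorem s30cy_residue_smul (A : ValuationSubring (AlgebraicClosure ℚ))
    (σ : AlgebraicClosure ℚ ≃ₐ[ℚ] AlgebraicClosure ℚ) (hσ : σ ∈ A.decompositionSubgroup ℚ)
    {t : AlgebraicClosure ℚ} (htA : t ∈ A) (hσt : σ t ∈ A) :
    (⟨σ, hσ⟩ : A.decompositionSubgroup ℚ) • IsLocalRing.residue A ⟨t, htA⟩ =
      IsLocalRing.residue A ⟨σ t, hσt⟩ := by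
  rw [← IsLocalRing.ResidueField.residue_smul]
  rfl

/-- `χ` is trivial on the inertia groups at `ℓ ≠ p`. -/
theorem s30cy_chi_inertia (ℓ : ℕ) (hℓ : ℓ.Prime) (hne : ℓ ≠ p)
    (A : ValuationSubring (AlgebraicClosure ℚ)) (hA : A.LiesOverPrime ℓ)
    (σ : AlgebraicClosure ℚ ≃ₐ[ℚ] AlgebraicClosure ℚ) (hσ : σ ∈ A.inertiaSubgroupIn ℚ) :
    s30cy_chi p 𝒪 h𝒪 σ = 1 := by
  obtain ⟨g, hg, rfl⟩ := hσ
  have hg1 : ∀ x : IsLocalRing.ResidueField A, g • x = x := by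
    intro x
    have h1 : MulSemiringAction.toRingAut (A.decompositionSubgroup ℚ)
        (IsLocalRing.ResidueField A) g = 1 := hg
    have h2 := congrArg (fun e : RingAut (IsLocalRing.ResidueField A) => e x) h1
    simpa using h2
  have h := s30cy_chi_eq_of_acts 𝒪 h𝒪 g.1 1 (fun n t ht => by
    have hpos : 0 < p ^ n := pow_pos hp.out.pos n
    have htA : t ∈ A := s29cy_mem A hpos ht
    have hσt1 : (g.1 t) ^ p ^ n = 1 := by rw [← map_pow, ht, map_one]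
    have hσtA : g.1 t ∈ A := s29cy_mem A hpos hσt1
    have h3 := s30cy_residue_smul A g.1 g.2 htA hσtA
    have h4 : (⟨g.1, g.2⟩ : A.decompositionSubgroup ℚ) = g := rfl
    rw [h4, hg1] at h3
    rw [pow_one]
    exact (s30cy_residue_inj A hℓ hp.out hne hA n ht hσt1 htA hσtA h3).symm)
  simpa using h

/-- `χ σ = ℓ` for a Frobenius element `σ` at `ℓ ≠ p`. -/
theorem s30cy_chi_frob (ℓ : ℕ) (hℓ : ℓ.Prime) (hne : ℓ ≠ p)
    (A : ValuationSubring (AlgebraicClosure ℚ)) (hA : A.LiesOverPrime ℓ)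
    (σ : AlgebraicClosure ℚ ≃ₐ[ℚ] AlgebraicClosure ℚ) (hσ : A.IsFrobeniusAt σ ℓ) :
    s30cy_chi p 𝒪 h𝒪 σ = (ℓ : 𝒪) := by
  obtain ⟨hmem, hF⟩ := hσ
  refine s30cy_chi_eq_of_acts 𝒪 h𝒪 σ ℓ (fun n t ht => ?_)
  have hpos : 0 < p ^ n := pow_pos hp.out.pos n
  have htA : t ∈ A := s29cy_mem A hpos ht
  have hσt1 : (σ t) ^ p ^ n = 1 := by rw [← map_pow, ht, map_one]
  have hσtA : σ t ∈ A := s29cy_mem A hpos hσt1
  have htℓ1 : (t ^ ℓ) ^ p ^ n = 1 := by rw [← pow_mul, mul_comm, pow_mul, ht, one_pow]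
  have htℓA : t ^ ℓ ∈ A := pow_mem htA ℓ
  have h3 := s30cy_residue_smul A σ hmem htA hσtA
  rw [hF, ← map_pow] at h3
  have h4 : (⟨t, htA⟩ : A) ^ ℓ = ⟨t ^ ℓ, htℓA⟩ := Subtype.ext (by simp)
  rw [h4] at h3
  exact (s30cy_residue_inj A hℓ hp.out hne hA n htℓ1 hσt1 htℓA hσtA h3).symm

/-- Complex conjugation inverts the roots of unity. -/
theorem s30cy_conj_root {t : AlgebraicClosure ℚ} {k : ℕ} (hk : 0 < k) (ht : t ^ k = 1) :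
    complexConjugation t = t ^ (k - 1) := by
  apply complexEmbedding.toRingHom.injective
  show complexEmbedding (complexConjugation t) = complexEmbedding (t ^ (k - 1))
  rw [complexEmbedding_complexConjugation, map_pow]
  set z : ℂ := complexEmbedding t with hz
  have hz1 : z ^ k = 1 := by rw [hz, ← map_pow, ht, map_one]
  have hnorm : ‖z‖ = 1 := Complex.norm_eq_one_of_pow_eq_one hz1 hk.ne'
  have h1 : z⁻¹ = starRingEnd ℂ z := Complex.inv_eq_conj hnorm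
  rw [← h1]
  have h2 : z ^ (k - 1) * z = 1 := by rw [← pow_succ, Nat.sub_add_cancel hk, hz1]
  exact (eq_inv_of_mul_eq_one_left h2).symm

/-- `χ c = -1` for the complex conjugation `c`. -/
theorem s30cy_chi_conj : s30cy_chi p 𝒪 h𝒪 complexConjugation = -1 := by
  rw [← sub_eq_zero, sub_neg_eq_add]
  apply s30cy_eq_zero_of_mem
  intro n
  have hpos : 0 < p ^ n := pow_pos hp.out.pos n
  have h1 := s30cy_chi_spec 𝒪 h𝒪 complexConjugation n (p ^ n - 1)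
    (fun t ht => s30cy_conj_root hpos ht)
  have h2 : ((p ^ n - 1 : ℕ) : 𝒪) = (p : 𝒪) ^ n - 1 := by
    rw [Nat.cast_sub hpos, Nat.cast_pow, Nat.cast_one]
  rw [h2] at h1
  have h3 := add_mem h1 (Ideal.pow_mem_pow h𝒪 n)
  have h4 : s30cy_chi p 𝒪 h𝒪 complexConjugation + 1 =
      s30cy_chi p 𝒪 h𝒪 complexConjugation - ((p : 𝒪) ^ n - 1) + (p : 𝒪) ^ n := by ring
  rw [h4]
  exact h3

end Char

/-! ### The packaged statement -/

/-- **[CYC-ADIC]** the `p`-adic cyclotomic character with values in a complete local ring. -/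
def s30cy_Statement : Prop :=
  ∀ (p : ℕ) [Fact p.Prime] (𝒪 : Type) [CommRing 𝒪] [IsLocalRing 𝒪]
    [IsAdicComplete (IsLocalRing.maximalIdeal 𝒪) 𝒪],
    (p : 𝒪) ∈ IsLocalRing.maximalIdeal 𝒪 →
    ∃ χ : (AlgebraicClosure ℚ ≃ₐ[ℚ] AlgebraicClosure ℚ) →* 𝒪,
      (∀ n : ℕ, ∃ L : IntermediateField ℚ (AlgebraicClosure ℚ), FiniteDimensional ℚ L ∧
        ∀ σ : AlgebraicClosure ℚ ≃ₐ[ℚ] AlgebraicClosure ℚ, (∀ x ∈ L, σ x = x) →
          χ σ - 1 ∈ IsLocalRing.maximalIdeal 𝒪 ^ n) ∧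
      (∀ ℓ : ℕ, ℓ.Prime → ℓ ≠ p → ∀ A : ValuationSubring (AlgebraicClosure ℚ),
        A.LiesOverPrime ℓ → ∀ σ ∈ A.inertiaSubgroupIn ℚ, χ σ = 1) ∧
      (∀ ℓ : ℕ, ℓ.Prime → ℓ ≠ p → ∀ A : ValuationSubring (AlgebraicClosure ℚ),
        A.LiesOverPrime ℓ → ∀ σ : AlgebraicClosure ℚ ≃ₐ[ℚ] AlgebraicClosure ℚ,
          A.IsFrobeniusAt σ ℓ → χ σ = (ℓ : 𝒪)) ∧
      (∃ c : AlgebraicClosure ℚ ≃ₐ[ℚ] AlgebraicClosure ℚ, c * c = 1 ∧ χ c = -1) ∧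
      (∀ (σ : AlgebraicClosure ℚ ≃ₐ[ℚ] AlgebraicClosure ℚ) (n m : ℕ),
        (∀ t : AlgebraicClosure ℚ, t ^ p ^ n = 1 → σ t = t ^ m) →
          χ σ - (m : 𝒪) ∈ IsLocalRing.maximalIdeal 𝒪 ^ n)

theorem s30cy_main : s30cy_Statement := by
  intro p _ 𝒪 _ _ _ h𝒪
  exact ⟨s30cy_chi p 𝒪 h𝒪, fun n => s30cy_chi_finiteLevel 𝒪 h𝒪 n,
    fun ℓ hℓ hne A hA σ hσ => s30cy_chi_inertia 𝒪 h𝒪 ℓ hℓ hne A hA σ hσ,
    fun ℓ hℓ hne A hA σ hσ => s30cy_chi_frob 𝒪 h𝒪 ℓ hℓ hne A hA σ hσ,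
    ⟨complexConjugation, complexConjugation_mul_self, s30cy_chi_conj 𝒪 h𝒪⟩,
    fun σ n m h => s30cy_chi_spec 𝒪 h𝒪 σ n m h⟩

end Fermat.Agent.S30
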