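/-
S30 (row 29): the `p`-adic Galois representation of a Hecke eigensystem
`χ : heckeAlgebra N 2 S → 𝒪'`.  top-level cut (helper25).  Prefix `s30top_`.
Definitions and `Prop`s; nothing is proved here.

ROUTE.  `𝒪 := 𝒪'` (NO extension of the coefficient ring is needed), `J := J₀(N)(Q̄)`,
`T := s30_tate 𝒪 p (𝒪 ⊗[ℤ] J[p^∞])` (sequences `x` with `x 0 = 0`, `p • x (k+1) = x k`), a finite
free `𝒪`-module (`J[p]` is finite), on which `G_ℚ` and the Hecke operators act; the Kummer maps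
`Λ/p^k → J[p^k]` of S29 are compatible, so `𝒪 ⊗ Λ` embeds into `T` and the `χ`-eigenvector of
`𝒪 ⊗ Λ` gives `W := T[χ] ≠ 0`.  On `W` every Frobenius element at `ℓ ∉ S` satisfies
`σ² - χ(T_ℓ) σ + ℓ = 0` (S37 + S18 on every `J[p^k]`), hence (Frobenius density at every finite
level + separatedness) every `g` satisfies `g² - t(g) g + ε(g) = 0`, `ε` the cyclotomic character.
ALGEBRA (over any field of characteristic `≠ 2`, no Burnside, no algebraic closure): with complex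
conjugation `c` (`c² = 1`, `ε(c) = -1`) and `e := (1 + c)/2` one has `e B e = E e`,
`(1-e) B (1-e) = E (1-e)` for `B := span ρ(G)`, so a simple constituent has dimension `≤ 2`.

THE CUT.
  S30      ⇐  [MOD] + [CYC] + [REL] + [ALG]            (`TopAsm.lean`, proved)
  [MOD]    the quadratic lattice `W` (`s30top_ModStatement`)
  [CYC]    the `p`-adic cyclotomic character with values in `𝒪` + complex conjugation
  [REL]    [FD] ⟹ the quadratic relation for every `g`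
  [ALG]    the rank 2 lattice (pure algebra)
-/
import Mathlib
import Fermat.Prelude.Def_CuspForm_HeckeGaloisRepDatum
import Fermat.Agent.S29.Defs

set_option autoImplicit false

open Polynomial

namespace Fermat.Agent.S30

/-- The statement S30, verbatim. -/
def s30top_Goal : Prop :=
  ∀ (p : ℕ) [Fact p.Prime] (N : ℕ) [NeZero N] (S : Finset ℕ)
    (_hpS : p ∈ S) (_hNS : ∀ q : ℕ, q.Prime → q ∣ N → q ∈ S)
    (𝒪' : Type) [CommRing 𝒪'] [IsDomain 𝒪'] [IsDiscreteValuationRing 𝒪']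
    [IsAdicComplete (IsLocalRing.maximalIdeal 𝒪') 𝒪'] [Finite (IsLocalRing.ResidueField 𝒪')]
    [CharZero 𝒪'] (_hp𝒪' : (p : 𝒪') ∈ IsLocalRing.maximalIdeal 𝒪')
    (χ : CuspForm.heckeAlgebra N 2 (↑S : Set ℕ) →+* 𝒪'),
    ∃ (𝒪'' : Type) (_ : CommRing 𝒪'') (_ : IsDomain 𝒪'') (_ : IsDiscreteValuationRing 𝒪'')
      (_ : IsAdicComplete (IsLocalRing.maximalIdeal 𝒪'') 𝒪'')
      (_ : Finite (IsLocalRing.ResidueField 𝒪'')) (_ : CharZero 𝒪'')
      (_ : Algebra 𝒪' 𝒪'') (_ : Module.Finite 𝒪' 𝒪'') (_ : IsLocalHom (algebraMap 𝒪' 𝒪'')),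
    Function.Injective (algebraMap 𝒪' 𝒪'') ∧
    ∃ ρ : GaloisRepAdic 𝒪'',
      (∀ (ℓ : ℕ) (hℓ : ℓ.Prime) (hℓN : ¬ ℓ ∣ N) (hℓS : ℓ ∉ (↑S : Set ℕ)),
        ∀ A : ValuationSubring (AlgebraicClosure ℚ), A.LiesOverPrime ℓ →
          ∀ σ : AlgebraicClosure ℚ ≃ₐ[ℚ] AlgebraicClosure ℚ, A.IsFrobeniusAt σ ℓ →
            LinearMap.charpoly (ρ.ρ σ) =
              X ^ 2 - C (algebraMap 𝒪' 𝒪'' (χ (CuspForm.heckeAlgebra.T hℓ hℓN hℓS))) * X
                + C ((ℓ : 𝒪''))) ∧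
      (∀ q : ℕ, q.Prime → ¬ q ∣ N → q ≠ p → ρ.IsUnramifiedAt q)

/-- **[MOD]** the quadratic lattice attached to a Hecke eigensystem: a non-zero finite free
`𝒪`-module with an adically continuous action of `G_ℚ`, unramified outside `N p`, on which every
Frobenius element at `ℓ ∉ S` satisfies `σ² - χ(T_ℓ) σ + ℓ = 0`. -/
def s30top_ModStatement : Prop :=
  ∀ (p : ℕ) [Fact p.Prime] (N : ℕ) [NeZero N] (S : Finset ℕ)
    (_hpS : p ∈ S) (_hNS : ∀ q : ℕ, q.Prime → q ∣ N → q ∈ S)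
    (𝒪 : Type) [CommRing 𝒪] [IsDomain 𝒪] [IsDiscreteValuationRing 𝒪]
    [IsAdicComplete (IsLocalRing.maximalIdeal 𝒪) 𝒪] [Finite (IsLocalRing.ResidueField 𝒪)]
    [CharZero 𝒪] (_hp𝒪 : (p : 𝒪) ∈ IsLocalRing.maximalIdeal 𝒪)
    (χ : CuspForm.heckeAlgebra N 2 (↑S : Set ℕ) →+* 𝒪),
    ∃ (W : Type) (_ : AddCommGroup W) (_ : Module 𝒪 W) (_ : Module.Free 𝒪 W)
      (_ : Module.Finite 𝒪 W) (_ : Nontrivial W)
      (r : (AlgebraicClosure ℚ ≃ₐ[ℚ] AlgebraicClosure ℚ) →* Module.End 𝒪 W),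
      GaloisActionIsAdicContinuous 𝒪 r ∧
      (∀ q : ℕ, q.Prime → ¬ q ∣ N → q ≠ p →
        ∀ A : ValuationSubring (AlgebraicClosure ℚ), A.LiesOverPrime q →
          ∀ σ ∈ A.inertiaSubgroupIn ℚ, r σ = 1) ∧
      (∀ (ℓ : ℕ) (hℓ : ℓ.Prime) (hℓN : ¬ ℓ ∣ N) (hℓS : ℓ ∉ (↑S : Set ℕ)),
        ∀ A : ValuationSubring (AlgebraicClosure ℚ), A.LiesOverPrime ℓ →
          ∀ σ : AlgebraicClosure ℚ ≃ₐ[ℚ] AlgebraicClosure ℚ, A.IsFrobeniusAt σ ℓ →
            r σ * r σ - χ (CuspForm.heckeAlgebra.T hℓ hℓN hℓS) • r σ +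
              (ℓ : 𝒪) • (1 : Module.End 𝒪 W) = 0)

/-- **[CYC]** the `p`-adic cyclotomic character with values in `𝒪`: adically continuous,
unramified outside `p`, `ε(Frob_ℓ) = ℓ`, and `ε(c) = -1` for an involution `c` (complex
conjugation). -/
def s30top_CycStatement : Prop :=
  ∀ (p : ℕ), p.Prime → ∀ (𝒪 : Type) [CommRing 𝒪] [IsDomain 𝒪] [IsDiscreteValuationRing 𝒪]
    [IsAdicComplete (IsLocalRing.maximalIdeal 𝒪) 𝒪] [CharZero 𝒪],
    (p : 𝒪) ∈ IsLocalRing.maximalIdeal 𝒪 →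
    ∃ ε : (AlgebraicClosure ℚ ≃ₐ[ℚ] AlgebraicClosure ℚ) →* 𝒪,
      (∀ n : ℕ, ∃ L : IntermediateField ℚ (AlgebraicClosure ℚ), FiniteDimensional ℚ L ∧
        ∀ σ : AlgebraicClosure ℚ ≃ₐ[ℚ] AlgebraicClosure ℚ, (∀ x ∈ L, σ x = x) →
          ε σ - 1 ∈ IsLocalRing.maximalIdeal 𝒪 ^ n) ∧
      (∀ ℓ : ℕ, ℓ.Prime → ℓ ≠ p →
        ∀ A : ValuationSubring (AlgebraicClosure ℚ), A.LiesOverPrime ℓ →
          ∀ σ ∈ A.inertiaSubgroupIn ℚ, ε σ = 1) ∧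
      (∀ ℓ : ℕ, ℓ.Prime → ℓ ≠ p →
        ∀ A : ValuationSubring (AlgebraicClosure ℚ), A.LiesOverPrime ℓ →
          ∀ σ : AlgebraicClosure ℚ ≃ₐ[ℚ] AlgebraicClosure ℚ, A.IsFrobeniusAt σ ℓ →
            ε σ = (ℓ : 𝒪)) ∧
      ∃ c : AlgebraicClosure ℚ ≃ₐ[ℚ] AlgebraicClosure ℚ, c * c = 1 ∧ ε c = -1

/-- **[REL]** (Frobenius density + separatedness): if the quadratic relation with constant term
`ε` holds at the Frobenius elements outside a finite set of primes, and the actions are adically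
continuous, it holds at every element of `G_ℚ`. -/
def s30top_RelStatement : Prop :=
  Fermat.Agent.S29.s29_FDStatement →
  ∀ (𝒪 : Type) [CommRing 𝒪] [IsDomain 𝒪] [IsDiscreteValuationRing 𝒪]
    (W : Type) [AddCommGroup W] [Module 𝒪 W] [Module.Free 𝒪 W] [Module.Finite 𝒪 W]
    (r : (AlgebraicClosure ℚ ≃ₐ[ℚ] AlgebraicClosure ℚ) →* Module.End 𝒪 W)
    (ε : (AlgebraicClosure ℚ ≃ₐ[ℚ] AlgebraicClosure ℚ) →* 𝒪) (S : Finset ℕ),
    GaloisActionIsAdicContinuous 𝒪 r →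
    (∀ n : ℕ, ∃ L : IntermediateField ℚ (AlgebraicClosure ℚ), FiniteDimensional ℚ L ∧
      ∀ σ : AlgebraicClosure ℚ ≃ₐ[ℚ] AlgebraicClosure ℚ, (∀ x ∈ L, σ x = x) →
        ε σ - 1 ∈ IsLocalRing.maximalIdeal 𝒪 ^ n) →
    (∀ ℓ : ℕ, ℓ.Prime → ℓ ∉ S →
      ∀ A : ValuationSubring (AlgebraicClosure ℚ), A.LiesOverPrime ℓ →
        ∀ σ : AlgebraicClosure ℚ ≃ₐ[ℚ] AlgebraicClosure ℚ, A.IsFrobeniusAt σ ℓ →
          ∃ t : 𝒪, r σ * r σ - t • r σ + ε σ • (1 : Module.End 𝒪 W) = 0) →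
    ∀ g : AlgebraicClosure ℚ ≃ₐ[ℚ] AlgebraicClosure ℚ,
      ∃ t : 𝒪, r g * r g - t • r g + ε g • (1 : Module.End 𝒪 W) = 0

/-- **[ALG]** (pure algebra): a non-zero finite free module over a discrete valuation ring of
characteristic `0` with an action of a group `G` in which every `g` satisfies
`g² - t(g) g + ε(g) = 0`, `ε` a character with `ε(c) = -1` for an involution `c`, yields a free
module `V` of rank `2` with an action `ρ` of `G` such that `charpoly ρ(g) = X² - t X + ε(g)`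
whenever `g² - t g + ε(g) = 0` on `W`, and `ρ(g) ≡ 1` modulo every ideal modulo which `r(g) ≡ 1`
and `ε(g) ≡ 1`. -/
def s30top_AlgStatement : Prop :=
  ∀ (𝒪 : Type) [CommRing 𝒪] [IsDomain 𝒪] [IsDiscreteValuationRing 𝒪] [CharZero 𝒪]
    (G : Type) [Group G]
    (W : Type) [AddCommGroup W] [Module 𝒪 W] [Module.Free 𝒪 W] [Module.Finite 𝒪 W]
    [Nontrivial W] (r : G →* Module.End 𝒪 W) (ε : G →* 𝒪) (c : G), c * c = 1 → ε c = -1 →
    (∀ g : G, ∃ t : 𝒪, r g * r g - t • r g + ε g • (1 : Module.End 𝒪 W) = 0) →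
    ∃ (V : Type) (_ : AddCommGroup V) (_ : Module 𝒪 V) (_ : Module.Free 𝒪 V)
      (_ : Module.Finite 𝒪 V) (ρ : G →* Module.End 𝒪 V),
      Module.finrank 𝒪 V = 2 ∧
      (∀ (g : G) (t : 𝒪), r g * r g - t • r g + ε g • (1 : Module.End 𝒪 W) = 0 →
        LinearMap.charpoly (ρ g) = X ^ 2 - C t * X + C (ε g)) ∧
      (∀ (I : Ideal 𝒪) (g : G), (∀ w : W, r g w - w ∈ I • (⊤ : Submodule 𝒪 W)) → ε g - 1 ∈ I →
        ∀ v : V, ρ g v - v ∈ I • (⊤ : Submodule 𝒪 V))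

end Fermat.Agent.S30
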