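/-
S30, leaf **[CYC]** (helper10): the projection of `s30cy_main` (`CycAdic.lean`) to the shape of the
top-level cut, `s30cy_top : s30top_CycStatement` (`Top.lean`, helper25).
-/
import Mathlib
import Fermat.Agent.S30.Top
import Fermat.Agent.S30.CycAdic

set_option autoImplicit false

namespace Fermat.Agent.S30

/-- **[CYC]** of the S30 cut: the `p`-adic cyclotomic character with values in `𝒪`, and complex
conjugation. -/
theorem s30cy_top : s30top_CycStatement := by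
  intro p hp 𝒪 _ _ _ _ _ h𝒪
  have : Fact p.Prime := ⟨hp⟩
  exact ⟨s30cy_chi p 𝒪 h𝒪, fun n => s30cy_chi_finiteLevel 𝒪 h𝒪 n,
    fun ℓ hℓ hne A hA σ hσ => s30cy_chi_inertia 𝒪 h𝒪 ℓ hℓ hne A hA σ hσ,
    fun ℓ hℓ hne A hA σ hσ => s30cy_chi_frob 𝒪 h𝒪 ℓ hℓ hne A hA σ hσ,
    ⟨complexConjugation, complexConjugation_mul_self, s30cy_chi_conj 𝒪 h𝒪⟩⟩

end Fermat.Agent.S30
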