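/-
S30, the geometric side, leaf [KUM-∞], part (a) = [K-POW] (owner: helper29).  Prefix `s30ki_`.

**Powers of root classes.**  In the vocabulary of helper26's `S29/KumDefs.lean`: if `x` is a
root class of order `n m` of the character `χ`, then `m • x` is a root class of order `n` of
`χ ^ m`.  (`x = [D]`, `(n m) D = div y`, `y = series (f^(n m)) / series (g^(n m))`; then
`m • x = [m D]`, `n (m D) = div y`, `y = series ((f^m)^n) / series ((g^m)^n)`, and `f^m` is a form
of character `χ^m`.)
-/
import Mathlib
import Fermat.Agent.S29.KumDefs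
import Fermat.Agent.S29.KumUniq

set_option autoImplicit false
set_option linter.style.haveILetI false

noncomputable section

namespace Fermat.Agent.S30

open UpperHalfPlane CongruenceSubgroup ModularCurve ModularCurve.Period AlgebraicCurve
open ModularForm ModularFormClass
open scoped MatrixGroups ModularForm Manifold

open Fermat.Agent.S29

/-- **[K-POW]** `m •` maps a root class of order `n m` of `χ` to a root class of order `n` of
`χ ^ m`. -/
theorem s30ki_pow (N : ℕ) [NeZero N] (n m : ℕ) (χ : ↥(Gamma0 N) →* ℂˣ)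
    (x : Pic0 ℂ ↥(laurentBaseChange ℂ (modularFunctionFieldFull N)))
    (hx : s29k_IsRoot N (n * m) χ x) : s29k_IsRoot N n (χ ^ m) (m • x) := by
  obtain ⟨k, f, g, hf, hg, hf0, hg0, D, y, rfl, hy, hD⟩ := hx
  have hf' : s29k_IsForm N ((m * k : ℕ) : ℤ) (χ ^ m) (f ^ m) := by
    have := s29ku_pow hf m
    rwa [← Nat.cast_mul] at this
  have hg' : s29k_IsForm N ((m * k : ℕ) : ℤ) 1 (g ^ m) := by
    have h1 := s29ku_pow hg m
    rw [← Nat.cast_mul] at h1
    exact s29ku_isForm ((s29ku_isTw h1).congr_char (fun γ => by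
      rw [MonoidHom.pow_apply, MonoidHom.one_apply, one_pow]))
  refine ⟨m * k, f ^ m, g ^ m, hf', hg', s29ku_pow_ne_zero hf0 m, s29ku_pow_ne_zero hg0 m,
    m • D, y, ?_, ?_, ?_⟩
  · rfl
  · rw [hy, ← pow_mul, ← pow_mul, mul_comm m n]
  · intro P
    have h1 := hD P
    have h2 : ((m • D : Divisor.degZero (K := ℂ)
        (F := ↥(laurentBaseChange ℂ (modularFunctionFieldFull N)))) :
        Divisor ℂ ↥(laurentBaseChange ℂ (modularFunctionFieldFull N))) P =
        (m : ℤ) * (D : Divisor ℂ ↥(laurentBaseChange ℂ (modularFunctionFieldFull N))) P := by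
      rw [AddSubgroup.coe_nsmul, Finsupp.smul_apply, nsmul_eq_mul]
    rw [h2, ← h1]
    push_cast
    ring

end Fermat.Agent.S30

end
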