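/-
S30, the geometric side, leaf [KUM-∞] (owner: helper29).  Prefix `s30ki_`.

**One compatible family of Kummer maps.**  For a prime `p` there are additive maps
`D_k : Λ → J₀(N)(Q̄)`, `k : ℕ`, `Λ = parabolicHoms ℤ Γ₀(N) ℤ`, such that `D_k` has values in the
`p^k`-torsion, kernel `p^k Λ`, `p • D_(k+1) = D_k`, and `D_k ∘ T_ℓ = T_ℓ ∘ D_k` for the primes
`ℓ ∤ N p` - the hypotheses `hD`, `hker`, `hcompat`, `hDt` of the abstract Tate lattice.

* `s30ki_Statement`   : the statement [KUM-∞];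
* `s30ki_BCStatement` : ONE base change map `J₀(N)(Q̄) → Pic⁰(F_ℂ)` for all `n` (the shape in
                        which helper28's `DescFinal.lean` proves [K-BC]);
* `s30ki_bc_of`       : [ROOT-FIN] → [DESC-HECKE] → `s30ki_BCStatement`;
* `s30ki_main_of`     : [K-C] → [K-UNIQ] → `s30ki_BCStatement` → [KUM-∞].

The inputs are `Prop`s of `S29/KumDefs.lean` and `S29/DescFinal.lean`.
-/
import Mathlib
import Fermat.Agent.S29.KumDefs
import Fermat.Agent.S29.KumUniq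
import Fermat.Agent.S29.DescFinal
import Fermat.Agent.S30.KumInfPow

set_option autoImplicit false
set_option linter.style.haveILetI false
set_option linter.unusedVariables false

noncomputable section

namespace Fermat.Agent.S30

open UpperHalfPlane CongruenceSubgroup ModularCurve ModularCurve.Period AlgebraicCurve
open ModularForm ModularFormClass
open scoped MatrixGroups ModularForm Manifold Real

open Fermat.Agent.S29 Fermat.Agent.S24

/-! ### The statements -/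

/-- **[KUM-∞]** one compatible family of Kummer maps at the levels `p^k`. -/
def s30ki_Statement : Prop :=
  ∀ (N : ℕ) [NeZero N] (p : ℕ), p.Prime →
    ∃ D : ℕ → ↥(parabolicHoms ℤ (Gamma0 N) ℤ) →+ JZero N,
      (∀ k c, p ^ k • D k c = 0) ∧ (∀ k c, D k c = 0 → ∃ c', c = p ^ k • c') ∧
      (∀ k c, p • D (k + 1) c = D k c) ∧
      ∀ (k : ℕ) (ℓ : ℕ) [Fact ℓ.Prime] (hℓN : ¬ ℓ ∣ N), ℓ ≠ p → ∀ c,
        D k (s29lat_T N ℓ hℓN c) = heckeOperatorBar N ⟨ℓ, Fact.out⟩ (D k c)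

/-- **[K-BC]**, uniform in `n`: ONE base change map `J₀(N)(Q̄) → Pic⁰(F_ℂ)`, injective, onto
the `n`-torsion for every `n > 0`, Hecke equivariant. -/
def s30ki_BCStatement : Prop :=
  ∀ (N : ℕ) [NeZero N],
    ∃ bc : JZero N →+ Pic0 ℂ ↥(laurentBaseChange ℂ (modularFunctionFieldFull N)),
      Function.Injective bc ∧ (∀ n : ℕ, 0 < n → ∀ x, n • x = 0 → ∃ y, bc y = x) ∧
      ∀ (ℓ : ℕ) [Fact ℓ.Prime] (hℓN : ¬ ℓ ∣ N), ∀ y,
        bc (heckeOperatorBar N ⟨ℓ, Fact.out⟩ y) =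
          (haveI : NeZero ℓ := ⟨(Fact.out : ℓ.Prime).ne_zero⟩; heckeOperatorAlong ℂ N ℓ (bc y))

/-- The uniform [K-BC] from [ROOT-FIN] and [DESC-HECKE] (the proof of helper28's `s29d_kbc_of`
with `n` quantified inside). -/
theorem s30ki_bc_of (hRF : s29d_RootFinStatement) (hHecke : s29d_HeckeBCStatement) :
    s30ki_BCStatement := by
  intro N _
  letI inst : Algebra (AlgebraicClosure ℚ) ℂ := (Fermat.Agent.S24.iota).toAlgebra
  have huK : IsCoordinate (AlgebraicClosure ℚ) (Fermat.Agent.S24.jF N) := final_jCoordinate N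
  have huL : IsCoordinate ℂ (Fermat.Agent.S29.DictC.jF N) :=
    Fermat.Agent.S29.DictC.dc_jCoordinate N
  have hdeg : ∀ Q : Place (AlgebraicClosure ℚ)
      ↥(laurentBaseChange (AlgebraicClosure ℚ) (modularFunctionFieldFull N)), Q.deg = 1 :=
    diff_degOneStatement (AlgebraicClosure ℚ) _ (Fermat.Agent.S24.jF N) huK
  have h := s29d_setup_coord (AlgebraicClosure ℚ) ℂ (modularFunctionFieldFull N)
    (Fermat.Agent.S24.jF N) huK (Fermat.Agent.S29.DictC.jF N) huL hdeg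
  have hext := s29d_isExt h
  refine ⟨s29bc_pic hext, s29d_pic_injective hext (s29di_main h), ?_, ?_⟩
  · intro n hn x hx
    have hx' : (n : ℤ) • x = 0 := by
      rw [natCast_zsmul]
      exact hx
    obtain ⟨y, -, hy⟩ := s29d_main_abs h hext (s29di_main h) n (hRF N n hn) x hx'
    exact ⟨y, hy⟩
  · intro ℓ hℓ hℓN y
    haveI : NeZero ℓ := ⟨(Fact.out : ℓ.Prime).ne_zero⟩
    exact hHecke inst N hdeg hext ℓ Fact.out hℓN y

/-! ### A compatible system of primitive `p^k`-th roots of unity -/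

/-- `exp (2 π i / p^k)` as a unit of `ℂ`. -/
def s30ki_zeta (p k : ℕ) : ℂˣ :=
  Units.mk0 (Complex.exp (2 * π * Complex.I / ((p ^ k : ℕ) : ℂ))) (Complex.exp_ne_zero _)

theorem s30ki_zeta_prim {p : ℕ} (hp : p.Prime) (k : ℕ) :
    IsPrimitiveRoot (s30ki_zeta p k) (p ^ k) := by
  rw [← IsPrimitiveRoot.coe_units_iff]
  exact Complex.isPrimitiveRoot_exp (p ^ k) (pow_pos hp.pos k).ne'

theorem s30ki_zeta_pow {p : ℕ} (hp : p.Prime) (k : ℕ) :
    s30ki_zeta p (k + 1) ^ p = s30ki_zeta p k := by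
  apply Units.ext
  rw [Units.val_pow_eq_pow_val]
  show Complex.exp _ ^ p = Complex.exp _
  rw [← Complex.exp_nat_mul]
  congr 1
  have hp0 : (p : ℂ) ≠ 0 := Nat.cast_ne_zero.mpr hp.ne_zero
  have hpk : ((p : ℂ)) ^ k ≠ 0 := pow_ne_zero k hp0
  push_cast
  field_simp
  ring

theorem s30ki_chi_pow {N : ℕ} {p : ℕ} (hp : p.Prime) (k : ℕ)
    (c : Additive ↥(Gamma0 N) →+ ℤ) :
    s29k_chi (s30ki_zeta p (k + 1)) c ^ p = s29k_chi (s30ki_zeta p k) c := by
  ext γ
  rw [MonoidHom.pow_apply]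
  show ((s30ki_zeta p (k + 1) ^ c (Additive.ofMul γ)) ^ p : ℂˣ) =
    ((s30ki_zeta p k ^ c (Additive.ofMul γ) : ℂˣ) : ℂ)
  rw [← s30ki_zeta_pow hp k, ← zpow_natCast, ← zpow_mul, mul_comm, zpow_mul, zpow_natCast]

theorem s30ki_chi_tors {N : ℕ} {p : ℕ} (hp : p.Prime) (k : ℕ)
    (c : Additive ↥(Gamma0 N) →+ ℤ) (γ : ↥(Gamma0 N)) :
    s29k_chi (s30ki_zeta p k) c γ ^ (p ^ k) = 1 := by
  show (s30ki_zeta p k ^ c (Additive.ofMul γ)) ^ (p ^ k) = 1
  rw [← zpow_natCast, ← zpow_mul, mul_comm, zpow_mul, zpow_natCast,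
    (s30ki_zeta_prim hp k).pow_eq_one, one_zpow]

/-! ### The family -/

/-- **[KUM-∞]** from [K-C], [K-UNIQ] and the uniform [K-BC]. -/
theorem s30ki_main_of' (hC : s29k_CStatement) (hU : s29k_UniqStatement)
    (hBC : s30ki_BCStatement) : s30ki_Statement := by
  intro N _ p hp
  obtain ⟨bc, hinj, hsurj, hheck⟩ := hBC N
  have hpk : ∀ k : ℕ, 0 < p ^ k := fun k => pow_pos hp.pos k
  choose Dc hroot htors hker hhecke using
    fun k : ℕ => hC N (p ^ k) (hpk k) (s30ki_zeta p k) (s30ki_zeta_prim hp k)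
  have hex : ∀ (k : ℕ) (c : ↥(parabolicHoms ℤ (Gamma0 N) ℤ)), ∃ y, bc y = Dc k c :=
    fun k c => hsurj (p ^ k) (hpk k) _ (htors k c)
  choose E hE using hex
  -- compatibility over `ℂ`
  have hcompC : ∀ k c, p • Dc (k + 1) c = Dc k c := by
    intro k c
    have h1 := hroot (k + 1) c
    rw [pow_succ] at h1
    have h2 := s30ki_pow N (p ^ k) p _ _ h1
    rw [s30ki_chi_pow hp k] at h2
    exact hU N (p ^ k) (hpk k) _ (s30ki_chi_tors hp k _) _ _ h2 (hroot k c)
  have hadd : ∀ k c c', E k (c + c') = E k c + E k c' := fun k c c' => hinj (by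
    rw [map_add, hE, hE, hE, map_add])
  let D : ℕ → ↥(parabolicHoms ℤ (Gamma0 N) ℤ) →+ JZero N :=
    fun k => AddMonoidHom.mk' (E k) (hadd k)
  have hD : ∀ k c, bc (D k c) = Dc k c := fun k c => hE k c
  refine ⟨D, ?_, ?_, ?_, ?_⟩
  · intro k c
    apply hinj
    rw [bc.map_nsmul, hD, map_zero]
    exact htors k c
  · intro k c hc
    apply hker k c
    rw [← hD, hc, map_zero]
  · intro k c
    apply hinj
    rw [bc.map_nsmul, hD, hD]
    exact hcompC k c
  · intro k ℓ hℓ hℓN hℓp c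
    apply hinj
    have hndvd : ¬ ℓ ∣ p ^ k := fun hd =>
      hℓp ((Nat.prime_dvd_prime_iff_eq (Fact.out : ℓ.Prime) hp).mp
        ((Fact.out : ℓ.Prime).dvd_of_dvd_pow hd))
    rw [hD, hheck ℓ hℓN, hD]
    exact hhecke k ℓ hℓN hndvd c

/-- **[KUM-∞]** from the four `Prop`s on main: [K-C], [K-UNIQ] (`KumDefs.lean`), [ROOT-FIN],
[DESC-HECKE] (`DescFinal.lean`). -/
theorem s30ki_main_of (hC : s29k_CStatement) (hU : s29k_UniqStatement)
    (hRF : s29d_RootFinStatement) (hHecke : s29d_HeckeBCStatement) : s30ki_Statement :=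
  s30ki_main_of' hC hU (s30ki_bc_of hRF hHecke)

end Fermat.Agent.S30

end
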