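/-
S30, the geometric side, leaf [KUM-∞], plugged forms (owner: helper29).  Prefix `s30ki_`.

Every leaf of [KUM] except [K-HECKE] is on main, so the compatible family of Kummer maps
`s30ki_Statement` hangs on exactly one Prop:

* `s30ki_bc_main`        : the uniform base change statement `s30ki_BCStatement`
                           ([ROOT-FIN] = `s29rf_stmt`, [DESC-HECKE] = `s29bh_heckeBC_main`);
* `s30ki_main_of_c`      : [K-C] → [KUM-∞];
* `s30ki_c_of_hecke`     : [K-HECKE] → [K-C]   ([K-EX] = `s29k_ex_of s29dk_main`,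
                           [K-UNIQ] = `s29ku_main`, [K-MUL] = `s29km_main`,
                           [K-TRIV] = `s29kt_main`, [LAT-HOM] = `s29lat_hom_main`);
* `s30ki_main_of_hecke`  : [K-HECKE] → [KUM-∞];
* `s30ki_kum_of_hecke`   : [K-HECKE] → [KUM] (`s29k_Statement`).
-/
import Mathlib
import Fermat.Agent.S29.DescHeckeMain
import Fermat.Agent.S29.RootFinJ
import Fermat.Agent.S29.DictKDiv
import Fermat.Agent.S29.KumEx
import Fermat.Agent.S29.KumC
import Fermat.Agent.S29.KumMain
import Fermat.Agent.S29.KumMul
import Fermat.Agent.S29.KumTriv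
import Fermat.Agent.S29.KumUniq
import Fermat.Agent.S29.LatHom
import Fermat.Agent.S30.KumInf

set_option autoImplicit false

noncomputable section

namespace Fermat.Agent.S30

open Fermat.Agent.S29

/-- The uniform [K-BC], hypothesis-free. -/
theorem s30ki_bc_main : s30ki_BCStatement :=
  s30ki_bc_of s29rf_stmt s29bh_heckeBC_main

/-- **[KUM-∞]** from [K-C]. -/
theorem s30ki_main_of_c (hC : s29k_CStatement) : s30ki_Statement :=
  s30ki_main_of hC s29ku_main s29rf_stmt s29bh_heckeBC_main

/-- [K-C] from [K-HECKE], every other leaf plugged. -/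
theorem s30ki_c_of_hecke (hH : s29k_HeckeStatement) : s29k_CStatement :=
  s29k_c_of (s29k_ex_of s29dk_main) s29ku_main s29km_main s29kt_main hH s29lat_hom_main

/-- **[KUM-∞]** from [K-HECKE]. -/
theorem s30ki_main_of_hecke (hH : s29k_HeckeStatement) : s30ki_Statement :=
  s30ki_main_of_c (s30ki_c_of_hecke hH)

/-- [KUM] from [K-HECKE]. -/
theorem s30ki_kum_of_hecke (hH : s29k_HeckeStatement) : s29k_Statement :=
  s29k_main_of (s30ki_c_of_hecke hH) s29rf_kbc_main

end Fermat.Agent.S30

end
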