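/-
S30, the geometric side, leaf [KUM-∞], hypothesis-free (owner: helper29).  Prefix `s30ki_`.

* `s30ki_main : s30ki_Statement` - for every level `N`, every prime `p` and a primitive
  compatible system of `p`-power roots of unity, ONE compatible family of Kummer maps
  `D_k : Λ →+ J₀(N)(Q̄)` at the levels `p ^ k`
  ([K-HECKE] is helper14's `s29hk_main`, every other leaf is plugged in `KumInfMain.lean`).
-/
import Mathlib
import Fermat.Agent.S29.HeckeKMain
import Fermat.Agent.S30.KumInfMain

set_option autoImplicit false

noncomputable section

namespace Fermat.Agent.S30

open Fermat.Agent.S29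

/-- **[KUM-∞]**, hypothesis-free. -/
theorem s30ki_main : s30ki_Statement :=
  s30ki_main_of_hecke s29hk_main

end Fermat.Agent.S30

end
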