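import Mathlib

set_option autoImplicit false
set_option linter.style.haveILetI false
set_option linter.unusedVariables false
set_option linter.unusedSectionVars false

/-!
# S30, [LAT30], the abstract part (pure algebra)

Owner: helper11.  Prefix `s30l_`.

`𝕋` a commutative ring, finite as a `ℤ`-module, acting faithfully on a finite-dimensional complex
vector space `V`; `χ : 𝕋 → K` a homomorphism to a field of characteristic `0`.  Then there are a
homomorphism `ψ : 𝕋 → ℂ` WITH THE SAME KERNEL as `χ` and a non-zero `g ∈ V` with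
`t g = ψ(t) g` for all `t` (`s30l_abs`).

Proof: `P := ker χ` lies over the zero ideal of `ℤ`, so it is a minimal prime of `𝕋`
(incomparability), hence an associated prime: `P = Ann(x)`, `x ≠ 0`.  The subspace `V[P]` of
vectors killed by `P` contains `x V ≠ 0` and is stable under `𝕋`; a minimal non-zero stable
subspace of it consists of simultaneous eigenvectors; the eigencharacter `ψ` has `P ⊆ ker ψ`, and
both lie over the zero ideal of `ℤ`, so `ker ψ = P` (incomparability again).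
-/

namespace Fermat.Agent.S30

open scoped TensorProduct

/-- A prime of a finite `ℤ`-algebra lying over the zero ideal of `ℤ` is contained in no other
such prime. -/
theorem s30l_incomparable {𝕋 : Type*} [CommRing 𝕋] [Module.Finite ℤ 𝕋] (P Q : Ideal 𝕋)
    [P.IsPrime] (hPQ : P ≤ Q) (hQ : ∀ n : ℤ, (n : 𝕋) ∈ Q → n = 0) : Q ≤ P := by
  by_contra hne
  obtain ⟨x, hxQ, hxP⟩ := Set.not_subset.mp hne
  have hint : IsIntegral ℤ x := Algebra.IsIntegral.isIntegral x
  have h1 := Ideal.comap_lt_comap_of_integral_mem_sdiff hPQ ⟨hxQ, hxP⟩ hint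
  obtain ⟨-, n, hnQ, hnP⟩ := SetLike.lt_iff_le_and_exists.mp h1
  rw [Ideal.mem_comap] at hnQ hnP
  have h2 : n = 0 := hQ n (by simpa using hnQ)
  apply hnP
  rw [h2, map_zero]
  exact P.zero_mem

/-- A prime of a finite `ℤ`-algebra lying over the zero ideal of `ℤ` annihilates a non-zero
element. -/
theorem s30l_exists_ann {𝕋 : Type*} [CommRing 𝕋] [Module.Finite ℤ 𝕋] (P : Ideal 𝕋) [P.IsPrime]
    (hP : ∀ n : ℤ, (n : 𝕋) ∈ P → n = 0) : ∃ x : 𝕋, x ≠ 0 ∧ ∀ t ∈ P, t * x = 0 := by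
  haveI : IsNoetherianRing 𝕋 := IsNoetherianRing.of_finite ℤ 𝕋
  have hann : Module.annihilator 𝕋 𝕋 = ⊥ := Module.annihilator_eq_bot.mpr inferInstance
  have hmin : P ∈ (Module.annihilator 𝕋 𝕋).minimalPrimes := by
    rw [hann]
    refine ⟨⟨inferInstance, bot_le⟩, fun Q hQ hQP => ?_⟩
    haveI := hQ.1
    exact s30l_incomparable Q P hQP hP
  have hass := Module.associatedPrimes.minimalPrimes_annihilator_subset_associatedPrimes 𝕋 𝕋 hmin
  obtain ⟨-, x, hx⟩ := isAssociatedPrime_iff.mp hass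
  refine ⟨x, ?_, fun t ht => ?_⟩
  · rintro rfl
    have h1 : (1 : 𝕋) ∈ P := by
      rw [hx, Submodule.mem_colon_singleton]
      simp
    exact (Ideal.IsPrime.ne_top inferInstance) ((Ideal.eq_top_iff_one P).mpr h1)
  · rw [hx, Submodule.mem_colon_singleton] at ht
    simpa using ht

/-- A commutative ring acting on a non-zero stable subspace of a finite-dimensional complex vector
space has a simultaneous eigenvector in it. -/
theorem s30l_exists_eigen {V : Type*} [AddCommGroup V] [Module ℂ V] [FiniteDimensional ℂ V]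
    {𝕋 : Type*} [CommRing 𝕋] (ρ : 𝕋 →+* Module.End ℂ V) (W₀ : Submodule ℂ V) (hW₀ : W₀ ≠ ⊥)
    (hstab : ∀ t, ∀ w ∈ W₀, ρ t w ∈ W₀) :
    ∃ (ψ : 𝕋 →+* ℂ) (g : V), g ≠ 0 ∧ g ∈ W₀ ∧ ∀ t, ρ t g = ψ t • g := by
  classical
  have hcomm : ∀ (s t : 𝕋) (v : V), ρ s (ρ t v) = ρ t (ρ s v) := by
    intro s t v
    rw [← Module.End.mul_apply, ← Module.End.mul_apply, ← map_mul, ← map_mul, mul_comm]
  -- a minimal non-zero stable subspace
  let 𝒮 : Set (Submodule ℂ V) := {W | W ≠ ⊥ ∧ W ≤ W₀ ∧ ∀ t, ∀ w ∈ W, ρ t w ∈ W}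
  have h𝒮 : 𝒮.Nonempty := ⟨W₀, hW₀, le_rfl, hstab⟩
  obtain ⟨W, ⟨hW0, hWle, hWstab⟩, hWmin⟩ :=
    (wellFounded_lt (α := Submodule ℂ V)).has_min 𝒮 h𝒮
  -- every `t` is a scalar on `W`
  have hscal : ∀ t : 𝕋, ∃ μ : ℂ, ∀ w ∈ W, ρ t w = μ • w := by
    intro t
    haveI : Nontrivial W := Submodule.nontrivial_iff_ne_bot.mpr hW0
    obtain ⟨μ, hμ⟩ := Module.End.exists_eigenvalue ((ρ t).restrict (hWstab t))
    obtain ⟨w₁, hw₁⟩ := hμ.exists_hasEigenvector
    have hw₁eq : ρ t (w₁ : V) = μ • (w₁ : V) := by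
      have := congrArg Subtype.val hw₁.apply_eq_smul
      simpa using this
    have hw₁ne : (w₁ : V) ≠ 0 := fun h => hw₁.2 (Subtype.ext h)
    let W' : Submodule ℂ V := W ⊓ LinearMap.ker (ρ t - μ • (1 : Module.End ℂ V))
    have hmemW' : ∀ w, w ∈ W' ↔ w ∈ W ∧ ρ t w = μ • w := by
      intro w
      simp only [W', Submodule.mem_inf, LinearMap.mem_ker, LinearMap.sub_apply,
        LinearMap.smul_apply, Module.End.one_apply, sub_eq_zero]
    have hW'mem : W' ∈ 𝒮 := by
      refine ⟨?_, inf_le_left.trans hWle, fun s w hw => ?_⟩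
      · intro h0
        have : (w₁ : V) ∈ W' := (hmemW' _).mpr ⟨w₁.2, hw₁eq⟩
        rw [h0, Submodule.mem_bot] at this
        exact hw₁ne this
      · rw [hmemW'] at hw ⊢
        refine ⟨hWstab s w hw.1, ?_⟩
        rw [hcomm, hw.2, map_smul]
    have hW'eq : W' = W := by
      by_contra hne
      exact hWmin W' hW'mem (lt_of_le_of_ne inf_le_left hne)
    refine ⟨μ, fun w hw => ?_⟩
    rw [← hW'eq] at hw
    exact ((hmemW' w).mp hw).2
  choose ψ hψ using hscal
  obtain ⟨g, hgW, hg0⟩ := Submodule.exists_mem_ne_zero_of_ne_bot hW0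
  have hinj : Function.Injective fun c : ℂ => c • g := smul_left_injective ℂ hg0
  refine ⟨{ toFun := ψ, map_one' := ?_, map_mul' := ?_, map_zero' := ?_, map_add' := ?_ },
    g, hg0, hWle hgW, fun t => hψ t g hgW⟩
  · apply hinj
    change ψ 1 • g = (1 : ℂ) • g
    rw [← hψ 1 g hgW, map_one, one_smul, Module.End.one_apply]
  · intro s t
    apply hinj
    change ψ (s * t) • g = (ψ s * ψ t) • g
    rw [← hψ (s * t) g hgW, map_mul, Module.End.mul_apply, hψ t g hgW, map_smul, hψ s g hgW,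
      smul_smul, mul_comm]
  · apply hinj
    change ψ 0 • g = (0 : ℂ) • g
    rw [← hψ 0 g hgW, map_zero, zero_smul, LinearMap.zero_apply]
  · intro s t
    apply hinj
    change ψ (s + t) • g = (ψ s + ψ t) • g
    rw [← hψ (s + t) g hgW, map_add, LinearMap.add_apply, hψ s g hgW, hψ t g hgW, add_smul]

/-- **The eigenvector of a character in characteristic `0`.** -/
theorem s30l_abs {V : Type*} [AddCommGroup V] [Module ℂ V] [FiniteDimensional ℂ V]
    {𝕋 : Type*} [CommRing 𝕋] [Module.Finite ℤ 𝕋] (ρ : 𝕋 →+* Module.End ℂ V)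
    (hρ : Function.Injective ρ) {K : Type*} [Field K] [CharZero K] (χ : 𝕋 →+* K) :
    ∃ (ψ : 𝕋 →+* ℂ) (g : V), g ≠ 0 ∧ (∀ t, ρ t g = ψ t • g) ∧ ∀ t, ψ t = 0 ↔ χ t = 0 := by
  haveI hPprime : (RingHom.ker χ).IsPrime := RingHom.ker_isPrime χ
  have hP : ∀ n : ℤ, (n : 𝕋) ∈ RingHom.ker χ → n = 0 := by
    intro n hn
    rw [RingHom.mem_ker, map_intCast] at hn
    exact_mod_cast hn
  obtain ⟨x, hx0, hx⟩ := s30l_exists_ann (RingHom.ker χ) hP
  have hcomm : ∀ (s t : 𝕋) (v : V), ρ s (ρ t v) = ρ t (ρ s v) := by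
    intro s t v
    rw [← Module.End.mul_apply, ← Module.End.mul_apply, ← map_mul, ← map_mul, mul_comm]
  -- the subspace killed by `P`
  let W₀ : Submodule ℂ V :=
    { carrier := {v | ∀ t ∈ RingHom.ker χ, ρ t v = 0}
      add_mem' := fun {a b} ha hb t ht => by rw [map_add, ha t ht, hb t ht, add_zero]
      zero_mem' := fun t _ => map_zero _
      smul_mem' := fun c v hv t ht => by rw [map_smul, hv t ht, smul_zero] }
  have hmemW₀ : ∀ v, v ∈ W₀ ↔ ∀ t ∈ RingHom.ker χ, ρ t v = 0 := fun v => Iff.rfl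
  have hW₀ : W₀ ≠ ⊥ := by
    have hρx : ρ x ≠ 0 := fun h => hx0 (hρ (h.trans (map_zero ρ).symm))
    obtain ⟨v, hv⟩ : ∃ v, ρ x v ≠ 0 := by
      by_contra hcon
      push Not at hcon
      exact hρx (LinearMap.ext hcon)
    intro h0
    have : ρ x v ∈ W₀ := by
      rw [hmemW₀]
      intro t ht
      rw [← Module.End.mul_apply, ← map_mul, hx t ht, map_zero, LinearMap.zero_apply]
    rw [h0, Submodule.mem_bot] at this
    exact hv this
  have hstab : ∀ t, ∀ w ∈ W₀, ρ t w ∈ W₀ := by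
    intro t w hw s hs
    rw [hcomm, hw s hs, map_zero]
  obtain ⟨ψ, g, hg0, hgW, hg⟩ := s30l_exists_eigen ρ W₀ hW₀ hstab
  refine ⟨ψ, g, hg0, hg, ?_⟩
  have hle : RingHom.ker χ ≤ RingHom.ker ψ := by
    intro t ht
    rw [RingHom.mem_ker]
    have h1 := hg t
    rw [hgW t ht] at h1
    exact (smul_eq_zero.mp h1.symm).resolve_right hg0
  have hQ : ∀ n : ℤ, (n : 𝕋) ∈ RingHom.ker ψ → n = 0 := by
    intro n hn
    rw [RingHom.mem_ker, map_intCast] at hn
    exact_mod_cast hn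
  have hge : RingHom.ker ψ ≤ RingHom.ker χ := s30l_incomparable _ _ hle hQ
  intro t
  exact ⟨fun h => hge h, fun h => hle h⟩

end Fermat.Agent.S30
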