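import Mathlib
import Fermat.Agent.S22.Main
import Fermat.Agent.S22.HeckeFinite
import Fermat.Agent.S23.Descent
import Fermat.Agent.S29.LatDefs
import Fermat.Agent.S29.LatHom
import Fermat.Agent.S29.LatAsm
import Fermat.Agent.S29.LatPer
import Fermat.Agent.S29.LatFreeMain
import Fermat.Agent.S29.LatDS
import Fermat.Agent.S30.Lat30Abs

set_option autoImplicit false
set_option linter.style.haveILetI false
set_option linter.unusedVariables false
set_option linter.unusedSectionVars false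

/-!
# S30, [LAT30]: the eigenvector of an arbitrary eigensystem in the lattice, characteristic `0`

Owner: helper11.  Prefix `s30l_`.

`Λ := parabolicHoms ℤ Γ₀(N) ℤ` with the Hecke operators `s29lat_T N ℓ` (`S29/LatDefs.lean`).
For EVERY ring homomorphism `χ` from the Hecke algebra `heckeAlgebra N 2 S` to a field `K` of
characteristic `0` (`s30l_field`), or to a domain `𝒪` of characteristic `0` (`s30l_main`), there
is a non-zero vector of `K ⊗ Λ` (of `𝒪 ⊗ Λ`) on which `T_ℓ` acts as `χ(T_ℓ)` for all primes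
`ℓ ∤ N`, `ℓ ∉ S`.

Proof.  (a) `S30/Lat30Abs.lean`: there are `ψ : 𝕋 → ℂ` with `ker ψ = ker χ` and a cusp form
`g ≠ 0` with `t g = ψ(t) g`.  (b) The period homomorphism of `g` is a non-zero eigenvector in
`ℂ ⊗ Λ` ([LAT-PER], [LAT-FREE], S21).  (c) `ψ` and `χ` factor through a common field `k₀`; the
eigen-equations are a linear system with coefficients in `k₀`, which has a non-zero solution over
`ℂ`, hence over `k₀`, hence over `K` ([LAT-DS], `s29lds_common`, `s29lds_descent`).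
(d) Over a domain: clear the denominators.
-/

namespace Fermat.Agent.S30

open CongruenceSubgroup ModularCurve ModularCurve.Period Matrix.SpecialLinearGroup
open scoped MatrixGroups TensorProduct
open Fermat.Agent.S29
open Matrix

section Coordinates

/-- The eigen-equation in coordinates. -/
theorem s30l_matrix_iff (R : Type*) [CommRing R] {L : Type*} [AddCommGroup L] {I : Type*}
    [Fintype I] [DecidableEq I] (b : Module.Basis I ℤ L) (T : Module.End ℤ L) (a : R)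
    (w : R ⊗[ℤ] L) :
    LinearMap.baseChange R T w = a • w ↔
      (LinearMap.toMatrix b b T).map (Int.cast : ℤ → R) *ᵥ
          (Algebra.TensorProduct.basis R b).equivFun w =
        a • (Algebra.TensorProduct.basis R b).equivFun w := by
  have h1 := LinearMap.toMatrix_mulVec_repr (Algebra.TensorProduct.basis R b)
    (Algebra.TensorProduct.basis R b) (LinearMap.baseChange R T) w
  rw [LinearMap.toMatrix_baseChange] at h1
  have h2 : (LinearMap.toMatrix b b T).map (Int.cast : ℤ → R) *ᵥ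
      (Algebra.TensorProduct.basis R b).equivFun w =
      (Algebra.TensorProduct.basis R b).equivFun (LinearMap.baseChange R T w) := by
    rw [Module.Basis.equivFun_apply, Module.Basis.equivFun_apply, ← h1]
    rfl
  rw [h2, ← map_smul]
  exact (Algebra.TensorProduct.basis R b).equivFun.injective.eq_iff.symm

/-- **Transfer of a simultaneous eigenvector between two fields** along two homomorphisms with
the same kernel (matrix form). -/
theorem s30l_transfer {I : Type} [Fintype I] [DecidableEq I] {ι : Type} (M : ι → Matrix I I ℤ)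
    {A : Type} [CommRing A] (α : ι → A) {K₁ K₂ : Type} [Field K₁] [Field K₂] (ψ : A →+* K₁)
    (χ : A →+* K₂) (hker : ∀ a, ψ a = 0 ↔ χ a = 0) (c : I → K₁) (hc : c ≠ 0)
    (h : ∀ i, (M i).map (Int.cast : ℤ → K₁) *ᵥ c = ψ (α i) • c) :
    ∃ w : I → K₂, w ≠ 0 ∧ ∀ i, (M i).map (Int.cast : ℤ → K₂) *ᵥ w = χ (α i) • w := by
  obtain ⟨k₀, _, q, ι₁, ι₂, hq1, hq2⟩ := s29lds_common ψ χ hker
  have hC := (s29lds_eqn_iff M α ψ c).mpr h
  obtain ⟨x, hx0, hx⟩ := s29lds_descent ι₁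
    (fun (e : ι × I) j => q ((M e.1 e.2 j : A) - if e.2 = j then α e.1 else 0)) c hc
    (fun e => by simp only [hq1]; exact hC e)
  refine ⟨fun j => ι₂ (x j), ?_, ?_⟩
  · intro h0
    apply hx0
    funext j
    have h1 := congrFun h0 j
    simp only [Pi.zero_apply] at h1 ⊢
    exact (map_eq_zero ι₂).mp h1
  · rw [← s29lds_eqn_iff M α χ]
    intro e
    have h1 := congrArg ι₂ (hx e)
    rw [map_sum, map_zero] at h1
    rw [← h1]
    refine Finset.sum_congr rfl fun j _ => ?_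
    rw [map_mul, hq2]

/-- **Clearing denominators** (matrix form). -/
theorem s30l_integral {I : Type} [Fintype I] [DecidableEq I] {ι : Type} (M : ι → Matrix I I ℤ)
    {𝒪 K : Type} [CommRing 𝒪] [IsDomain 𝒪] [Field K] [Algebra 𝒪 K] [IsFractionRing 𝒪 K]
    (a : ι → 𝒪) (c : I → K) (hc : c ≠ 0)
    (h : ∀ i, (M i).map (Int.cast : ℤ → K) *ᵥ c = algebraMap 𝒪 K (a i) • c) :
    ∃ z : I → 𝒪, z ≠ 0 ∧ ∀ i, (M i).map (Int.cast : ℤ → 𝒪) *ᵥ z = a i • z := by
  obtain ⟨d, hd⟩ := IsLocalization.exist_integer_multiples (nonZeroDivisors 𝒪) Finset.univ c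
  have hd0 : algebraMap 𝒪 K (d : 𝒪) ≠ 0 := by
    rw [Ne, map_eq_zero_iff _ (IsFractionRing.injective 𝒪 K)]
    exact nonZeroDivisors.coe_ne_zero d
  have hz : ∀ j, ∃ r : 𝒪, algebraMap 𝒪 K r = algebraMap 𝒪 K (d : 𝒪) * c j := by
    intro j
    obtain ⟨r, hr⟩ := hd j (Finset.mem_univ j)
    exact ⟨r, by rw [hr, Algebra.smul_def]⟩
  choose z hz using hz
  refine ⟨z, ?_, fun i => ?_⟩
  · intro h0
    apply hc
    funext j
    have h1 := hz j
    rw [h0, Pi.zero_apply, map_zero] at h1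
    exact (mul_eq_zero.mp h1.symm).resolve_left hd0
  · funext k
    apply IsFractionRing.injective 𝒪 K
    have h1 := congrFun (h i) k
    simp only [Matrix.mulVec, dotProduct, Matrix.map_apply, Pi.smul_apply, smul_eq_mul] at h1 ⊢
    rw [map_sum, map_mul, hz]
    have h2 : ∀ j, algebraMap 𝒪 K ((M i k j : 𝒪) * z j) =
        algebraMap 𝒪 K (d : 𝒪) * ((M i k j : K) * c j) := by
      intro j
      rw [map_mul, hz, map_intCast]
      ring
    simp only [h2]
    rw [← Finset.mul_sum, h1]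
    ring

end Coordinates

section Period

variable (N : ℕ) [NeZero N] (S : Set ℕ)

/-- The period homomorphism of a simultaneous eigenvector `g ≠ 0` of the Hecke algebra is a
non-zero simultaneous eigenvector in `ℂ ⊗ Λ`. -/
theorem s30l_period (ψ : CuspForm.heckeAlgebra N 2 S →+* ℂ) (g : CuspForm (Gamma0 N) 2)
    (hg : g ≠ 0)
    (hψ : ∀ t : CuspForm.heckeAlgebra N 2 S,
      (t : Module.End ℂ (CuspForm (Gamma0 N) 2)) g = ψ t • g) :
    ∃ v : ℂ ⊗[ℤ] (parabolicHoms ℤ (Gamma0 N) ℤ), v ≠ 0 ∧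
      ∀ (ℓ : ℕ) [Fact ℓ.Prime] (hℓN : ¬ ℓ ∣ N) (hℓS : ℓ ∉ S),
        LinearMap.baseChange ℂ (s29lat_T N ℓ hℓN) v =
          ψ (CuspForm.heckeAlgebra.T Fact.out hℓN hℓS) • v := by
  obtain ⟨-, -, -, hspan⟩ := s29lf_main N
  set ψ₀ : Additive (Gamma0 N) →+ ℂ := periodMap N g with hψ₀
  have hψpar : ψ₀ ∈ parabolicHoms ℂ (Gamma0 N) ℂ := s29lat_period_par N g
  have hψne : ψ₀ ≠ 0 := s29lat_period_ne_zero N g hg
  obtain ⟨n, lam, c, hc⟩ := hspan ψ₀ hψpar
  set v : ℂ ⊗[ℤ] (parabolicHoms ℤ (Gamma0 N) ℤ) := ∑ i, c i ⊗ₜ[ℤ] lam i with hv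
  have hev : s29lat_ev N v = fun γ => ψ₀ (Additive.ofMul γ) := by
    funext γ
    rw [hv, map_sum, Finset.sum_apply, hc γ]
    refine Finset.sum_congr rfl fun i _ => ?_
    rw [s29lat_ev_tmul]
  have hvne : v ≠ 0 := by
    intro h0
    apply hψne
    refine AddMonoidHom.ext fun γ => ?_
    have := congrFun hev (Additive.toMul γ)
    rw [h0, map_zero] at this
    exact this.symm
  have hinj := s29lat_ev_injective N s29lf_main
  refine ⟨v, hvne, fun ℓ _ hℓN hℓS => ?_⟩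
  apply hinj
  rw [s29lat_ev_T, map_smul, hev]
  funext γ
  rw [s29lat_funOp_apply, Pi.smul_apply, smul_eq_mul]
  have h1 := s29lp_main N ℓ hℓN g γ
  have h2 : CuspForm.heckeTLin 2 (Fact.out : ℓ.Prime) hℓN g =
      ψ (CuspForm.heckeAlgebra.T Fact.out hℓN hℓS) • g :=
    hψ (CuspForm.heckeAlgebra.T Fact.out hℓN hℓS)
  rw [h2, s29lat_period_smul, s29lat_heckeFun_def] at h1
  rw [← h1]
  rfl

end Period

section Main

variable (N : ℕ) [NeZero N] (S : Set ℕ)

/-- The matrix form of [LAT30] over a field of characteristic `0`. -/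
theorem s30l_field_matrix (K : Type) [Field K] [CharZero K]
    (χ : CuspForm.heckeAlgebra N 2 S →+* K) {I : Type} [Fintype I] [DecidableEq I]
    (b : Module.Basis I ℤ (parabolicHoms ℤ (Gamma0 N) ℤ)) :
    ∃ w : I → K, w ≠ 0 ∧ ∀ (ℓ : ℕ) [Fact ℓ.Prime] (hℓN : ¬ ℓ ∣ N) (hℓS : ℓ ∉ S),
      (LinearMap.toMatrix b b (s29lat_T N ℓ hℓN)).map (Int.cast : ℤ → K) *ᵥ w =
        χ (CuspForm.heckeAlgebra.T Fact.out hℓN hℓS) • w := by
  haveI : FiniteDimensional ℂ (CuspForm (Gamma0 N) 2) :=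
    Fermat.Agent.S23.finiteDimensional_cuspForm N 2
  haveI : Module.Finite ℤ (CuspForm.heckeAlgebra N 2 S) :=
    Fermat.Agent.S22.moduleFinite_heckeAlgebra_of_hasIntegralStructure N 2 S
      (fun _ => Fermat.Agent.S22.hasIntegralStructure N 2)
  obtain ⟨ψ, g, hg0, hg, hker⟩ := s30l_abs
    (CuspForm.heckeAlgebra N 2 S).val.toRingHom Subtype.val_injective χ
  obtain ⟨v, hv0, hv⟩ := s30l_period N S ψ g hg0 hg
  let ι : Type := {ℓ : ℕ // ℓ.Prime ∧ ¬ ℓ ∣ N ∧ ℓ ∉ S}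
  let M : ι → Matrix I I ℤ := fun i =>
    haveI : Fact i.1.Prime := ⟨i.2.1⟩
    LinearMap.toMatrix b b (s29lat_T N i.1 i.2.2.1)
  let α : ι → CuspForm.heckeAlgebra N 2 S := fun i =>
    CuspForm.heckeAlgebra.T i.2.1 i.2.2.1 i.2.2.2
  obtain ⟨w, hw0, hw⟩ := s30l_transfer M α ψ χ hker
    ((Algebra.TensorProduct.basis ℂ b).equivFun v)
    (fun h0 => hv0 ((Algebra.TensorProduct.basis ℂ b).equivFun.injective
      (h0.trans (map_zero _).symm)))
    (fun i => by
      haveI : Fact i.1.Prime := ⟨i.2.1⟩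
      exact (s30l_matrix_iff ℂ b _ _ v).mp (hv i.1 i.2.2.1 i.2.2.2))
  exact ⟨w, hw0, fun ℓ inst hℓN hℓS => hw ⟨ℓ, inst.out, hℓN, hℓS⟩⟩

/-- **[LAT30] over a field of characteristic `0`.** -/
theorem s30l_field (K : Type) [Field K] [CharZero K] (χ : CuspForm.heckeAlgebra N 2 S →+* K) :
    ∃ w : K ⊗[ℤ] (parabolicHoms ℤ (Gamma0 N) ℤ), w ≠ 0 ∧
      ∀ (ℓ : ℕ) [Fact ℓ.Prime] (hℓN : ¬ ℓ ∣ N) (hℓS : ℓ ∉ S),
        LinearMap.baseChange K (s29lat_T N ℓ hℓN) w =
          χ (CuspForm.heckeAlgebra.T Fact.out hℓN hℓS) • w := by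
  classical
  obtain ⟨hfin, hfree, -, -⟩ := s29lf_main N
  haveI := hfin
  haveI := hfree
  set b := Module.Free.chooseBasis ℤ (parabolicHoms ℤ (Gamma0 N) ℤ) with hb
  obtain ⟨w, hw0, hw⟩ := s30l_field_matrix N S K χ b
  refine ⟨(Algebra.TensorProduct.basis K b).equivFun.symm w, fun h0 => hw0 ?_,
    fun ℓ _ hℓN hℓS => ?_⟩
  · have h1 := congrArg (Algebra.TensorProduct.basis K b).equivFun h0
    rwa [LinearEquiv.apply_symm_apply, map_zero] at h1
  · rw [s30l_matrix_iff K b, LinearEquiv.apply_symm_apply]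
    exact hw ℓ hℓN hℓS

/-- **[LAT30] over a domain of characteristic `0`.** -/
theorem s30l_main (𝒪 : Type) [CommRing 𝒪] [IsDomain 𝒪] [CharZero 𝒪]
    (χ : CuspForm.heckeAlgebra N 2 S →+* 𝒪) :
    ∃ w : 𝒪 ⊗[ℤ] (parabolicHoms ℤ (Gamma0 N) ℤ), w ≠ 0 ∧
      ∀ (ℓ : ℕ) [Fact ℓ.Prime] (hℓN : ¬ ℓ ∣ N) (hℓS : ℓ ∉ S),
        LinearMap.baseChange 𝒪 (s29lat_T N ℓ hℓN) w =
          χ (CuspForm.heckeAlgebra.T Fact.out hℓN hℓS) • w := by
  classical
  obtain ⟨hfin, hfree, -, -⟩ := s29lf_main N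
  haveI := hfin
  haveI := hfree
  set b := Module.Free.chooseBasis ℤ (parabolicHoms ℤ (Gamma0 N) ℤ) with hb
  haveI : CharZero (FractionRing 𝒪) :=
    charZero_of_injective_algebraMap (IsFractionRing.injective 𝒪 (FractionRing 𝒪))
  obtain ⟨c, hc0, hc⟩ := s30l_field_matrix N S (FractionRing 𝒪)
    ((algebraMap 𝒪 (FractionRing 𝒪)).comp χ) b
  let ι : Type := {ℓ : ℕ // ℓ.Prime ∧ ¬ ℓ ∣ N ∧ ℓ ∉ S}
  let M : ι → Matrix _ _ ℤ := fun i =>
    haveI : Fact i.1.Prime := ⟨i.2.1⟩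
    LinearMap.toMatrix b b (s29lat_T N i.1 i.2.2.1)
  let a : ι → 𝒪 := fun i => χ (CuspForm.heckeAlgebra.T i.2.1 i.2.2.1 i.2.2.2)
  obtain ⟨z, hz0, hz⟩ := s30l_integral (K := FractionRing 𝒪) M a c hc0
    (fun i => by
      haveI : Fact i.1.Prime := ⟨i.2.1⟩
      exact hc i.1 i.2.2.1 i.2.2.2)
  refine ⟨(Algebra.TensorProduct.basis 𝒪 b).equivFun.symm z, fun h0 => hz0 ?_,
    fun ℓ inst hℓN hℓS => ?_⟩
  · have h1 := congrArg (Algebra.TensorProduct.basis 𝒪 b).equivFun h0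
    rwa [LinearEquiv.apply_symm_apply, map_zero] at h1
  · rw [s30l_matrix_iff 𝒪 b, LinearEquiv.apply_symm_apply]
    exact hz ⟨ℓ, inst.out, hℓN, hℓS⟩

end Main

end Fermat.Agent.S30
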