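/-
S30, leaf [MOD] (the quadratic lattice `s30top_ModStatement` of `S30/Top.lean`), INTERFACE FILE
(helper16).  Prefix `s30m_`.  Definitions and `Prop`s only; nothing is proved here.

  [MOD]      ⇐  [TATE-ABS] + [KUM-∞] + [LAT30] + [FIN-J] + (Q1) + (Q2) + [FINLVL]     (`ModAsm.lean`)
  [TATE-ABS] `s30m_TateStatement` : the abstract Tate eigen-lattice (Mathlib only)
  [KUM-∞]    `s30ki_Statement`    : `S30/KumInf.lean`
  [LAT30]    `s30m_LatStatement`  : an eigenvector of the eigensystem `χ` in `𝒪 ⊗ Λ`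
  [FIN-J]    `s30m_FinStatement`  : `J₀(N)(Q̄)[n]` is finite
  (Q1)       `S37.s37_RhoStatement` through `S29/Quad.lean`;  (Q2) `S29/QuadHG.lean`;
  [FINLVL]   `S29/FinLevel.lean`.
-/
import Mathlib
import Fermat.Prelude.Def_CuspForm_HeckeGaloisRepDatum
import Fermat.Prelude.Def_ModularCurve_HeckeModule
import Fermat.Agent.S29.LatDefs

set_option autoImplicit false

open scoped TensorProduct

open ModularCurve ModularCurve.Period CongruenceSubgroup

namespace Fermat.Agent.S30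

open Fermat.Agent.S29

/-- **[TATE-ABS]** the abstract Tate eigen-lattice.  `J` an abelian group with `J[p]` finite, on
which a group `G` and endomorphisms `Θ i` act, commuting with each other; `Λ` a finite free
`ℤ`-module with endomorphisms `t i` and a compatible family of equivariant maps `D k : Λ → J[p^k]`
with kernels `p^k Λ`; `w₀ ≠ 0` an eigenvector of the `t i` in `𝒪 ⊗ Λ` with eigenvalues `a i`.
Then there is a non-zero finite free `𝒪`-module `T` with an action `r` of `G` such that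
(cont) `r g ≡ 1` modulo `𝔪ⁿ` when `g` is trivial on `J[pⁿ]`; (triv) `r g = 1` when `g` is trivial
on the `p`-power torsion; (quad) `r g² - a i • r g + c = 0` when `g² - Θ i g + c = 0` on the
`p`-power torsion.  (`T :=` the `a`-eigen-lattice of the Tate module of `J` with coefficients
in `𝒪`.) -/
def s30m_TateStatement : Prop :=
  ∀ (p : ℕ) [Fact p.Prime] (𝒪 : Type) [CommRing 𝒪] [IsDomain 𝒪] [IsDiscreteValuationRing 𝒪]
    [IsAdicComplete (IsLocalRing.maximalIdeal 𝒪) 𝒪] [CharZero 𝒪],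
    (p : 𝒪) ∈ IsLocalRing.maximalIdeal 𝒪 →
    ∀ (J : Type) [AddCommGroup J], {x : J | p • x = 0}.Finite →
    ∀ (G : Type) [Group G] (act : G →* AddMonoid.End J) (ι : Type) (Θ : ι → J →+ J),
      (∀ i g x, Θ i (act g x) = act g (Θ i x)) →
    ∀ (Λ : Type) [AddCommGroup Λ] [Module.Finite ℤ Λ] [Module.Free ℤ Λ]
      (t : ι → Module.End ℤ Λ) (D : ℕ → Λ →+ J),
      (∀ k c, p ^ k • D k c = 0) → (∀ k c, D k c = 0 → ∃ c', c = p ^ k • c') →
      (∀ k c, p • D (k + 1) c = D k c) → (∀ k i c, D k (t i c) = Θ i (D k c)) →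
    ∀ (a : ι → 𝒪) (w₀ : 𝒪 ⊗[ℤ] Λ), w₀ ≠ 0 →
      (∀ i, LinearMap.baseChange 𝒪 (t i) w₀ = a i • w₀) →
    ∃ (T : Type) (_ : AddCommGroup T) (_ : Module 𝒪 T) (_ : Module.Free 𝒪 T)
      (_ : Module.Finite 𝒪 T) (_ : Nontrivial T) (r : G →* Module.End 𝒪 T),
      (∀ (n : ℕ) (g : G), (∀ x : J, p ^ n • x = 0 → act g x = x) →
        ∀ v : T, r g v - v ∈ (IsLocalRing.maximalIdeal 𝒪 ^ n) • (⊤ : Submodule 𝒪 T)) ∧
      (∀ g : G, (∀ (k : ℕ) (x : J), p ^ k • x = 0 → act g x = x) → r g = 1) ∧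
      (∀ (g : G) (i : ι) (c : ℤ), (∀ (k : ℕ) (x : J), p ^ k • x = 0 →
          act g (act g x) - Θ i (act g x) + c • x = 0) →
        r g * r g - a i • r g + (c : 𝒪) • (1 : Module.End 𝒪 T) = 0)

/-- **[LAT30]** every eigensystem `χ` of the Hecke algebra away from `S` with values in a domain
of characteristic zero occurs in `𝒪 ⊗ Λ`, `Λ = parabolicHoms ℤ Γ₀(N) ℤ`. -/
def s30m_LatStatement : Prop :=
  ∀ (N : ℕ) [NeZero N] (S : Set ℕ) (𝒪 : Type) [CommRing 𝒪] [IsDomain 𝒪] [CharZero 𝒪]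
    (χ : CuspForm.heckeAlgebra N 2 S →+* 𝒪),
    ∃ w : 𝒪 ⊗[ℤ] ↥(parabolicHoms ℤ (Gamma0 N) ℤ), w ≠ 0 ∧
      ∀ (ℓ : ℕ) [Fact ℓ.Prime] (hℓN : ¬ ℓ ∣ N) (hℓS : ℓ ∉ S),
        LinearMap.baseChange 𝒪 (s29lat_T N ℓ hℓN) w =
          χ (CuspForm.heckeAlgebra.T Fact.out hℓN hℓS) • w

/-- **[FIN-J]** the `n`-torsion of `J₀(N)(Q̄)` is finite. -/
def s30m_FinStatement : Prop :=
  ∀ (N : ℕ) [NeZero N] (n : ℕ), 0 < n → {x : JZero N | n • x = 0}.Finite

end Fermat.Agent.S30
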