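import Mathlib
import Fermat.Agent.S30.ModDefs
import Fermat.Agent.S30.Lat30

set_option autoImplicit false

/-!
# S30, [LAT30]: the export against `S30/ModDefs.lean`

Owner: helper11.  `s30l_stmt : s30m_LatStatement`, verbatim (`:= s30l_main`).
-/

namespace Fermat.Agent.S30

/-- **[LAT30]**, verbatim (`S30/ModDefs.lean`). -/
theorem s30l_stmt : s30m_LatStatement :=
  fun N _ S 𝒪 _ _ _ χ => s30l_main N S 𝒪 χ

example : s30m_LatStatement := s30l_stmt

end Fermat.Agent.S30
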