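/-
S30, leaf [MOD-ASM] (helper16).  Prefix `s30m_`.

`s30top_ModStatement` (the quadratic lattice of a Hecke eigensystem, `S30/Top.lean`) from
  * [TATE-ABS] `s30m_TateStatement`  (the abstract Tate eigen-lattice),
  * [KUM-∞]    `s30ki_Statement`     (one compatible family of Kummer maps),
  * [LAT30]    `s30m_LatStatement`   (the eigenvector of `χ` in `𝒪 ⊗ Λ`),
  * [FIN-J]    `s30m_FinStatement`   (`J₀(N)(Q̄)[n]` is finite),
  * (Q1)       `S37.s37_RhoStatement` (inertia and Frobenius on torsion, `S29/Quad.lean`),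
together with (Q2) `s29q_hecke_smul`, [FINLVL] `s29fl_finset` and [LAT-FREE] `s29lf_main`.
-/
import Mathlib
import Fermat.Agent.S30.Top
import Fermat.Agent.S30.ModDefs
import Fermat.Agent.S30.KumInf
import Fermat.Agent.S29.Quad
import Fermat.Agent.S29.QuadHG
import Fermat.Agent.S29.FinLevel
import Fermat.Agent.S29.LatFreeMain

set_option autoImplicit false

open scoped TensorProduct

open ModularCurve ModularCurve.Period CongruenceSubgroup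

namespace Fermat.Agent.S30

open Fermat.Agent.S29

/-- A prime different from `p` does not divide a power of `p`. -/
theorem s30m_not_dvd_pow {p ℓ : ℕ} (hp : p.Prime) (hℓ : ℓ.Prime) (hne : ℓ ≠ p) (k : ℕ) :
    ¬ ℓ ∣ p ^ k := fun h =>
  hne ((Nat.prime_dvd_prime_iff_eq hℓ hp).1 (hℓ.dvd_of_dvd_pow h))

/-- **[MOD-ASM]** the quadratic lattice of a Hecke eigensystem. -/
theorem s30m_main (hTate : s30m_TateStatement) (hKum : s30ki_Statement)
    (hLat : s30m_LatStatement) (hFin : s30m_FinStatement) (hRho : S37.s37_RhoStatement) :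
    s30top_ModStatement := by
  intro p _ N _ S hpS hNS 𝒪 _ _ _ _ _ _ hp𝒪 χ
  classical
  have hp : p.Prime := Fact.out
  obtain ⟨D, hD, hker, hcompat, hDt⟩ := hKum N p hp
  obtain ⟨w₀, hw₀, hw⟩ := hLat N (↑S) 𝒪 χ
  obtain ⟨hΛfin, hΛfree, -, -⟩ := s29lf_main N
  have hprime : ∀ i : {ℓ : ℕ // ℓ.Prime ∧ ¬ ℓ ∣ N ∧ ℓ ∉ (↑S : Set ℕ)}, i.1 ≠ p := by
    intro i h
    exact i.2.2.2 (Finset.mem_coe.2 (h ▸ hpS))
  obtain ⟨T, i1, i2, i3, i4, i5, r, hcont, htriv, hquad⟩ :=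
    hTate p 𝒪 hp𝒪 (JZero N) (hFin N p hp.pos)
      (AlgebraicClosure ℚ ≃ₐ[ℚ] AlgebraicClosure ℚ)
      (DistribMulAction.toAddMonoidEnd (AlgebraicClosure ℚ ≃ₐ[ℚ] AlgebraicClosure ℚ) (JZero N))
      {ℓ : ℕ // ℓ.Prime ∧ ¬ ℓ ∣ N ∧ ℓ ∉ (↑S : Set ℕ)}
      (fun i => (heckeOperatorBar N ⟨i.1, i.2.1⟩).toAddMonoidHom)
      (fun i g x => s29q_hecke_smul N ⟨i.1, i.2.1⟩ g x)
      ↥(parabolicHoms ℤ (Gamma0 N) ℤ)
      (fun i => @s29lat_T N i.1 ⟨i.2.1⟩ i.2.2.1) D hD hker hcompat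
      (fun k i c => @hDt k i.1 ⟨i.2.1⟩ i.2.2.1 (hprime i) c)
      (fun i => χ (CuspForm.heckeAlgebra.T i.2.1 i.2.2.1 i.2.2.2)) w₀ hw₀
      (fun i => @hw i.1 ⟨i.2.1⟩ i.2.2.1 i.2.2.2)
  refine ⟨T, i1, i2, i3, i4, i5, r, ?_, ?_, ?_⟩
  · -- adic continuity
    intro n
    obtain ⟨L, hL, h⟩ := s29fl_finset N (hFin N (p ^ n) (pow_pos hp.pos n)).toFinset
    refine ⟨L, hL, fun σ hσ v => hcont n σ (fun x hx => ?_) v⟩
    exact h σ hσ x ((Set.Finite.mem_toFinset _).2 hx)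
  · -- inertia
    intro q hq hqN hqp A hA σ hσ
    refine htriv σ (fun k x hx => ?_)
    exact s29q_inertia hRho N hq hqN A hA (s30m_not_dvd_pow hp hq hqp k) hσ x hx
  · -- Frobenius
    intro ℓ hℓ hℓN hℓS A hA σ hσ
    have hne : ℓ ≠ p := hprime ⟨ℓ, hℓ, hℓN, hℓS⟩
    have h1 := hquad σ ⟨ℓ, hℓ, hℓN, hℓS⟩ (ℓ : ℤ) (fun k x hx => by
      have h2 := s29q_frob hRho N hℓ hℓN A hA (s30m_not_dvd_pow hp hℓ hne k) hσ x hx
      rw [natCast_zsmul]
      exact h2)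
    rw [Int.cast_natCast] at h1
    exact h1

end Fermat.Agent.S30
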