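/-
S30, leaf **[REL]** (helper8).  Prefix `s30q_`.

`s30q_main : s30top_RelStatement` (VERBATIM S30/Top.lean).

From the quadratic relations at the Frobenius elements to a quadratic relation for EVERY element
of the Galois group, on a finite free module `T` over a discrete valuation ring `𝒪` with an
adically continuous Galois action:

  `∀ g, ∃ t : 𝒪, r g * r g - t • r g + ε g • 1 = 0`.

Frobenius' density theorem ([FD], `s29_FDStatement`) at the finite level of `T/𝔪ⁿT` and of `χ`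
mod `𝔪ⁿ` gives, for every `n`, some `a_n` with `r g² - a_n r g + χ g ∈ 𝔪ⁿ End(T)`; Krull's
intersection theorem for `End(T) / 𝒪 · r g` gives an exact `t`.  No completeness is used here.
-/
import Mathlib
import Fermat.Agent.S30.Top

set_option autoImplicit false
set_option linter.style.haveILetI false
set_option linter.unusedSectionVars false

open Polynomial

noncomputable section

namespace Fermat.Agent.S30

open Fermat.Agent.S29

/-! ### The power lemma over a commutative ring -/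

section power

variable {R : Type*} [CommRing R]

theorem s30q_powsum (a c : R) (m : ℕ) :
    (∃ t : R, (X * X - C a * X + C c : R[X]) ∣ X ^ m + (C a - X) ^ m - C t) ∧
      ∃ t : R, (X * X - C a * X + C c : R[X]) ∣ X ^ (m + 1) + (C a - X) ^ (m + 1) - C t := by
  induction m with
  | zero =>
    refine ⟨⟨1 + 1, ?_⟩, ⟨a, ?_⟩⟩
    · have : (X ^ 0 + (C a - X) ^ 0 - C (1 + 1 : R) : R[X]) = 0 := by
        rw [pow_zero, pow_zero, C_add, C_1]
        ring
      rw [this]
      exact dvd_zero _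
    · have : (X ^ (0 + 1) + (C a - X) ^ (0 + 1) - C a : R[X]) = 0 := by ring
      rw [this]
      exact dvd_zero _
  | succ m ih =>
    obtain ⟨⟨t, u, hu⟩, ⟨t', u', hu'⟩⟩ := ih
    refine ⟨⟨t', u', hu'⟩, ⟨a * t' - c * t, C a * u' - C c * u + (X ^ m + (C a - X) ^ m), ?_⟩⟩
    have e : (X ^ (m + 1 + 1) + (C a - X) ^ (m + 1 + 1) - C (a * t' - c * t) : R[X]) =
        C a * (X ^ (m + 1) + (C a - X) ^ (m + 1) - C t') -
          C c * (X ^ m + (C a - X) ^ m - C t) +
          (X * X - C a * X + C c) * (X ^ m + (C a - X) ^ m) := by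
      rw [C_sub, C_mul, C_mul]
      ring
    rw [e, hu, hu']
    ring

theorem s30q_pow_poly (a c : R) (m : ℕ) :
    ∃ t : R, (X * X - C a * X + C c : R[X]) ∣ X ^ m * X ^ m - C t * X ^ m + C (c ^ m) := by
  obtain ⟨⟨t, u, hu⟩, -⟩ := s30q_powsum a c m
  obtain ⟨w, hw⟩ := sub_dvd_pow_sub_pow (X * (C a - X) : R[X]) (C c) m
  rw [mul_pow] at hw
  refine ⟨t, X ^ m * u + w, ?_⟩
  have e : (X ^ m * X ^ m - C t * X ^ m + C (c ^ m) : R[X]) =
      X ^ m * (X ^ m + (C a - X) ^ m - C t) - (X ^ m * (C a - X) ^ m - C c ^ m) := by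
    rw [C_pow]
    ring
  have e2 : (X * (C a - X) - C c : R[X]) = -(X * X - C a * X + C c) := by ring
  rw [e, hu, hw, e2]
  ring

variable {E : Type*} [Ring E] [Algebra R E]

/-- **The power lemma**: if `x² - a x + c = 0` then `(x^m)² - t x^m + c^m = 0` for some `t`. -/
theorem s30q_pow (x : E) (a c : R) (h : x * x - a • x + c • (1 : E) = 0) (m : ℕ) :
    ∃ t : R, x ^ m * x ^ m - t • x ^ m + c ^ m • (1 : E) = 0 := by
  obtain ⟨t, u, hu⟩ := s30q_pow_poly a c m
  refine ⟨t, ?_⟩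
  have h0 : aeval x (X * X - C a * X + C c : R[X]) = 0 := by
    simp only [map_add, map_sub, map_mul, aeval_X, aeval_C, ← Algebra.smul_def]
    rw [Algebra.algebraMap_eq_smul_one]
    exact h
  have h1 := congrArg (aeval x) hu
  rw [map_mul, h0, zero_mul] at h1
  simp only [map_add, map_sub, map_mul, map_pow, aeval_X, aeval_C, ← Algebra.smul_def] at h1
  rw [Algebra.algebraMap_eq_smul_one, _root_.smul_pow, one_pow] at h1
  exact h1

end power

/-! ### Endomorphisms congruent to zero -/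

section cong

variable {R : Type*} [CommRing R] (I : Ideal R) {T : Type*} [AddCommGroup T] [Module R T]

/-- The endomorphisms with image in `I T`. -/
def s30q_cong : Submodule R (Module.End R T) where
  carrier := {f | ∀ v : T, f v ∈ (I • ⊤ : Submodule R T)}
  add_mem' := fun {f g} hf hg v => by
    rw [LinearMap.add_apply]
    exact Submodule.add_mem _ (hf v) (hg v)
  zero_mem' := fun v => by
    rw [LinearMap.zero_apply]
    exact Submodule.zero_mem _
  smul_mem' := fun c f hf v => by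
    rw [LinearMap.smul_apply]
    exact Submodule.smul_mem _ _ (hf v)

variable {I}

theorem s30q_mem_cong {f : Module.End R T} :
    f ∈ s30q_cong I (T := T) ↔ ∀ v : T, f v ∈ (I • ⊤ : Submodule R T) := Iff.rfl

theorem s30q_map_mem (h : Module.End R T) {x : T} (hx : x ∈ (I • ⊤ : Submodule R T)) :
    h x ∈ (I • ⊤ : Submodule R T) := by
  have h1 : (I • ⊤ : Submodule R T).map h ≤ I • ⊤ := by
    rw [Submodule.map_smul'']
    exact Submodule.smul_mono le_rfl le_top
  exact h1 (Submodule.mem_map_of_mem hx)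

theorem s30q_cong_mul_left (h : Module.End R T) {f : Module.End R T}
    (hf : f ∈ s30q_cong I (T := T)) : h * f ∈ s30q_cong I (T := T) := fun v => by
  rw [Module.End.mul_apply]
  exact s30q_map_mem h (hf v)

theorem s30q_cong_mul_right (h : Module.End R T) {f : Module.End R T}
    (hf : f ∈ s30q_cong I (T := T)) : f * h ∈ s30q_cong I (T := T) := fun v => by
  rw [Module.End.mul_apply]
  exact hf (h v)

theorem s30q_cong_smul_one {c : R} (hc : c ∈ I) :
    c • (1 : Module.End R T) ∈ s30q_cong I (T := T) := fun v => by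
  rw [LinearMap.smul_apply, Module.End.one_apply]
  exact Submodule.smul_mem_smul hc Submodule.mem_top

end cong

/-! ### Discrete valuation rings: Krull's intersection theorem for `End(T) / 𝒪 · A` -/

section dvr

variable {𝒪 : Type*} [CommRing 𝒪] [IsDomain 𝒪] [IsDiscreteValuationRing 𝒪]

theorem s30q_mem_iff {M : Type*} [AddCommGroup M] [Module 𝒪 M] {π : 𝒪} (hπ : Irreducible π)
    (n : ℕ) (v : M) :
    v ∈ (IsLocalRing.maximalIdeal 𝒪 ^ n • ⊤ : Submodule 𝒪 M) ↔ ∃ w : M, π ^ n • w = v := by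
  rw [hπ.maximalIdeal_eq, Ideal.span_singleton_pow, Submodule.ideal_span_singleton_smul,
    Submodule.mem_smul_pointwise_iff_exists]
  simp

variable {T : Type*} [AddCommGroup T] [Module 𝒪 T] [Module.Finite 𝒪 T] [Module.Free 𝒪 T]

theorem s30q_cong_le (n : ℕ) :
    s30q_cong (IsLocalRing.maximalIdeal 𝒪 ^ n) (T := T) ≤
      (IsLocalRing.maximalIdeal 𝒪 ^ n • ⊤ : Submodule 𝒪 (Module.End 𝒪 T)) := by
  intro f hf
  obtain ⟨π, hπ⟩ := IsDiscreteValuationRing.exists_irreducible 𝒪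
  let b := Module.Free.chooseBasis 𝒪 T
  have h1 : ∀ i, ∃ w : T, π ^ n • w = f (b i) := fun i => (s30q_mem_iff hπ n _).1 (hf (b i))
  choose w hw using h1
  have h2 : f = π ^ n • (b.constr 𝒪 w) := by
    apply b.ext
    intro i
    rw [LinearMap.smul_apply, Module.Basis.constr_basis, hw]
  rw [h2, s30q_mem_iff hπ n]
  exact ⟨_, rfl⟩

/-- **Krull**: if `x ∈ 𝒪 · A + 𝔪ⁿ End(T)` for all `n`, then `x ∈ 𝒪 · A`. -/
theorem s30q_krull (A x : Module.End 𝒪 T)
    (h : ∀ n : ℕ, ∃ a : 𝒪, x - a • A ∈ s30q_cong (IsLocalRing.maximalIdeal 𝒪 ^ n) (T := T)) :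
    ∃ t : 𝒪, x = t • A := by
  let P : Submodule 𝒪 (Module.End 𝒪 T) := Submodule.span 𝒪 {A}
  have hK := Ideal.iInf_pow_smul_eq_bot_of_isLocalRing (R := 𝒪) (M := Module.End 𝒪 T ⧸ P)
    (IsLocalRing.maximalIdeal 𝒪) (IsLocalRing.maximalIdeal.isMaximal 𝒪).ne_top
  have hA : P.mkQ A = 0 := by
    rw [Submodule.mkQ_apply, Submodule.Quotient.mk_eq_zero]
    exact Submodule.mem_span_singleton_self A
  have h1 : P.mkQ x ∈
      (⨅ i : ℕ, IsLocalRing.maximalIdeal 𝒪 ^ i • ⊤ : Submodule 𝒪 (Module.End 𝒪 T ⧸ P)) := by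
    rw [Submodule.mem_iInf]
    intro n
    obtain ⟨a, ha⟩ := h n
    have h2 := s30q_cong_le n ha
    have h3 : P.mkQ x = P.mkQ (x - a • A) := by
      rw [map_sub, map_smul, hA, smul_zero, sub_zero]
    rw [h3]
    have h4 : (IsLocalRing.maximalIdeal 𝒪 ^ n • ⊤ : Submodule 𝒪 (Module.End 𝒪 T)).map P.mkQ ≤
        IsLocalRing.maximalIdeal 𝒪 ^ n • ⊤ := by
      rw [Submodule.map_smul'']
      exact Submodule.smul_mono le_rfl le_top
    exact h4 (Submodule.mem_map_of_mem h2)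
  rw [hK, Submodule.mem_bot] at h1
  have h5 : x ∈ P := by
    rw [Submodule.mkQ_apply, Submodule.Quotient.mk_eq_zero] at h1
    exact h1
  obtain ⟨t, ht⟩ := Submodule.mem_span_singleton.1 h5
  exact ⟨t, ht.symm⟩

end dvr

/-! ### The quadratic relation for every element of the Galois group -/

/-- **[REL]** every element of the Galois group satisfies a quadratic relation with constant
term `ε g`. -/
theorem s30q_main : s30top_RelStatement := by
  intro hFD 𝒪 _ _ _ W _ _ _ _ r ε S hcont hεcont hfrob g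
  suffices hk : ∀ n : ℕ, ∃ a : 𝒪, (r g * r g + ε g • (1 : Module.End 𝒪 W)) - a • r g ∈
      s30q_cong (IsLocalRing.maximalIdeal 𝒪 ^ n) (T := W) by
    obtain ⟨t, ht⟩ := s30q_krull (r g) (r g * r g + ε g • (1 : Module.End 𝒪 W)) hk
    refine ⟨t, ?_⟩
    rw [sub_add_eq_add_sub, ht, sub_self]
  intro n
  obtain ⟨L₁, hL₁, h₁⟩ := hcont n
  obtain ⟨L₂, hL₂, h₂⟩ := hεcont n
  haveI := hL₁
  haveI := hL₂
  have hL : FiniteDimensional ℚ ↥(L₁ ⊔ L₂) := IntermediateField.finiteDimensional_sup L₁ L₂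
  obtain ⟨ℓ, hℓ, hℓS, A, hA, σ, hσ, m, m', -, hm'⟩ := hFD (L₁ ⊔ L₂) hL g S
  obtain ⟨δ, hδ⟩ : ∃ δ : AlgebraicClosure ℚ ≃ₐ[ℚ] AlgebraicClosure ℚ, δ = g⁻¹ * σ ^ m' :=
    ⟨_, rfl⟩
  have hδfix : ∀ x ∈ L₁ ⊔ L₂, δ x = x := by
    intro x hx
    rw [hδ, AlgEquiv.mul_apply, hm' x hx]
    show (g⁻¹ * g) x = x
    rw [inv_mul_cancel, AlgEquiv.one_apply]
  have hτ : σ ^ m' = g * δ := by rw [hδ, mul_inv_cancel_left]
  have hD : r δ - 1 ∈ s30q_cong (IsLocalRing.maximalIdeal 𝒪 ^ n) (T := W) := fun v => by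
    rw [LinearMap.sub_apply, Module.End.one_apply]
    exact h₁ δ (fun x hx => hδfix x ((le_sup_left : L₁ ≤ L₁ ⊔ L₂) hx)) v
  have hd : ε δ - 1 ∈ IsLocalRing.maximalIdeal 𝒪 ^ n :=
    h₂ δ (fun x hx => hδfix x ((le_sup_right : L₂ ≤ L₁ ⊔ L₂) hx))
  obtain ⟨t₀, ht₀⟩ := hfrob ℓ hℓ hℓS A hA σ hσ
  obtain ⟨t, ht⟩ := s30q_pow (r σ) t₀ (ε σ) ht₀ m'
  refine ⟨t, ?_⟩
  rw [← map_pow, ← map_pow, hτ, map_mul r, map_mul ε] at ht
  set A' : Module.End 𝒪 W := r g with hA'
  set D : Module.End 𝒪 W := r δ - 1 with hDdef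
  set d : 𝒪 := ε δ - 1 with hddef
  have e1 : r δ = 1 + D := by rw [hDdef]; abel
  have e2 : ε δ = 1 + d := by rw [hddef]; ring
  rw [e1, e2] at ht
  have hAD : A' * D ∈ s30q_cong (IsLocalRing.maximalIdeal 𝒪 ^ n) (T := W) :=
    s30q_cong_mul_left A' hD
  have key : A' * A' + ε g • (1 : Module.End 𝒪 W) - t • A' =
      -(A' * (A' * D) + (A' * D) * A' + (A' * D) * (A' * D) - t • (A' * D) +
        (ε g * d) • (1 : Module.End 𝒪 W)) := by
    have e3 : A' * (1 + D) * (A' * (1 + D)) - t • (A' * (1 + D)) +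
        (ε g * (1 + d)) • (1 : Module.End 𝒪 W) =
        (A' * A' + ε g • (1 : Module.End 𝒪 W) - t • A') +
          (A' * (A' * D) + (A' * D) * A' + (A' * D) * (A' * D) - t • (A' * D) +
            (ε g * d) • (1 : Module.End 𝒪 W)) := by
      simp only [mul_add, add_mul, mul_one, smul_add, add_smul, mul_assoc]
      abel
    rw [e3] at ht
    exact eq_neg_of_add_eq_zero_left ht
  rw [key]
  refine Submodule.neg_mem _ (Submodule.add_mem _ (Submodule.sub_mem _ (Submodule.add_mem _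
    (Submodule.add_mem _ (s30q_cong_mul_left A' hAD) (s30q_cong_mul_right A' hAD))
    (s30q_cong_mul_left _ hAD)) (Submodule.smul_mem _ _ hAD)) ?_)
  exact s30q_cong_smul_one (Ideal.mul_mem_left _ _ hd)

end Fermat.Agent.S30
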