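/-
S30: the composition  [MOD] + [CYC] + [REL] + [ALG] + [FD] ⟹ S30  (helper25).  Prefix `s30top_`.
-/
import Mathlib
import Fermat.Agent.S30.Top

set_option autoImplicit false

open Polynomial

namespace Fermat.Agent.S30

/-- The composition: S30 from the four leaves and Frobenius' density theorem.  The coefficient
ring of the representation is `𝒪'` itself. -/
theorem s30top_goal_of (hFD : Fermat.Agent.S29.s29_FDStatement) (hMod : s30top_ModStatement)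
    (hCyc : s30top_CycStatement) (hRel : s30top_RelStatement) (hAlg : s30top_AlgStatement) : s30top_Goal := by
  intro p _ N _ S hpS hNS 𝒪 _ _ _ _ _ _ hp𝒪 χ
  have hp : p.Prime := Fact.out
  obtain ⟨W, _, _, _, _, _, r, hcont, hin, hfrob⟩ := hMod p N S hpS hNS 𝒪 hp𝒪 χ
  obtain ⟨ε, hεcont, hεin, hεfrob, c, hc, hεc⟩ := hCyc p hp 𝒪 hp𝒪
  -- primes outside `S` do not divide `N` and are different from `p`
  have hS : ∀ ℓ : ℕ, ℓ.Prime → ℓ ∉ S → ¬ ℓ ∣ N ∧ ℓ ≠ p := by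
    intro ℓ hℓ hℓS
    exact ⟨fun h => hℓS (hNS ℓ hℓ h), fun h => hℓS (h ▸ hpS)⟩
  have hrel : ∀ g : AlgebraicClosure ℚ ≃ₐ[ℚ] AlgebraicClosure ℚ,
      ∃ t : 𝒪, r g * r g - t • r g + ε g • (1 : Module.End 𝒪 W) = 0 := by
    refine hRel hFD 𝒪 W r ε S hcont hεcont ?_
    intro ℓ hℓ hℓS A hA σ hσ
    refine ⟨χ (CuspForm.heckeAlgebra.T hℓ (hS ℓ hℓ hℓS).1 (by exact_mod_cast hℓS)), ?_⟩
    rw [hεfrob ℓ hℓ (hS ℓ hℓ hℓS).2 A hA σ hσ]
    exact hfrob ℓ hℓ (hS ℓ hℓ hℓS).1 (by exact_mod_cast hℓS) A hA σ hσ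
  obtain ⟨V, _, _, _, _, ρ, hrank, hchar, hcong⟩ := hAlg 𝒪 _ W r ε c hc hεc hrel
  refine ⟨𝒪, inferInstance, inferInstance, inferInstance, inferInstance, inferInstance,
    inferInstance, Algebra.id 𝒪, ?_, ?_, Function.injective_id, ?_⟩
  · exact Module.Finite.self 𝒪
  · exact ⟨fun _ h => h⟩
  · refine ⟨{ V := V, finrank_eq := hrank, ρ := ρ, isAdicContinuous := ?_ }, ?_, ?_⟩
    · intro n
      obtain ⟨L₁, hL₁, h₁⟩ := hcont n
      obtain ⟨L₂, hL₂, h₂⟩ := hεcont n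
      have := hL₁
      have := hL₂
      refine ⟨L₁ ⊔ L₂, inferInstance, fun σ hσ v => ?_⟩
      exact hcong _ σ (h₁ σ fun x hx => hσ x ((le_sup_left : L₁ ≤ L₁ ⊔ L₂) hx))
        (h₂ σ fun x hx => hσ x ((le_sup_right : L₂ ≤ L₁ ⊔ L₂) hx)) v
    · intro ℓ hℓ hℓN hℓS A hA σ hσ
      have h := hchar σ _ (by
        have := hfrob ℓ hℓ hℓN hℓS A hA σ hσ
        rwa [← hεfrob ℓ hℓ (fun h => hℓS (by exact_mod_cast h ▸ hpS)) A hA σ hσ] at this)
      rw [h, hεfrob ℓ hℓ (fun h => hℓS (by exact_mod_cast h ▸ hpS)) A hA σ hσ]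
      rfl
    · intro q hq hqN hqp A hA σ hσ
      have h0 : ∀ v : V, ρ σ v - v ∈ (⊥ : Ideal 𝒪) • (⊤ : Submodule 𝒪 V) := by
        refine hcong ⊥ σ (fun w => ?_) ?_
        · rw [hin q hq hqN hqp A hA σ hσ, Module.End.one_apply, sub_self]
          exact Submodule.zero_mem _
        · rw [hεin q hq hqp A hA σ hσ, sub_self]
          exact Submodule.zero_mem _
      refine LinearMap.ext fun v => ?_
      have := h0 v
      rw [Submodule.bot_smul, Submodule.mem_bot, sub_eq_zero] at this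
      rw [this, Module.End.one_apply]

end Fermat.Agent.S30
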