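/-
S30 (preparation), leaf [S30-EXT] (helper24).  Prefix `s30x_`.  Mathlib only.

THE COEFFICIENT RING OF A FINITE EXTENSION.  Let `A` be a complete discrete valuation ring of
characteristic zero with finite residue field, `K = Frac A`, and `L / K` a finite extension.
Then the integral closure `B` of `A` in `L` is again a complete discrete valuation ring with
finite residue field, finite (and free) over `A`, `A → B` is an injective local homomorphism,
and `Frac B = L` (`s30x_main`, in the binder shape of the statement S30).

ROUTE (no valuation / norm theory):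
* `B` is a Dedekind domain, finite and free over `A` (Mathlib);
* a module with a finite basis over an `I`-adically complete ring is `I`-adically complete
  (`s30x_adic_of_basis`), hence `B` is `𝔪_A B`-adically complete;
* `B / 𝔪_A B` is a finite ring, so every element has an idempotent power
  (`s30x_exists_idem_pow`); idempotents lift along a complete ideal (Hensel for `X² - X`), and a
  domain has no idempotents besides `0, 1`: so `B` is local (`s30x_local_of_complete`);
* local + Dedekind + not a field = discrete valuation ring; `𝔪_A B = 𝔪_B ^ e` with `e ≥ 1`, and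
  `I ^ e`-adic completeness implies `I`-adic completeness (`s30x_adic_of_pow`).
-/
import Mathlib

set_option autoImplicit false

open IsLocalRing

namespace Fermat.Agent.S30

universe u v w

section basis

variable {A M ι : Type*} [CommRing A] [AddCommGroup M] [Module A M]

/-- Membership in `I • ⊤` in terms of coordinates. -/
theorem s30x_mem_smul_top_iff [Finite ι] (b : Module.Basis ι A M) (I : Ideal A) (x : M) :
    x ∈ (I • ⊤ : Submodule A M) ↔ ∀ i, b.repr x i ∈ I := by
  classical
  have := Fintype.ofFinite ι
  constructor
  · intro hx i
    refine Submodule.smul_induction_on hx ?_ ?_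
    · intro a ha m _
      rw [map_smul, Finsupp.smul_apply, smul_eq_mul]
      exact I.mul_mem_right _ ha
    · intro y z hy hz
      rw [map_add, Finsupp.add_apply]
      exact I.add_mem hy hz
  · intro h
    rw [← b.sum_repr x]
    exact Submodule.sum_mem _ fun i _ => Submodule.smul_mem_smul (h i) Submodule.mem_top

/-- A module with a finite basis over an `I`-adically complete ring is `I`-adically complete. -/
theorem s30x_adic_of_basis [Finite ι] (b : Module.Basis ι A M) (I : Ideal A)
    [IsAdicComplete I A] : IsAdicComplete I M := by
  classical
  have := Fintype.ofFinite ι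
  have hA : IsAdicComplete I A := inferInstance
  have key : ∀ (n : ℕ) (x y : M),
      x ≡ y [SMOD (I ^ n • ⊤ : Submodule A M)] ↔
        ∀ i, b.repr x i ≡ b.repr y i [SMOD (I ^ n • ⊤ : Submodule A A)] := by
    intro n x y
    rw [SModEq.sub_mem, s30x_mem_smul_top_iff b]
    refine forall_congr' fun i => ?_
    rw [SModEq.sub_mem, map_sub, Finsupp.sub_apply, smul_eq_mul, Ideal.mul_top]
  refine { haus' := ?_, prec' := ?_ }
  · intro x hx
    have h0 : ∀ i, b.repr x i = 0 := by
      intro i
      refine hA.toIsHausdorff.haus' _ fun n => ?_
      have := (key n x 0).mp (hx n) i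
      simpa using this
    apply b.repr.injective
    ext i
    simpa using h0 i
  · intro f hf
    have hc : ∀ i, ∃ L : A, ∀ n, b.repr (f n) i ≡ L [SMOD (I ^ n • ⊤ : Submodule A A)] := by
      intro i
      refine hA.toIsPrecomplete.prec' (fun n => b.repr (f n) i) ?_
      intro m n hmn
      exact (key m (f m) (f n)).mp (hf hmn) i
    choose L hL using hc
    refine ⟨∑ i, L i • b i, fun n => ?_⟩
    rw [key]
    intro i
    have : b.repr (∑ j, L j • b j) i = L i := by
      rw [b.repr_sum_self]
    rw [this]
    exact hL i n

end basis

section pow

variable {A M : Type*} [CommRing A] [AddCommGroup M] [Module A M]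

/-- `I ^ e`-adic completeness implies `I`-adic completeness (`e ≥ 1`). -/
theorem s30x_adic_of_pow (I : Ideal A) (e : ℕ) (he : 1 ≤ e) (h : IsAdicComplete (I ^ e) M) :
    IsAdicComplete I M := by
  have hle : ∀ n : ℕ, ((I ^ e) ^ n • ⊤ : Submodule A M) ≤ I ^ n • ⊤ := by
    intro n
    rw [← pow_mul]
    exact Submodule.smul_mono_left (Ideal.pow_le_pow_right (Nat.le_mul_of_pos_left n he))
  refine { haus' := ?_, prec' := ?_ }
  · intro x hx
    refine h.toIsHausdorff.haus' x fun n => ?_
    have := hx (e * n)
    rwa [pow_mul] at this
  · intro f hf
    obtain ⟨L, hL⟩ := h.toIsPrecomplete.prec' (fun n => f (e * n)) (by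
      intro m n hmn
      have := hf (Nat.mul_le_mul_left e hmn)
      rwa [pow_mul] at this)
    refine ⟨L, fun n => ?_⟩
    have h1 : f n ≡ f (e * n) [SMOD (I ^ n • ⊤ : Submodule A M)] :=
      hf (Nat.le_mul_of_pos_left n he)
    have h2 : f (e * n) ≡ L [SMOD (I ^ n • ⊤ : Submodule A M)] :=
      SModEq.mono (hle n) (hL n)
    exact h1.trans h2

end pow

section idem

/-- In a finite monoid every element has an idempotent power with positive exponent. -/
theorem s30x_exists_idem_pow {G : Type*} [Monoid G] [Finite G] (x : G) :
    ∃ n : ℕ, 0 < n ∧ x ^ n * x ^ n = x ^ n := by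
  obtain ⟨a, b, hab, h⟩ := Finite.exists_ne_map_eq_of_infinite (fun n : ℕ => x ^ n)
  wlog hlt : a < b generalizing a b
  · exact this b a hab.symm h.symm (lt_of_le_of_ne (not_lt.mp hlt) hab.symm)
  obtain ⟨d, rfl⟩ : ∃ d, b = a + d := ⟨b - a, by omega⟩
  have hd : 0 < d := by omega
  have h1 : ∀ m, a ≤ m → x ^ (m + d) = x ^ m := by
    intro m hm
    obtain ⟨c, rfl⟩ : ∃ c, m = a + c := ⟨m - a, by omega⟩
    have h' : x ^ a = x ^ (a + d) := h
    calc x ^ (a + c + d) = x ^ (a + d) * x ^ c := by rw [← pow_add]; congr 1; omega
      _ = x ^ a * x ^ c := by rw [← h']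
      _ = x ^ (a + c) := by rw [pow_add]
  have h2 : ∀ k m, a ≤ m → x ^ (m + k * d) = x ^ m := by
    intro k
    induction k with
    | zero => intro m _; simp
    | succ k ih =>
      intro m hm
      have : m + (k + 1) * d = (m + k * d) + d := by ring
      rw [this, h1 _ (by omega), ih m hm]
  refine ⟨(a + 1) * d, Nat.mul_pos (Nat.succ_pos a) hd, ?_⟩
  rw [← pow_add]
  have hge : a ≤ (a + 1) * d := by nlinarith
  exact h2 (a + 1) ((a + 1) * d) hge

variable {B : Type*} [CommRing B]

/-- A domain which is complete for an ideal with finite quotient is a local ring. -/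
theorem s30x_local_of_complete [IsDomain B] (J : Ideal B) [IsAdicComplete J B]
    [Finite (B ⧸ J)] : IsLocalRing B := by
  refine IsLocalRing.of_isUnit_or_isUnit_one_sub_self fun b => ?_
  have hjac : J ≤ (⊥ : Ideal B).jacobson := IsAdicComplete.le_jacobson_bot J
  have hunit : ∀ y ∈ J, IsUnit (1 - y) := by
    intro y hy
    have := Ideal.mem_jacobson_bot.mp (hjac (J.neg_mem hy)) 1
    simpa [sub_eq_neg_add] using this
  obtain ⟨n, hn, hid⟩ := s30x_exists_idem_pow (Ideal.Quotient.mk J b)
  have : HenselianRing B J := IsAdicComplete.henselianRing B J
  have hmem : b ^ n * b ^ n - b ^ n ∈ J := by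
    rw [← Ideal.Quotient.eq_zero_iff_mem, map_sub, map_mul, map_pow, hid, sub_self]
  obtain ⟨a, ha, haJ⟩ := HenselianRing.is_henselian (I := J)
    (Polynomial.X ^ 2 - Polynomial.X : Polynomial B)
    (Polynomial.monic_X_pow_sub (by simp [Polynomial.degree_X]))
    (b ^ n) (by simpa [pow_two] using hmem) (by
      have hd : Polynomial.eval (b ^ n) (Polynomial.derivative
          (Polynomial.X ^ 2 - Polynomial.X : Polynomial B)) = 2 * b ^ n - 1 := by
        rw [Polynomial.derivative_sub, Polynomial.derivative_X_sq, Polynomial.derivative_X,
          Polynomial.eval_sub, Polynomial.eval_mul, Polynomial.eval_C, Polynomial.eval_X,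
          Polynomial.eval_one]
      rw [hd]
      refine IsUnit.of_mul_eq_one (Ideal.Quotient.mk J (2 * b ^ n - 1)) ?_
      rw [← map_mul, ← map_one (Ideal.Quotient.mk J), ← sub_eq_zero, ← map_sub,
        Ideal.Quotient.eq_zero_iff_mem]
      have : (2 * b ^ n - 1) * (2 * b ^ n - 1) - 1 = 4 * (b ^ n * b ^ n - b ^ n) := by ring
      rw [this]
      exact J.mul_mem_left _ hmem)
  have ha' : a * (a - 1) = 0 := by
    have : Polynomial.eval a (Polynomial.X ^ 2 - Polynomial.X : Polynomial B) = 0 := ha
    simp only [Polynomial.eval_sub, Polynomial.eval_pow, Polynomial.eval_X] at this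
    linear_combination this
  rcases mul_eq_zero.mp ha' with h0 | h1
  · right
    have hbn : b ^ n ∈ J := by
      have := J.neg_mem haJ
      rwa [h0, zero_sub, neg_neg] at this
    have hu := hunit _ hbn
    have hdvd : (1 - b) ∣ (1 - b ^ n) := by
      simpa using sub_dvd_pow_sub_pow (1 : B) b n
    exact isUnit_of_dvd_unit hdvd hu
  · left
    have ha1 : a = 1 := by linear_combination h1
    have hbn : 1 - b ^ n ∈ J := by rwa [ha1] at haJ
    have hu := hunit _ hbn
    rw [sub_sub_cancel] at hu
    exact (isUnit_pow_iff (Nat.pos_iff_ne_zero.mp hn)).mp hu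

end idem

section main

variable (A : Type u) [CommRing A] [IsDomain A] [IsDiscreteValuationRing A]
  (K : Type v) [Field K] [Algebra A K] [IsFractionRing A K]
  (L : Type w) [Field L] [Algebra K L] [Algebra A L] [IsScalarTower A K L]

include K in
theorem s30x_injective : Function.Injective (algebraMap A (integralClosure A L)) := by
  have hAL : Function.Injective (algebraMap A L) := by
    rw [IsScalarTower.algebraMap_eq A K L]
    exact (algebraMap K L).injective.comp (IsFractionRing.injective A K)
  have : FaithfulSMul A L := (faithfulSMul_iff_algebraMap_injective A L).mpr hAL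
  exact FaithfulSMul.algebraMap_injective A (integralClosure A L)

include K in
theorem s30x_not_isField : ¬ IsField (integralClosure A L) := by
  intro h
  exact IsDiscreteValuationRing.not_isField A
    (isField_of_isIntegral_of_isField (s30x_injective A K L) h)

include K in
theorem s30x_charZero [CharZero A] : CharZero (integralClosure A L) :=
  charZero_of_injective_algebraMap (s30x_injective A K L)

variable [FiniteDimensional K L] [CharZero A]

include K in
theorem s30x_finite : Module.Finite A (integralClosure A L) := by
  have : CharZero K := charZero_of_injective_algebraMap (IsFractionRing.injective A K)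
  exact IsIntegralClosure.finite A K L (integralClosure A L)

include K in
theorem s30x_isDedekindDomain : IsDedekindDomain (integralClosure A L) := by
  have : CharZero K := charZero_of_injective_algebraMap (IsFractionRing.injective A K)
  exact integralClosure.isDedekindDomain A K L

include K in
theorem s30x_free : Module.Free A (integralClosure A L) := by
  have := s30x_finite A K L
  have hinj := s30x_injective A K L
  have : FaithfulSMul A (integralClosure A L) :=
    (faithfulSMul_iff_algebraMap_injective A _).mpr hinj
  exact Module.free_of_finite_type_torsion_free'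

include K in
theorem s30x_adic_map [IsAdicComplete (maximalIdeal A) A] :
    IsAdicComplete ((maximalIdeal A).map (algebraMap A (integralClosure A L)))
      (integralClosure A L) := by
  have := s30x_finite A K L
  have := s30x_free A K L
  have h : IsAdicComplete (maximalIdeal A) (integralClosure A L) :=
    s30x_adic_of_basis (Module.Free.chooseBasis A (integralClosure A L)) (maximalIdeal A)
  exact (IsAdicComplete.map_algebraMap_iff (maximalIdeal A) (integralClosure A L)).mpr h

include K in
theorem s30x_finite_quot [Finite (ResidueField A)] :
    Finite ((integralClosure A L) ⧸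
      (maximalIdeal A).map (algebraMap A (integralClosure A L))) := by
  have := s30x_finite A K L
  have hfg : (⊤ : Submodule A (integralClosure A L)).FG := Module.Finite.fg_top
  have : Finite (A ⧸ maximalIdeal A) := (inferInstance : Finite (ResidueField A))
  have : Finite ((integralClosure A L) ⧸ (⊤ : Submodule A (integralClosure A L))) :=
    Finite.of_subsingleton
  have h1 : Finite ((integralClosure A L) ⧸
      (maximalIdeal A • (⊤ : Submodule A (integralClosure A L)))) :=
    Submodule.finite_quotient_smul (maximalIdeal A) hfg
  rw [Ideal.smul_top_eq_map] at h1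
  exact Finite.of_equiv _ (Submodule.Quotient.restrictScalarsEquiv A
    ((maximalIdeal A).map (algebraMap A (integralClosure A L)))).toEquiv

variable [IsAdicComplete (maximalIdeal A) A] [Finite (ResidueField A)]

include K in
theorem s30x_isLocalRing : IsLocalRing (integralClosure A L) := by
  have := s30x_adic_map A K L
  have := s30x_finite_quot A K L
  exact s30x_local_of_complete ((maximalIdeal A).map (algebraMap A (integralClosure A L)))

include K in
theorem s30x_isDVR : IsDiscreteValuationRing (integralClosure A L) := by
  have := s30x_isLocalRing A K L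
  have hded := s30x_isDedekindDomain A K L
  have h02 : IsDiscreteValuationRing (integralClosure A L) ↔
      IsDedekindDomain (integralClosure A L) :=
    (IsDiscreteValuationRing.TFAE (integralClosure A L) (s30x_not_isField A K L)).out 0 2
  exact h02.mpr hded

include K in
/-- `𝔪_A B` is a positive power of the maximal ideal of `B`. -/
theorem s30x_map_eq_pow :
    ∃ e : ℕ, 1 ≤ e ∧ (maximalIdeal A).map (algebraMap A (integralClosure A L)) =
      (@maximalIdeal (integralClosure A L) _ (s30x_isLocalRing A K L)) ^ e := by
  have hloc := s30x_isLocalRing A K L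
  have hded := s30x_isDedekindDomain A K L
  have hdvr := s30x_isDVR A K L
  have hne : (maximalIdeal A).map (algebraMap A (integralClosure A L)) ≠ ⊥ := by
    intro h
    rw [Ideal.map_eq_bot_iff_of_injective (s30x_injective A K L)] at h
    exact IsDiscreteValuationRing.not_a_field A h
  have h06 : IsDiscreteValuationRing (integralClosure A L) ↔
      ∀ I : Ideal (integralClosure A L), I ≠ ⊥ →
        ∃ n : ℕ, I = maximalIdeal (integralClosure A L) ^ n :=
    (IsDiscreteValuationRing.TFAE (integralClosure A L) (s30x_not_isField A K L)).out 0 6
  obtain ⟨e, he⟩ := h06.mp hdvr _ hne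
  refine ⟨e, ?_, he⟩
  rcases Nat.eq_zero_or_pos e with h0 | hpos
  · exfalso
    rw [h0, pow_zero, Ideal.one_eq_top] at he
    have hadic := s30x_adic_map A K L
    rw [he] at hadic
    have := hadic.subsingleton
    exact not_subsingleton (integralClosure A L) this
  · exact hpos

include K in
theorem s30x_map_le :
    (maximalIdeal A).map (algebraMap A (integralClosure A L)) ≤
      @maximalIdeal (integralClosure A L) _ (s30x_isLocalRing A K L) := by
  obtain ⟨e, he, h⟩ := s30x_map_eq_pow A K L
  rw [h]
  exact Ideal.pow_le_self (by omega)

include K in
theorem s30x_isAdicComplete :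
    IsAdicComplete (@maximalIdeal (integralClosure A L) _ (s30x_isLocalRing A K L))
      (integralClosure A L) := by
  obtain ⟨e, he, h⟩ := s30x_map_eq_pow A K L
  have hadic := s30x_adic_map A K L
  rw [h] at hadic
  exact s30x_adic_of_pow _ e he hadic

include K in
theorem s30x_finite_residue :
    Finite (@ResidueField (integralClosure A L) _ (s30x_isLocalRing A K L)) := by
  have hloc := s30x_isLocalRing A K L
  have hle := s30x_map_le A K L
  have := s30x_finite_quot A K L
  exact Finite.of_surjective (Ideal.Quotient.factor hle) (Ideal.Quotient.factor_surjective hle)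

include K in
theorem s30x_isLocalHom : IsLocalHom (algebraMap A (integralClosure A L)) := by
  have hloc := s30x_isLocalRing A K L
  have hle := s30x_map_le A K L
  refine ⟨fun a ha => ?_⟩
  by_contra hna
  have h1 : a ∈ maximalIdeal A := (IsLocalRing.mem_maximalIdeal a).mpr hna
  have h2 : algebraMap A (integralClosure A L) a ∈ maximalIdeal (integralClosure A L) :=
    hle (Ideal.mem_map_of_mem _ h1)
  exact (IsLocalRing.mem_maximalIdeal _).mp h2 ha

end main

section export_

/-- **[S30-EXT]** the coefficient ring of a finite extension: for a complete discrete valuation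
ring `A` of characteristic zero with finite residue field and a finite extension `L` of its
fraction field `K`, the integral closure `B` of `A` in `L` has all the properties which S30 asks
of `𝒪''`, and `Frac B = L`. -/
theorem s30x_main (A : Type u) [CommRing A] [IsDomain A] [IsDiscreteValuationRing A]
    [IsAdicComplete (maximalIdeal A) A] [Finite (ResidueField A)] [CharZero A]
    (K : Type v) [Field K] [Algebra A K] [IsFractionRing A K]
    (L : Type w) [Field L] [Algebra K L] [Algebra A L] [IsScalarTower A K L]
    [FiniteDimensional K L] :
    ∃ (B : Type w) (_ : CommRing B) (_ : IsDomain B) (_ : IsDiscreteValuationRing B)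
      (_ : IsAdicComplete (maximalIdeal B) B) (_ : Finite (ResidueField B)) (_ : CharZero B)
      (_ : Algebra A B) (_ : Module.Finite A B) (_ : IsLocalHom (algebraMap A B))
      (_ : Algebra B L) (_ : IsScalarTower A B L) (_ : IsFractionRing B L),
      Function.Injective (algebraMap A B) :=
  ⟨integralClosure A L, inferInstance, inferInstance, s30x_isDVR A K L,
    s30x_isAdicComplete A K L, s30x_finite_residue A K L, s30x_charZero A K L, inferInstance,
    s30x_finite A K L, s30x_isLocalHom A K L, inferInstance, inferInstance,
    integralClosure.isFractionRing_of_finite_extension K L, s30x_injective A K L⟩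

end export_

end Fermat.Agent.S30
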