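/-
S30 [TATE-ABS] (helper27).  Prefix `s30t_`.

The eigen-lattice of a Tate module, abstractly.  `𝒪` is a complete discrete valuation ring of
characteristic `0` with `p ∈ 𝔪`; `J` is an abelian group with finite `p`-torsion, acted on by a
group `G` and by commuting endomorphisms `Θ i`.  We put `X := 𝒪 ⊗[ℤ] J` and

  `T := {x : ℕ → X | x 0 = 0, p • x (k+1) = x k, (Θ i ⊗ 1) (x k) = a i • x k}`.

`T` is a finite free `𝒪`-module with an action of `G`; it is non-zero as soon as there is a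
compatible system of maps `D k : Λ → J[p^k]` with kernels `p^k Λ` and an eigenvector in `𝒪 ⊗ Λ`.
Relations which hold on all `J[p^k]` hold on `T`.
-/
import Mathlib

set_option autoImplicit false
set_option linter.unusedSectionVars false
set_option linter.style.haveILetI false

open TensorProduct

namespace Fermat.Agent.S30

/-! ### Precompleteness of `Fin d → R` -/

section Pi

variable {R : Type*} [CommRing R] (I : Ideal R)

theorem s30t_mem_smul_top_pi {d : ℕ} (n : ℕ) (x : Fin d → R) :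
    x ∈ (I ^ n • ⊤ : Submodule R (Fin d → R)) ↔ ∀ i, x i ∈ I ^ n := by
  constructor
  · intro hx
    refine Submodule.smul_induction_on (p := fun x => ∀ i, x i ∈ I ^ n) hx ?_ ?_
    · intro r hr m _ i
      rw [Pi.smul_apply, smul_eq_mul]
      exact Ideal.mul_mem_right _ _ hr
    · intro x y hx hy i
      rw [Pi.add_apply]
      exact Ideal.add_mem _ (hx i) (hy i)
  · intro hx
    have e : x = ∑ i, x i • (Pi.single i (1 : R) : Fin d → R) := by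
      funext j
      simp [Finset.sum_apply, Pi.single_apply]
    rw [e]
    exact Submodule.sum_mem _ fun i _ => Submodule.smul_mem_smul (hx i) Submodule.mem_top

theorem s30t_isPrecomplete_pi [IsPrecomplete I R] (d : ℕ) : IsPrecomplete I (Fin d → R) := by
  refine ⟨fun f hf => ?_⟩
  have h1 : ∀ i : Fin d, ∃ L : R, ∀ n, f n i ≡ L [SMOD (I ^ n • ⊤ : Submodule R R)] := by
    intro i
    refine IsPrecomplete.prec ‹_› (f := fun n => f n i) ?_
    intro m n hmn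
    have h2 := hf hmn
    rw [SModEq.sub_mem] at h2 ⊢
    have h3 := (s30t_mem_smul_top_pi I m _).1 h2 i
    rw [smul_eq_mul, Ideal.mul_top]
    exact h3
  choose L hL using h1
  refine ⟨L, fun n => ?_⟩
  rw [SModEq.sub_mem, s30t_mem_smul_top_pi]
  intro i
  have h4 := hL i n
  rw [SModEq.sub_mem, smul_eq_mul, Ideal.mul_top] at h4
  exact h4

end Pi

/-! ### Base change of endomorphisms and flatness -/

section Flat

variable (𝒪 : Type) [CommRing 𝒪] (J : Type) [AddCommGroup J]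

/-- Base change of an additive endomorphism of `J`. -/
noncomputable def s30t_bc (E : J →+ J) : Module.End 𝒪 (𝒪 ⊗[ℤ] J) :=
  (E.toIntLinearMap).baseChange 𝒪

theorem s30t_bc_tmul (E : J →+ J) (c : 𝒪) (x : J) :
    s30t_bc 𝒪 J E (c ⊗ₜ[ℤ] x) = c ⊗ₜ[ℤ] E x := rfl

theorem s30t_bc_comp (E E' : J →+ J) :
    s30t_bc 𝒪 J (E.comp E') = s30t_bc 𝒪 J E * s30t_bc 𝒪 J E' := by
  unfold s30t_bc
  rw [← LinearMap.baseChange_mul]
  rfl

theorem s30t_bc_id : s30t_bc 𝒪 J (AddMonoidHom.id J) = 1 := by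
  unfold s30t_bc
  rw [← LinearMap.baseChange_one]
  rfl

variable {𝒪 J}

/-- An element of `𝒪 ⊗ J` killed by `m` comes from `𝒪 ⊗ J[m]` (flatness of `𝒪` over `ℤ`). -/
theorem s30t_mem_range [Module.Flat ℤ 𝒪] (m : ℤ) (z : 𝒪 ⊗[ℤ] J) (hz : m • z = 0) :
    z ∈ LinearMap.range ((Submodule.torsionBy ℤ J m).subtype.baseChange 𝒪) := by
  have hex : Function.Exact (Submodule.torsionBy ℤ J m).subtype
      (DistribSMul.toLinearMap ℤ J m) :=
    LinearMap.exact_subtype_ker_map (DistribSMul.toLinearMap ℤ J m)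
  have h1 := Module.Flat.lTensor_exact 𝒪 hex
  have e : ∀ w : 𝒪 ⊗[ℤ] J, LinearMap.lTensor 𝒪 (DistribSMul.toLinearMap ℤ J m) w = m • w := by
    intro w
    induction w using TensorProduct.induction_on with
    | zero => simp
    | tmul c x =>
        rw [LinearMap.lTensor_tmul, TensorProduct.smul_tmul']
        exact (TensorProduct.smul_tmul m c x).symm
    | add x y hx hy => rw [map_add, hx, hy, smul_add]
  have h2 : LinearMap.lTensor 𝒪 (DistribSMul.toLinearMap ℤ J m) z = 0 := by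
    rw [e, hz]
  obtain ⟨y, hy⟩ := (h1 z).1 h2
  exact ⟨y, by rw [← hy]; rfl⟩

/-- A `ℤ`-linear map which vanishes on `J[m]` vanishes, after base change, on `(𝒪 ⊗ J)[m]`. -/
theorem s30t_bc_eq_zero [Module.Flat ℤ 𝒪] (m : ℤ) (E : J →ₗ[ℤ] J)
    (hE : ∀ x : J, m • x = 0 → E x = 0) (z : 𝒪 ⊗[ℤ] J) (hz : m • z = 0) :
    E.baseChange 𝒪 z = 0 := by
  obtain ⟨y, rfl⟩ := s30t_mem_range m z hz
  have e : E ∘ₗ (Submodule.torsionBy ℤ J m).subtype = 0 := by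
    ext x
    exact hE x ((Submodule.mem_torsionBy_iff _ _).1 x.2)
  rw [← LinearMap.comp_apply, ← LinearMap.baseChange_comp, e, LinearMap.baseChange_zero,
    LinearMap.zero_apply]

end Flat

/-! ### The lattice -/

section Lattice

variable (𝒪 : Type) [CommRing 𝒪] (p : ℕ) (J : Type) [AddCommGroup J]
  {ι : Type*} (Θ : ι → (J →+ J)) (a : ι → 𝒪)

/-- The eigen-lattice of the Tate module. -/
def s30t_T : Submodule 𝒪 (ℕ → 𝒪 ⊗[ℤ] J) where
  carrier := {x | x 0 = 0 ∧ (∀ k, (p : 𝒪) • x (k + 1) = x k) ∧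
    ∀ k i, s30t_bc 𝒪 J (Θ i) (x k) = a i • x k}
  zero_mem' := ⟨rfl, fun k => by simp, fun k i => by simp⟩
  add_mem' := by
    rintro x y ⟨hx0, hx1, hx2⟩ ⟨hy0, hy1, hy2⟩
    refine ⟨by simp [hx0, hy0], fun k => ?_, fun k i => ?_⟩
    · rw [Pi.add_apply, Pi.add_apply, smul_add, hx1 k, hy1 k]
    · rw [Pi.add_apply, map_add, hx2 k i, hy2 k i, smul_add]
  smul_mem' := by
    rintro c x ⟨hx0, hx1, hx2⟩
    refine ⟨by simp [hx0], fun k => ?_, fun k i => ?_⟩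
    · rw [Pi.smul_apply, Pi.smul_apply, smul_comm, hx1 k]
    · rw [Pi.smul_apply, map_smul, hx2 k i, smul_comm]

variable {𝒪 p J Θ a}

theorem s30t_mem_T {x : ℕ → 𝒪 ⊗[ℤ] J} :
    x ∈ s30t_T 𝒪 p J Θ a ↔ x 0 = 0 ∧ (∀ k, (p : 𝒪) • x (k + 1) = x k) ∧
      ∀ k i, s30t_bc 𝒪 J (Θ i) (x k) = a i • x k := Iff.rfl

theorem s30t_pow_smul {x : ℕ → 𝒪 ⊗[ℤ] J} (hx : x ∈ s30t_T 𝒪 p J Θ a) (n k : ℕ) :
    (p : 𝒪) ^ n • x (k + n) = x k := by
  induction n with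
  | zero => simp
  | succ n ih =>
      rw [pow_succ, mul_smul, ← add_assoc, hx.2.1 (k + n), ih]

theorem s30t_kill {x : ℕ → 𝒪 ⊗[ℤ] J} (hx : x ∈ s30t_T 𝒪 p J Θ a) (k : ℕ) :
    (p : 𝒪) ^ k • x k = 0 := by
  have := s30t_pow_smul hx k 0
  rw [zero_add] at this
  rw [this, hx.1]

theorem s30t_kill_int {x : ℕ → 𝒪 ⊗[ℤ] J} (hx : x ∈ s30t_T 𝒪 p J Θ a) (k : ℕ) :
    (((p ^ k : ℕ) : ℤ)) • x k = 0 := by
  have := s30t_kill hx k
  rw [← Nat.cast_pow, Nat.cast_smul_eq_nsmul] at this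
  rw [natCast_zsmul, this]

/-- The shift of a sequence. -/
def s30t_shift (n : ℕ) (x : ℕ → 𝒪 ⊗[ℤ] J) : ℕ → 𝒪 ⊗[ℤ] J := fun k => x (k + n)

theorem s30t_shift_mem {x : ℕ → 𝒪 ⊗[ℤ] J} (hx : x ∈ s30t_T 𝒪 p J Θ a) (n : ℕ) (hn : x n = 0) :
    s30t_shift n x ∈ s30t_T 𝒪 p J Θ a := by
  refine ⟨by simp only [s30t_shift, zero_add, hn], fun k => ?_, fun k i => ?_⟩
  · simp only [s30t_shift]
    rw [add_right_comm]
    exact hx.2.1 (k + n)
  · exact hx.2.2 (k + n) i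

theorem s30t_pow_smul_shift {x : ℕ → 𝒪 ⊗[ℤ] J} (hx : x ∈ s30t_T 𝒪 p J Θ a) (n : ℕ) :
    (p : 𝒪) ^ n • s30t_shift n x = x := by
  funext k
  rw [Pi.smul_apply]
  exact s30t_pow_smul hx n k

/-- The action of an endomorphism of `J` on sequences. -/
noncomputable def s30t_map (𝒪 : Type) [CommRing 𝒪] {J : Type} [AddCommGroup J] (E : J →+ J) :
    (ℕ → 𝒪 ⊗[ℤ] J) →ₗ[𝒪] (ℕ → 𝒪 ⊗[ℤ] J) :=
  (s30t_bc 𝒪 J E).compLeft ℕ

theorem s30t_map_apply (E : J →+ J) (x : ℕ → 𝒪 ⊗[ℤ] J) (k : ℕ) :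
    s30t_map 𝒪 E x k = s30t_bc 𝒪 J E (x k) := rfl

theorem s30t_bc_commute {E E' : J →+ J} (h : ∀ x, E (E' x) = E' (E x)) (z : 𝒪 ⊗[ℤ] J) :
    s30t_bc 𝒪 J E (s30t_bc 𝒪 J E' z) = s30t_bc 𝒪 J E' (s30t_bc 𝒪 J E z) := by
  have e : E.comp E' = E'.comp E := AddMonoidHom.ext h
  have := congrArg (fun F => s30t_bc 𝒪 J F z) e
  simp only [s30t_bc_comp] at this
  exact this

theorem s30t_map_mem {E : J →+ J} (hE : ∀ i x, Θ i (E x) = E (Θ i x))
    {x : ℕ → 𝒪 ⊗[ℤ] J} (hx : x ∈ s30t_T 𝒪 p J Θ a) :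
    s30t_map 𝒪 E x ∈ s30t_T 𝒪 p J Θ a := by
  refine ⟨?_, fun k => ?_, fun k i => ?_⟩
  · rw [s30t_map_apply, hx.1, map_zero]
  · rw [s30t_map_apply, s30t_map_apply, ← map_smul, hx.2.1 k]
  · rw [s30t_map_apply, s30t_bc_commute (hE i), hx.2.2 k i, map_smul]

end Lattice

/-! ### Structure of the lattice -/

section Structure

open IsLocalRing

variable {𝒪 : Type} [CommRing 𝒪] [IsDomain 𝒪] [IsDiscreteValuationRing 𝒪] [CharZero 𝒪]
  {p : ℕ} {J : Type} [AddCommGroup J] {ι : Type*} {Θ : ι → (J →+ J)} {a : ι → 𝒪}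

theorem s30t_p_ne_zero (hp : p ≠ 0) : (p : 𝒪) ≠ 0 := by
  exact_mod_cast hp

/-- Every non-zero element of `𝒪` divides a power of `p`. -/
theorem s30t_dvd_pow (hp𝒪 : (p : 𝒪) ∈ maximalIdeal 𝒪) (c : 𝒪) (hc : c ≠ 0) :
    ∃ m : ℕ, c ∣ (p : 𝒪) ^ m := by
  obtain ⟨ϖ, hϖ⟩ := IsDiscreteValuationRing.exists_irreducible 𝒪
  obtain ⟨m, u, hu⟩ := IsDiscreteValuationRing.eq_unit_mul_pow_irreducible hc hϖ
  refine ⟨m, ?_⟩
  rw [hϖ.maximalIdeal_eq, Ideal.mem_span_singleton] at hp𝒪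
  have h1 : ϖ ^ m ∣ (p : 𝒪) ^ m := pow_dvd_pow_of_dvd hp𝒪 m
  rw [hu]
  exact (Units.mul_left_dvd).2 h1

/-- `𝔪^n = (p^k)` for a suitable `n`. -/
theorem s30t_exists_pow_eq (hp : p ≠ 0) (k : ℕ) :
    ∃ n : ℕ, maximalIdeal 𝒪 ^ n = Ideal.span {(p : 𝒪) ^ k} := by
  obtain ⟨ϖ, hϖ⟩ := IsDiscreteValuationRing.exists_irreducible 𝒪
  have hne : Ideal.span {(p : 𝒪) ^ k} ≠ ⊥ := by
    rw [Ne, Ideal.span_singleton_eq_bot]
    exact pow_ne_zero _ (s30t_p_ne_zero hp)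
  obtain ⟨n, hn⟩ := IsDiscreteValuationRing.ideal_eq_span_pow_irreducible hne hϖ
  exact ⟨n, by rw [hϖ.maximalIdeal_eq, Ideal.span_singleton_pow, hn]⟩

theorem s30t_torsionFree (hp𝒪 : (p : 𝒪) ∈ maximalIdeal 𝒪) :
    Module.IsTorsionFree 𝒪 ↥(s30t_T 𝒪 p J Θ a) := by
  refine Module.IsTorsionFree.of_smul_eq_zero fun c x hcx => ?_
  by_cases hc : c = 0
  · exact Or.inl hc
  right
  obtain ⟨m, c', hc'⟩ := s30t_dvd_pow hp𝒪 c hc
  have h1 : (p : 𝒪) ^ m • x = 0 := by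
    rw [hc', mul_comm, mul_smul, hcx, smul_zero]
  apply Subtype.ext
  funext k
  have h2 := s30t_pow_smul x.2 m k
  have h3 : ((p : 𝒪) ^ m • x).1 (k + m) = 0 := by rw [h1]; rfl
  rw [← h2]
  exact h3

theorem s30t_hausdorff (hp : p ≠ 0) :
    IsHausdorff (maximalIdeal 𝒪) ↥(s30t_T 𝒪 p J Θ a) := by
  refine ⟨fun x hx => ?_⟩
  apply Subtype.ext
  funext k
  obtain ⟨n, hn⟩ := s30t_exists_pow_eq (𝒪 := 𝒪) hp k
  have h1 := hx n
  rw [SModEq.zero, hn, Submodule.ideal_span_singleton_smul] at h1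
  obtain ⟨y, -, hy⟩ := h1
  have h2 : x.1 k = (p : 𝒪) ^ k • y.1 k := by
    rw [← hy]
    rfl
  rw [h2, s30t_kill y.2 k]
  rfl

/-- `{x | x 1 = 0} = p T`. -/
theorem s30t_eq_smul_of_apply_eq_zero (x : ↥(s30t_T 𝒪 p J Θ a)) (n : ℕ) (hx : x.1 n = 0) :
    ∃ y : ↥(s30t_T 𝒪 p J Θ a), x = (p : 𝒪) ^ n • y :=
  ⟨⟨s30t_shift n x.1, s30t_shift_mem x.2 n hx⟩, Subtype.ext (s30t_pow_smul_shift x.2 n).symm⟩

theorem s30t_mem_pow_smul_top (hp𝒪 : (p : 𝒪) ∈ maximalIdeal 𝒪) (x : ↥(s30t_T 𝒪 p J Θ a))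
    (n : ℕ) (hx : x.1 n = 0) :
    x ∈ (maximalIdeal 𝒪 ^ n • ⊤ : Submodule 𝒪 ↥(s30t_T 𝒪 p J Θ a)) := by
  obtain ⟨y, rfl⟩ := s30t_eq_smul_of_apply_eq_zero x n hx
  exact Submodule.smul_mem_smul (Ideal.pow_mem_pow hp𝒪 n) Submodule.mem_top

theorem s30t_finite [IsAdicComplete (maximalIdeal 𝒪) 𝒪] (hp : p ≠ 0)
    (hp𝒪 : (p : 𝒪) ∈ maximalIdeal 𝒪) (hfin : {x : J | p • x = 0}.Finite) :
    Module.Finite 𝒪 ↥(s30t_T 𝒪 p J Θ a) := by
  classical
  -- evaluation at `1`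
  set ev : ↥(s30t_T 𝒪 p J Θ a) →ₗ[𝒪] 𝒪 ⊗[ℤ] J :=
    (LinearMap.proj 1).comp (s30t_T 𝒪 p J Θ a).subtype with hev
  have hev_apply : ∀ x, ev x = x.1 1 := fun x => rfl
  -- the finitely generated module `𝒪 ⊗ J[p]`
  haveI hF : Finite ↥(Submodule.torsionBy ℤ J (p : ℤ)) := by
    have : Finite ↥{x : J | p • x = 0} := hfin.to_subtype
    refine Finite.of_injective
      (fun x : ↥(Submodule.torsionBy ℤ J (p : ℤ)) => (⟨x.1, by
        have := (Submodule.mem_torsionBy_iff _ _).1 x.2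
        rw [natCast_zsmul] at this
        exact this⟩ : ↥{x : J | p • x = 0})) ?_
    intro x y hxy
    have h := congrArg (fun w : ↥{x : J | p • x = 0} => (w : J)) hxy
    exact Subtype.ext h
  haveI : Module.Finite ℤ ↥(Submodule.torsionBy ℤ J (p : ℤ)) := Module.Finite.of_finite
  set R₁ : Submodule 𝒪 (𝒪 ⊗[ℤ] J) :=
    LinearMap.range ((Submodule.torsionBy ℤ J (p : ℤ)).subtype.baseChange 𝒪) with hR₁
  have hR₁fg : R₁.FG := by
    rw [hR₁, LinearMap.range_eq_map]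
    exact Submodule.FG.map _ (Module.Finite.fg_top)
  have hle : LinearMap.range ev ≤ R₁ := by
    rintro _ ⟨x, rfl⟩
    refine s30t_mem_range (p : ℤ) (x.1 1) ?_
    have := s30t_kill_int x.2 1
    rwa [pow_one] at this
  haveI : IsNoetherian 𝒪 ↥R₁ := isNoetherian_of_fg_of_noetherian R₁ hR₁fg
  have hfg : (LinearMap.range ev).FG := by
    have h1 : (Submodule.comap R₁.subtype (LinearMap.range ev)).FG :=
      IsNoetherian.noetherian _
    have h2 := Submodule.FG.map R₁.subtype h1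
    rwa [Submodule.map_comap_subtype, inf_eq_right.2 hle] at h2
  obtain ⟨d, z, hz⟩ := Submodule.fg_iff_exists_fin_generating_family.1 hfg
  have hzmem : ∀ j, z j ∈ LinearMap.range ev := fun j =>
    hz ▸ Submodule.subset_span (Set.mem_range_self j)
  choose t ht using hzmem
  set f : (Fin d → 𝒪) →ₗ[𝒪] ↥(s30t_T 𝒪 p J Θ a) := Fintype.linearCombination 𝒪 t with hf
  haveI := s30t_isPrecomplete_pi (maximalIdeal 𝒪) d
  haveI : IsHausdorff (maximalIdeal 𝒪) ↥(s30t_T 𝒪 p J Θ a) := s30t_hausdorff hp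
  have hsurj : Function.Surjective f := by
    apply surjective_of_mkQ_comp_surjective (I := maximalIdeal 𝒪)
    intro y
    obtain ⟨x, rfl⟩ := Submodule.mkQ_surjective _ y
    have h1 : ev x ∈ Submodule.span 𝒪 (Set.range z) := hz ▸ LinearMap.mem_range_self ev x
    obtain ⟨c, hc⟩ := (Submodule.mem_span_range_iff_exists_fun 𝒪).1 h1
    refine ⟨c, ?_⟩
    rw [LinearMap.comp_apply, Submodule.mkQ_apply, Submodule.mkQ_apply, Submodule.Quotient.eq]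
    have hu1 : (f c - x).1 1 = 0 := by
      have e1 : ev (f c) = ∑ i, c i • z i := by
        rw [hf, Fintype.linearCombination_apply, map_sum]
        refine Finset.sum_congr rfl fun i _ => ?_
        rw [map_smul, ht i]
      have e2 : ev (f c - x) = 0 := by rw [map_sub, e1, hc, sub_self]
      exact e2
    have := s30t_mem_pow_smul_top hp𝒪 (f c - x) 1 hu1
    rwa [pow_one] at this
  exact Module.Finite.of_surjective f hsurj

theorem s30t_free [IsAdicComplete (maximalIdeal 𝒪) 𝒪] (hp : p ≠ 0)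
    (hp𝒪 : (p : 𝒪) ∈ maximalIdeal 𝒪) (hfin : {x : J | p • x = 0}.Finite) :
    Module.Free 𝒪 ↥(s30t_T 𝒪 p J Θ a) := by
  haveI := s30t_finite (Θ := Θ) (a := a) hp hp𝒪 hfin
  haveI := s30t_torsionFree (Θ := Θ) (a := a) hp𝒪
  exact Module.free_of_finite_type_torsion_free'

end Structure

/-! ### Relations on torsion points pass to the lattice -/

section Rel

variable {𝒪 : Type} [CommRing 𝒪] {J : Type} [AddCommGroup J]

theorem s30t_natCast_smul (n : ℕ) (z : 𝒪 ⊗[ℤ] J) : (n : 𝒪) • z = ((n : ℕ) : ℤ) • z := by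
  rw [Nat.cast_smul_eq_nsmul, natCast_zsmul]

theorem s30t_intCast_smul (c : ℤ) (z : 𝒪 ⊗[ℤ] J) : (c : 𝒪) • z = c • z :=
  Int.cast_smul_eq_zsmul 𝒪 c z

/-- Two endomorphisms of `J` which agree on `J[m]` agree, after base change, on `(𝒪 ⊗ J)[m]`. -/
theorem s30t_bc_congr [Module.Flat ℤ 𝒪] (m : ℤ) (E E' : J →+ J)
    (h : ∀ x : J, m • x = 0 → E x = E' x) (z : 𝒪 ⊗[ℤ] J) (hz : m • z = 0) :
    s30t_bc 𝒪 J E z = s30t_bc 𝒪 J E' z := by
  have h1 := s30t_bc_eq_zero (𝒪 := 𝒪) m (E.toIntLinearMap - E'.toIntLinearMap)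
    (fun x hx => by
      rw [LinearMap.sub_apply]
      exact sub_eq_zero.2 (h x hx)) z hz
  rw [LinearMap.baseChange_sub, LinearMap.sub_apply, sub_eq_zero] at h1
  exact h1

/-- A quadratic relation on `J[m]` gives the same relation on `(𝒪 ⊗ J)[m]`. -/
theorem s30t_bc_quad [Module.Flat ℤ 𝒪] (m : ℤ) (E Θ : J →+ J) (c : ℤ)
    (h : ∀ x : J, m • x = 0 → E (E x) - Θ (E x) + c • x = 0) (z : 𝒪 ⊗[ℤ] J) (hz : m • z = 0) :
    s30t_bc 𝒪 J E (s30t_bc 𝒪 J E z) - s30t_bc 𝒪 J Θ (s30t_bc 𝒪 J E z) + (c : 𝒪) • z = 0 := by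
  have h1 := s30t_bc_eq_zero (𝒪 := 𝒪) m
    (E.toIntLinearMap ∘ₗ E.toIntLinearMap - Θ.toIntLinearMap ∘ₗ E.toIntLinearMap
      + c • LinearMap.id)
    (fun x hx => h x hx) z hz
  rw [LinearMap.baseChange_add, LinearMap.baseChange_sub, LinearMap.baseChange_comp,
    LinearMap.baseChange_comp, LinearMap.baseChange_smul, LinearMap.baseChange_id] at h1
  rw [s30t_intCast_smul]
  exact h1

end Rel

/-! ### The action of `G` -/

section Action

variable {𝒪 : Type} [CommRing 𝒪] {p : ℕ} {J : Type} [AddCommGroup J]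
  {ι : Type*} {Θ : ι → (J →+ J)} {a : ι → 𝒪} {G : Type*} [Group G]
  (act : G →* AddMonoid.End J) (hcomm : ∀ i g x, Θ i (act g x) = act g (Θ i x))

/-- The action of `G` on the eigen-lattice. -/
noncomputable def s30t_r : G →* Module.End 𝒪 ↥(s30t_T 𝒪 p J Θ a) where
  toFun g := (s30t_map 𝒪 (act g : J →+ J)).restrict
    (fun x hx => s30t_map_mem (fun i y => hcomm i g y) hx)
  map_one' := by
    apply LinearMap.ext
    intro x
    apply Subtype.ext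
    funext k
    change s30t_bc 𝒪 J (act 1 : J →+ J) (x.1 k) = x.1 k
    rw [map_one]
    exact congrArg (fun F : Module.End 𝒪 (𝒪 ⊗[ℤ] J) => F (x.1 k)) (s30t_bc_id 𝒪 J)
  map_mul' g h := by
    apply LinearMap.ext
    intro x
    apply Subtype.ext
    funext k
    change s30t_bc 𝒪 J (act (g * h) : J →+ J) (x.1 k)
      = s30t_bc 𝒪 J (act g : J →+ J) (s30t_bc 𝒪 J (act h : J →+ J) (x.1 k))
    rw [map_mul]
    exact congrArg (fun F : Module.End 𝒪 (𝒪 ⊗[ℤ] J) => F (x.1 k))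
      (s30t_bc_comp 𝒪 J (act g) (act h))

theorem s30t_r_apply (g : G) (x : ↥(s30t_T 𝒪 p J Θ a)) (k : ℕ) :
    (s30t_r (𝒪 := 𝒪) (p := p) (a := a) act hcomm g x).1 k
      = s30t_bc 𝒪 J (act g : J →+ J) (x.1 k) := rfl

end Action


/-! ### The three clauses -/

section Clauses

open IsLocalRing

variable {𝒪 : Type} [CommRing 𝒪] [IsDomain 𝒪] [IsDiscreteValuationRing 𝒪] [CharZero 𝒪]
  {p : ℕ} {J : Type} [AddCommGroup J]
  {ι : Type*} {Θ : ι → (J →+ J)} {a : ι → 𝒪} {G : Type*} [Group G]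
  (act : G →* AddMonoid.End J) (hcomm : ∀ i g x, Θ i (act g x) = act g (Θ i x))

theorem s30t_r_sub_apply_eq_zero (g : G) (n : ℕ)
    (hg : ∀ x : J, p ^ n • x = 0 → act g x = x) (v : ↥(s30t_T 𝒪 p J Θ a)) :
    (s30t_r (𝒪 := 𝒪) (p := p) (a := a) act hcomm g v - v).1 n = 0 := by
  change s30t_bc 𝒪 J (act g : J →+ J) (v.1 n) - v.1 n = 0
  rw [sub_eq_zero]
  have h1 := s30t_bc_congr (𝒪 := 𝒪) (((p ^ n : ℕ) : ℤ)) (act g : J →+ J) (AddMonoidHom.id J)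
    (fun x hx => by
      rw [natCast_zsmul] at hx
      exact hg x hx) (v.1 n) (s30t_kill_int v.2 n)
  rw [h1]
  exact congrArg (fun F : Module.End 𝒪 (𝒪 ⊗[ℤ] J) => F (v.1 n)) (s30t_bc_id 𝒪 J)

theorem s30t_cont (hp𝒪 : (p : 𝒪) ∈ maximalIdeal 𝒪) (n : ℕ) (g : G)
    (hg : ∀ x : J, p ^ n • x = 0 → act g x = x) (v : ↥(s30t_T 𝒪 p J Θ a)) :
    s30t_r (𝒪 := 𝒪) (p := p) (a := a) act hcomm g v - v
      ∈ (maximalIdeal 𝒪 ^ n • ⊤ : Submodule 𝒪 ↥(s30t_T 𝒪 p J Θ a)) :=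
  s30t_mem_pow_smul_top hp𝒪 _ n (s30t_r_sub_apply_eq_zero act hcomm g n hg v)

theorem s30t_triv (g : G)
    (hg : ∀ (k : ℕ) (x : J), p ^ k • x = 0 → act g x = x) :
    s30t_r (𝒪 := 𝒪) (p := p) (a := a) act hcomm g = 1 := by
  apply LinearMap.ext
  intro v
  rw [← sub_eq_zero]
  apply Subtype.ext
  funext k
  exact s30t_r_sub_apply_eq_zero act hcomm g k (hg k) v

theorem s30t_quad (g : G) (i : ι) (c : ℤ)
    (hg : ∀ (k : ℕ) (x : J), p ^ k • x = 0 →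
      act g (act g x) - Θ i (act g x) + c • x = 0) :
    s30t_r (𝒪 := 𝒪) (p := p) (a := a) act hcomm g * s30t_r (𝒪 := 𝒪) (p := p) (a := a) act hcomm g
      - a i • s30t_r (𝒪 := 𝒪) (p := p) (a := a) act hcomm g
      + (c : 𝒪) • (1 : Module.End 𝒪 ↥(s30t_T 𝒪 p J Θ a)) = 0 := by
  apply LinearMap.ext
  intro v
  apply Subtype.ext
  funext k
  have h1 := s30t_bc_quad (𝒪 := 𝒪) (((p ^ k : ℕ) : ℤ)) (act g : J →+ J) (Θ i) c
    (fun x hx => by
      rw [natCast_zsmul] at hx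
      exact hg k x hx) (v.1 k) (s30t_kill_int v.2 k)
  have h2 : s30t_bc 𝒪 J (Θ i) (s30t_bc 𝒪 J (act g : J →+ J) (v.1 k))
      = a i • s30t_bc 𝒪 J (act g : J →+ J) (v.1 k) :=
    (s30t_r (𝒪 := 𝒪) (p := p) (a := a) act hcomm g v).2.2.2 k i
  rw [h2] at h1
  exact h1

end Clauses

/-! ### Non-triviality -/

section Seq

open IsLocalRing

variable {𝒪 : Type} [CommRing 𝒪] [IsDomain 𝒪] [IsDiscreteValuationRing 𝒪] [CharZero 𝒪]
  {p : ℕ} {J : Type} [AddCommGroup J]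
  {ι : Type*} {Θ : ι → (J →+ J)} {a : ι → 𝒪}
  {Λ : Type} [AddCommGroup Λ]
  (t : ι → Module.End ℤ Λ) (D : ℕ → Λ →+ J)

/-- The sequence attached to an element of `𝒪 ⊗ Λ`. -/
noncomputable def s30t_seq (w : 𝒪 ⊗[ℤ] Λ) : ℕ → 𝒪 ⊗[ℤ] J :=
  fun k => (D k).toIntLinearMap.baseChange 𝒪 w

theorem s30t_seq_mem (hD : ∀ k c, p ^ k • D k c = 0)
    (hcompat : ∀ k c, p • D (k + 1) c = D k c) (hDt : ∀ k i c, D k (t i c) = Θ i (D k c))
    (w₀ : 𝒪 ⊗[ℤ] Λ) (hw : ∀ i, LinearMap.baseChange 𝒪 (t i) w₀ = a i • w₀) :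
    s30t_seq D w₀ ∈ s30t_T 𝒪 p J Θ a := by
  refine ⟨?_, fun k => ?_, fun k i => ?_⟩
  · have e : (D 0).toIntLinearMap = 0 := by
      apply LinearMap.ext
      intro c
      have := hD 0 c
      rw [pow_zero, one_smul] at this
      exact this
    change (D 0).toIntLinearMap.baseChange 𝒪 w₀ = 0
    rw [e, LinearMap.baseChange_zero, LinearMap.zero_apply]
  · have e : ((p : ℕ) : ℤ) • (D (k + 1)).toIntLinearMap = (D k).toIntLinearMap := by
      apply LinearMap.ext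
      intro c
      rw [LinearMap.smul_apply, natCast_zsmul]
      exact hcompat k c
    change (p : 𝒪) • (D (k + 1)).toIntLinearMap.baseChange 𝒪 w₀
      = (D k).toIntLinearMap.baseChange 𝒪 w₀
    rw [← e, LinearMap.baseChange_smul, LinearMap.smul_apply, s30t_natCast_smul]
  · have e : (Θ i).toIntLinearMap ∘ₗ (D k).toIntLinearMap = (D k).toIntLinearMap ∘ₗ t i := by
      apply LinearMap.ext
      intro c
      exact (hDt k i c).symm
    change (Θ i).toIntLinearMap.baseChange 𝒪 ((D k).toIntLinearMap.baseChange 𝒪 w₀)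
      = a i • (D k).toIntLinearMap.baseChange 𝒪 w₀
    rw [← LinearMap.comp_apply, ← LinearMap.baseChange_comp, e, LinearMap.baseChange_comp,
      LinearMap.comp_apply, hw i, map_smul]

theorem s30t_seq_ne_zero [Module.Finite ℤ Λ] (hp𝒪 : (p : 𝒪) ∈ maximalIdeal 𝒪)
    (hD : ∀ k c, p ^ k • D k c = 0) (hker : ∀ k c, D k c = 0 → ∃ c', c = p ^ k • c')
    (w₀ : 𝒪 ⊗[ℤ] Λ) (hw₀ : w₀ ≠ 0) : s30t_seq (𝒪 := 𝒪) D w₀ ≠ 0 := by
  intro h0
  apply hw₀
  have hk : ∀ k : ℕ, ∃ y : 𝒪 ⊗[ℤ] Λ, w₀ = (p : 𝒪) ^ k • y := by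
    intro k
    have hex : Function.Exact (DistribSMul.toLinearMap ℤ Λ (((p ^ k : ℕ) : ℤ)))
        (D k).toIntLinearMap := by
      intro c
      constructor
      · intro hc
        obtain ⟨c', hc'⟩ := hker k c hc
        exact ⟨c', by rw [hc']; exact natCast_zsmul c' (p ^ k)⟩
      · rintro ⟨c', rfl⟩
        have : (D k) (((p ^ k : ℕ) : ℤ) • c') = 0 := by
          rw [natCast_zsmul, map_nsmul]
          exact hD k c'
        exact this
    have h1 := Module.Flat.lTensor_exact 𝒪 hex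
    have e : ∀ w : 𝒪 ⊗[ℤ] Λ,
        LinearMap.lTensor 𝒪 (DistribSMul.toLinearMap ℤ Λ (((p ^ k : ℕ) : ℤ))) w
          = (((p ^ k : ℕ) : ℤ)) • w := by
      intro w
      induction w using TensorProduct.induction_on with
      | zero => simp
      | tmul c x =>
          rw [LinearMap.lTensor_tmul, TensorProduct.smul_tmul']
          exact (TensorProduct.smul_tmul _ c x).symm
      | add x y hx hy => rw [map_add, hx, hy, smul_add]
    have h2 : LinearMap.lTensor 𝒪 (D k).toIntLinearMap w₀ = 0 := congrFun h0 k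
    obtain ⟨y, hy⟩ := (h1 w₀).1 h2
    refine ⟨y, ?_⟩
    rw [← hy, e, ← Nat.cast_pow, s30t_natCast_smul]
  have hH : IsHausdorff (maximalIdeal 𝒪) (𝒪 ⊗[ℤ] Λ) := inferInstance
  refine IsHausdorff.haus hH w₀ fun n => ?_
  rw [SModEq.zero]
  obtain ⟨y, hy⟩ := hk n
  rw [hy]
  exact Submodule.smul_mem_smul (Ideal.pow_mem_pow hp𝒪 n) Submodule.mem_top

end Seq

/-! ### The theorem -/

/-- **[TATE-ABS]** the abstract Tate eigen-lattice. -/
theorem s30t_main' (p : ℕ) [Fact p.Prime] (𝒪 : Type) [CommRing 𝒪] [IsDomain 𝒪]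
    [IsDiscreteValuationRing 𝒪] [IsAdicComplete (IsLocalRing.maximalIdeal 𝒪) 𝒪] [CharZero 𝒪]
    (hp𝒪 : (p : 𝒪) ∈ IsLocalRing.maximalIdeal 𝒪)
    (J : Type) [AddCommGroup J] (hfin : {x : J | p • x = 0}.Finite)
    (G : Type) [Group G] (act : G →* AddMonoid.End J) (ι : Type) (Θ : ι → J →+ J)
    (hcomm : ∀ i g x, Θ i (act g x) = act g (Θ i x))
    (Λ : Type) [AddCommGroup Λ] [Module.Finite ℤ Λ]
    (t : ι → Module.End ℤ Λ) (D : ℕ → Λ →+ J)
    (hD : ∀ k c, p ^ k • D k c = 0) (hker : ∀ k c, D k c = 0 → ∃ c', c = p ^ k • c')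
    (hcompat : ∀ k c, p • D (k + 1) c = D k c) (hDt : ∀ k i c, D k (t i c) = Θ i (D k c))
    (a : ι → 𝒪) (w₀ : 𝒪 ⊗[ℤ] Λ) (hw₀ : w₀ ≠ 0)
    (hw : ∀ i, LinearMap.baseChange 𝒪 (t i) w₀ = a i • w₀) :
    ∃ (T : Type) (_ : AddCommGroup T) (_ : Module 𝒪 T) (_ : Module.Free 𝒪 T)
      (_ : Module.Finite 𝒪 T) (_ : Nontrivial T) (r : G →* Module.End 𝒪 T),
      (∀ (n : ℕ) (g : G), (∀ x : J, p ^ n • x = 0 → act g x = x) →
        ∀ v : T, r g v - v ∈ (IsLocalRing.maximalIdeal 𝒪 ^ n) • (⊤ : Submodule 𝒪 T)) ∧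
      (∀ g : G, (∀ (k : ℕ) (x : J), p ^ k • x = 0 → act g x = x) → r g = 1) ∧
      (∀ (g : G) (i : ι) (c : ℤ), (∀ (k : ℕ) (x : J), p ^ k • x = 0 →
          act g (act g x) - Θ i (act g x) + c • x = 0) →
        r g * r g - a i • r g + (c : 𝒪) • (1 : Module.End 𝒪 T) = 0) := by
  have hp : p ≠ 0 := (Fact.out : p.Prime).ne_zero
  have hnt : Nontrivial ↥(s30t_T 𝒪 p J Θ a) := by
    refine ⟨⟨⟨s30t_seq D w₀, s30t_seq_mem t D hD hcompat hDt w₀ hw⟩, 0, fun h => ?_⟩⟩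
    exact s30t_seq_ne_zero D hp𝒪 hD hker w₀ hw₀ (congrArg Subtype.val h)
  exact ⟨↥(s30t_T 𝒪 p J Θ a), inferInstance, inferInstance,
    s30t_free hp hp𝒪 hfin, s30t_finite hp hp𝒪 hfin, hnt, s30t_r act hcomm,
    fun n g hg v => s30t_cont act hcomm hp𝒪 n g hg v,
    fun g hg => s30t_triv act hcomm g hg,
    fun g i c hg => s30t_quad act hcomm g i c hg⟩

end Fermat.Agent.S30
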