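/-
S30 [TATE-ABS] (helper27): the abstract Tate eigen-lattice in the shape of `S30/ModDefs.lean`.
-/
import Fermat.Agent.S30.ModDefs
import Fermat.Agent.S30.TateAbs

set_option autoImplicit false

namespace Fermat.Agent.S30

/-- **[TATE-ABS]**, verbatim `S30/ModDefs.lean`. -/
theorem s30t_main : s30m_TateStatement := by
  intro p _ 𝒪 _ _ _ _ _ hp𝒪 J _ hfin G _ act ι Θ hcomm Λ _ _ _ t D hD hker hcompat hDt a w₀ hw₀ hw
  exact s30t_main' p 𝒪 hp𝒪 J hfin G act ι Θ hcomm Λ t D hD hker hcompat hDt a w₀ hw₀ hw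

end Fermat.Agent.S30
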